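import Fermat.Agent.Dim.Evaluation

/-!
# The weights of the graded basis and the dimensions of the spaces of forms
-/

set_option autoImplicit false

noncomputable section

open UpperHalfPlane ModularForm Filter Topology
open scoped MatrixGroups ModularForm Manifold

namespace FLTA.Dim

/-- Bundled and unbundled level one forms agree. -/
def levelOneEquiv (n : ℤ) : ModularForm 𝒮ℒ n ≃ₗ[ℂ] MF (⊤ : Subgroup SL(2, ℤ)) n where
  toFun f := ⟨⇑f, coe_mem_MF_top f⟩
  map_add' _ _ := rfl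
  map_smul' _ _ := rfl
  invFun f := MF.toLevelOne f.2
  left_inv _ := rfl
  right_inv _ := rfl

instance finiteDimensional_MF_top (n : ℤ) :
    FiniteDimensional ℂ (MF (⊤ : Subgroup SL(2, ℤ)) n) :=
  (levelOneEquiv n).finiteDimensional

/-- The dimension of the level one forms of weight `n`. -/
def dimTop (n : ℤ) : ℕ :=
  if n < 0 ∨ n % 2 = 1 then 0 else if n % 12 = 2 then (n / 12).toNat else (n / 12).toNat + 1

theorem finrank_MF_top (n : ℤ) :
    Module.finrank ℂ (MF (⊤ : Subgroup SL(2, ℤ)) n) = dimTop n := by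
  rw [← (levelOneEquiv n).finrank_eq]
  rcases lt_or_ge n 0 with hn | hn
  · rw [dimTop, if_pos (Or.inl hn)]
    exact Module.finrank_eq_of_rank_eq (by rw [levelOne_neg_weight_rank_zero hn]; simp)
  rcases Int.even_or_odd n with he | ho
  swap
  · rw [dimTop, if_pos (Or.inr (Int.odd_iff.mp ho))]
    exact Module.finrank_eq_of_rank_eq (by rw [levelOne_odd_weight_rank_zero ho]; simp)
  lift n to ℕ using hn
  have hne : ¬((n : ℤ) < 0 ∨ (n : ℤ) % 2 = 1) := by
    have := Int.even_iff.mp he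
    omega
  rw [dimTop, if_neg hne]
  refine Module.finrank_eq_of_rank_eq ?_
  rw [dimension_level_one n (mod_cast he)]
  have hdiv : ((n : ℤ) / 12).toNat = n / 12 := by omega
  rw [hdiv]
  have hiff : n ≡ 2 [MOD 12] ↔ (n : ℤ) % 12 = 2 := by simp only [Nat.ModEq]; omega
  by_cases h : (n : ℤ) % 12 = 2
  · rw [if_pos (hiff.mpr h), if_pos h]
  · rw [if_neg (hiff.not.mpr h), if_neg h]

variable {Γ : Subgroup SL(2, ℤ)} [Γ.FiniteIndex]

/-- The combination map of the graded basis. -/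
def combMap [Fintype (GenIdx Γ)] (k : ℤ) :
    (∀ i : GenIdx Γ, MF (⊤ : Subgroup SL(2, ℤ)) (k - i.wt)) →ₗ[ℂ] MF Γ k where
  toFun A := ⟨∑ i, (A i : ℍ → ℂ) * i.form,
    sum_mem fun i _ ↦ top_mul_mem (by ring) (A i).2 i.form_mem⟩
  map_add' A B := by
    refine Subtype.ext ?_
    simp [add_mul, Finset.sum_add_distrib]
  map_smul' c A := by
    refine Subtype.ext ?_
    simp [Finset.smul_sum]

theorem combMap_bijective [Fintype (GenIdx Γ)] (k : ℤ) :
    Function.Bijective (combMap (Γ := Γ) k) := by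
  classical
  refine ⟨?_, fun F ↦ ?_⟩
  · rw [injective_iff_map_eq_zero]
    intro A hA
    funext i
    exact Subtype.ext (gen_indep (k := k) Finset.univ (fun j ↦ (A j : ℍ → ℂ))
      (fun j _ ↦ (A j).2) (congrArg Subtype.val hA) i (Finset.mem_univ i))
  · obtain ⟨s, A, hA, hA0, hsum⟩ := exists_sum_of_mem_genSpan (MF_le_genSpan k F.2)
    refine ⟨fun i ↦ ⟨A i, hA i⟩, Subtype.ext ?_⟩
    show ∑ i, A i * i.form = _
    rw [← hsum]
    exact (Finset.sum_subset (Finset.subset_univ s) fun i _ hi ↦ by simp [hA0 i hi]).symm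

/-- Forms of weight `k` in coordinates over the level one forms. -/
def combEquiv [Fintype (GenIdx Γ)] (k : ℤ) :
    (∀ i : GenIdx Γ, MF (⊤ : Subgroup SL(2, ℤ)) (k - i.wt)) ≃ₗ[ℂ] MF Γ k :=
  LinearEquiv.ofBijective _ (combMap_bijective k)

theorem finiteDimensional_MF (hneg : (-1 : SL(2, ℤ)) ∈ Γ) (k : ℤ) :
    FiniteDimensional ℂ (MF Γ k) :=
  letI := fintypeGenIdx hneg
  (combEquiv (Γ := Γ) k).finiteDimensional

theorem finiteDimensional_SF (hneg : (-1 : SL(2, ℤ)) ∈ Γ) (k : ℤ) :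
    FiniteDimensional ℂ (SF Γ k) :=
  have := finiteDimensional_MF hneg k
  Submodule.finiteDimensional_of_le SF_le_MF

/-- The dimension in terms of the weights. -/
theorem finrank_MF_eq [Fintype (GenIdx Γ)] (k : ℤ) :
    Module.finrank ℂ (MF Γ k) = ∑ i : GenIdx Γ, dimTop (k - i.wt) := by
  rw [← (combEquiv k).finrank_eq, Module.finrank_pi_fintype]
  exact Finset.sum_congr rfl fun i _ ↦ finrank_MF_top _

theorem finrank_MF_zero : Module.finrank ℂ (MF Γ 0) = 1 := by
  refine finrank_eq_one ⟨1, one_mem_MF⟩ ?_ fun f ↦ ?_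
  · exact fun h ↦ one_ne_zero (congrFun (congrArg Subtype.val h) UpperHalfPlane.I)
  · obtain ⟨c, hc⟩ := exists_eq_const_of_mem_MF_zero f.2
    exact ⟨c, Subtype.ext (by ext z; simp [hc])⟩

/-- The number of generators of weight `w`. -/
def wtCount (Γ : Subgroup SL(2, ℤ)) (w : ℤ) : ℕ := Nat.card {i : GenIdx Γ // i.wt = w}

theorem wtCount_eq [Fintype (GenIdx Γ)] (w : ℤ) :
    wtCount Γ w = (Finset.univ.filter fun i : GenIdx Γ ↦ i.wt = w).card := by
  rw [wtCount, Nat.card_eq_fintype_card, Fintype.card_subtype]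

/-- There is exactly one generator of weight zero. -/
theorem wtCount_zero (hneg : (-1 : SL(2, ℤ)) ∈ Γ) : wtCount Γ 0 = 1 := by
  classical
  let := fintypeGenIdx hneg
  rw [← finrank_MF_zero (Γ := Γ), finrank_MF_eq, wtCount_eq, Finset.card_filter]
  refine Finset.sum_congr rfl fun i _ ↦ ?_
  rcases (GenIdx.wt_nonneg i).eq_or_lt with h | h
  · rw [if_pos h.symm, ← h]; rfl
  · rw [if_neg h.ne', dimTop, if_pos (Or.inl (by linarith))]

/-- A sum over the generators, split by weight. -/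
theorem sum_by_wt [Fintype (GenIdx Γ)] (hneg : (-1 : SL(2, ℤ)) ∈ Γ)
    (h10 : ∀ i : GenIdx Γ, i.wt ≤ 10) {R : Type*} [CommSemiring R] (F : ℤ → R) :
    ∑ i : GenIdx Γ, F i.wt = wtCount Γ 0 * F 0 + wtCount Γ 2 * F 2 + wtCount Γ 4 * F 4 +
      wtCount Γ 6 * F 6 + wtCount Γ 8 * F 8 + wtCount Γ 10 * F 10 := by
  classical
  have hmaps : ∀ i ∈ (Finset.univ : Finset (GenIdx Γ)), i.wt ∈ ({0, 2, 4, 6, 8, 10} : Finset ℤ) := by
    intro i _
    have := GenIdx.wt_nonneg i
    have := h10 i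
    have := Int.even_iff.mp (GenIdx.wt_even hneg i)
    simp only [Finset.mem_insert, Finset.mem_singleton]
    omega
  rw [← Finset.sum_fiberwise_of_maps_to hmaps]
  have hfib : ∀ w : ℤ, ∑ i ∈ Finset.univ.filter (fun i : GenIdx Γ ↦ i.wt = w), F i.wt =
      wtCount Γ w * F w := by
    intro w
    rw [Finset.sum_congr rfl fun i hi ↦ by rw [(Finset.mem_filter.mp hi).2], Finset.sum_const,
      nsmul_eq_mul, ← wtCount_eq]
  simp only [hfib]
  rw [Finset.sum_insert (by decide), Finset.sum_insert (by decide), Finset.sum_insert (by decide),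
    Finset.sum_insert (by decide), Finset.sum_insert (by decide), Finset.sum_singleton]
  simp only [add_assoc]

variable (hneg : (-1 : SL(2, ℤ)) ∈ Γ) (hsep : Separating Γ) (h10 : ∀ i : GenIdx Γ, i.wt ≤ 10)
include hneg h10

include hsep in
theorem wtCount_add_eq_card_cosets :
    (wtCount Γ 0 + wtCount Γ 2 + wtCount Γ 4 + wtCount Γ 6 + wtCount Γ 8 + wtCount Γ 10 : ℤ) =
      Nat.card (Cosets Γ) := by
  let := fintypeGenIdx hneg
  rw [← card_genIdx hneg hsep, Nat.card_eq_fintype_card, ← Finset.card_univ,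
    Finset.card_eq_sum_ones, Nat.cast_sum, Nat.cast_one,
    sum_by_wt hneg h10 (fun _ ↦ (1 : ℤ))]
  ring

include hsep in
theorem wtCount_fixed_S :
    (wtCount Γ 0 - wtCount Γ 2 + wtCount Γ 4 - wtCount Γ 6 + wtCount Γ 8 - wtCount Γ 10 : ℤ) =
      Nat.card {x : Cosets Γ // ModularGroup.S • x = x} := by
  let := fintypeGenIdx hneg
  have h := sum_zpow_eq_card_fixed hneg hsep
    (ModularGroup.stabilizer_I.mpr (by simp) : ModularGroup.S • UpperHalfPlane.I = UpperHalfPlane.I)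
  simp only [denom_S_I] at h
  rw [sum_by_wt hneg h10 (fun w ↦ (Complex.I ^ w)⁻¹)] at h
  have e2 : Complex.I ^ (2 : ℤ) = -1 := by exact_mod_cast Complex.I_sq
  have e4 : Complex.I ^ (4 : ℤ) = 1 := by exact_mod_cast Complex.I_pow_four
  have e6 : Complex.I ^ (6 : ℤ) = -1 := by
    rw [show (6 : ℤ) = 4 + 2 by rfl, zpow_add₀ Complex.I_ne_zero, e4, e2, one_mul]
  have e8 : Complex.I ^ (8 : ℤ) = 1 := by
    rw [show (8 : ℤ) = 4 + 4 by rfl, zpow_add₀ Complex.I_ne_zero, e4, one_mul]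
  have e10 : Complex.I ^ (10 : ℤ) = -1 := by
    rw [show (10 : ℤ) = 8 + 2 by rfl, zpow_add₀ Complex.I_ne_zero, e8, e2, one_mul]
  rw [zpow_zero, e2, e4, e6, e8, e10] at h
  norm_num at h
  apply Int.cast_injective (α := ℂ)
  push_cast
  linear_combination h

include hsep in
theorem wtCount_fixed_ST :
    (wtCount Γ 2 + wtCount Γ 8 : ℤ) = wtCount Γ 4 + wtCount Γ 10 ∧
    (wtCount Γ 0 + wtCount Γ 6 - wtCount Γ 2 - wtCount Γ 8 : ℤ) =
      Nat.card {x : Cosets Γ // (ModularGroup.S * ModularGroup.T) • x = x} := by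
  let := fintypeGenIdx hneg
  have hfix : (ModularGroup.S * ModularGroup.T) • UpperHalfPlane.ρ = UpperHalfPlane.ρ :=
    ModularGroup.stabilizer_ρ.mpr (by simp)
  have h := sum_zpow_eq_card_fixed hneg hsep hfix
  simp only [denom_ST_rho] at h
  rw [sum_by_wt hneg h10 (fun w ↦ (((UpperHalfPlane.ρ : ℂ) + 1) ^ w)⁻¹)] at h
  set r := (UpperHalfPlane.ρ : ℂ) with hr
  have hr0 : r ≠ 0 := UpperHalfPlane.ne_zero _
  have hne : r + 1 ≠ 0 := fun h0 ↦ by
    have h' := rho_add_one_sq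
    rw [← hr, h0] at h'
    exact hr0 (by simpa using h'.symm)
  have hr2 : r⁻¹ = r ^ 2 := inv_eq_of_mul_eq_one_right (by rw [← pow_succ']; exact rho_cube)
  have e2 : (r + 1) ^ (2 : ℤ) = r := by exact_mod_cast rho_add_one_sq
  have e6 : (r + 1) ^ (6 : ℤ) = 1 := rho_add_one_zpow_six
  have e4 : (r + 1) ^ (4 : ℤ) = r ^ 2 := by
    rw [show (4 : ℤ) = 2 + 2 by rfl, zpow_add₀ hne, e2, sq]
  have e8 : (r + 1) ^ (8 : ℤ) = r := by
    rw [show (8 : ℤ) = 6 + 2 by rfl, zpow_add₀ hne, e6, e2, one_mul]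
  have e10 : (r + 1) ^ (10 : ℤ) = r ^ 2 := by
    rw [show (10 : ℤ) = 6 + 4 by rfl, zpow_add₀ hne, e6, e4, one_mul]
  have e2' : (r ^ 2)⁻¹ = r := by rw [← hr2, inv_inv]
  rw [zpow_zero, e2, e4, e6, e8, e10, inv_one, hr2, e2', UpperHalfPlane.ρ_sq] at h
  have him : r.im ≠ 0 := UpperHalfPlane.im_ne_zero _
  have key : (((wtCount Γ 4 : ℤ) + wtCount Γ 10 - (wtCount Γ 2 + wtCount Γ 8) : ℤ) : ℂ) * r =
      ((Nat.card {x : Cosets Γ // (ModularGroup.S * ModularGroup.T) • x = x} : ℤ) -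
        (wtCount Γ 0 + wtCount Γ 6 - wtCount Γ 2 - wtCount Γ 8) : ℤ) := by
    push_cast
    linear_combination h
  have h1 : ((wtCount Γ 4 : ℤ) + wtCount Γ 10 - (wtCount Γ 2 + wtCount Γ 8)) = 0 := by
    have h' := congrArg Complex.im key
    rw [Complex.mul_im, Complex.intCast_im, Complex.intCast_im, zero_mul, add_zero] at h'
    have h'' := (mul_eq_zero.mp h').resolve_right him
    rw [Complex.intCast_re] at h''
    exact_mod_cast h''
  refine ⟨by omega, ?_⟩
  rw [h1, Int.cast_zero, zero_mul] at key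
  have h2 := Int.cast_eq_zero.mp key.symm
  omega

end FLTA.Dim
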