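import Fermat.Agent.Dim.Infinity
import Fermat.Agent.Dim.Weights

/-!
# The dual basis: cusp forms and the bound on the weights

`Δ` times a row of the inverse value matrix is a cusp form of weight `12 - w`, and these forms
form a basis of the cusp forms over the level one forms.
-/

set_option autoImplicit false

noncomputable section

open UpperHalfPlane ModularForm Filter Topology Asymptotics
open scoped MatrixGroups ModularForm Manifold

namespace FLTA.Dim

local notation "Δf" => ModularForm.discriminant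

variable {Γ : Subgroup SL(2, ℤ)}

variable [Γ.FiniteIndex]

lemma SF_eq_bot_of_nonpos {k : ℤ} (hk : k ≤ 0) : SF Γ k = ⊥ := by
  rw [eq_bot_iff]
  intro f hf
  rcases hk.lt_or_eq with h | rfl
  · have h0 := SF_le_MF hf
    rwa [MF_eq_bot_of_neg h] at h0
  obtain ⟨c, rfl⟩ := exists_eq_const_of_mem_MF_zero (Γ := Γ) (SF_le_MF hf)
  have h := SF.isZero hf 1
  rw [SlashAction.slash_one] at h
  have hc : c = 0 := tendsto_nhds_unique tendsto_const_nhds h
  simp only [hc]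
  exact Submodule.zero_mem (⊥ : Submodule ℂ (ℍ → ℂ))

variable [Fintype (Cosets Γ)] [DecidableEq (Cosets Γ)] (e : GenIdx Γ ≃ Cosets Γ)

/-- The dual cusp form attached to a generator. -/
def dualForm (i : GenIdx Γ) (z : ℍ) : ℂ :=
  Δf z * (valMat e z)⁻¹ (e i) ((1 : SL(2, ℤ)) : Cosets Γ)

lemma valMat_inv_smul (hneg : (-1 : SL(2, ℤ)) ∈ Γ) (γ : SL(2, ℤ)) (z : ℍ) (y x : Cosets Γ) :
    (valMat e (γ • z))⁻¹ y x =
      (denom γ z ^ (e.symm y).wt)⁻¹ * (valMat e z)⁻¹ y (γ⁻¹ • x) := by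
  have hu : IsUnit (valMat e z).det := (valMat_det_ne_zero e hneg z).isUnit
  have h : (Matrix.of fun y x ↦ (denom γ z ^ (e.symm y).wt)⁻¹ * (valMat e z)⁻¹ y (γ⁻¹ • x)) *
      valMat e (γ • z) = 1 := by
    ext a b
    simp only [Matrix.mul_apply, Matrix.of_apply]
    have h1 : ∀ x, valMat e (γ • z) x b = denom γ z ^ (e.symm b).wt * valMat e z (γ⁻¹ • x) b :=
      fun x ↦ GenIdx.vec_smul _ γ z x
    rw [Finset.sum_congr rfl fun x _ ↦ show _ = ((denom γ z ^ (e.symm a).wt)⁻¹ *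
        denom γ z ^ (e.symm b).wt) * ((valMat e z)⁻¹ a (γ⁻¹ • x) * valMat e z (γ⁻¹ • x) b) by
          rw [h1]; ring,
      ← Finset.mul_sum,
      show ∑ x, (valMat e z)⁻¹ a (γ⁻¹ • x) * valMat e z (γ⁻¹ • x) b =
          ∑ x, (valMat e z)⁻¹ a x * valMat e z x b from
        Equiv.sum_comp (MulAction.toPerm γ⁻¹) (fun x ↦ (valMat e z)⁻¹ a x * valMat e z x b),
      ← Matrix.mul_apply, Matrix.nonsing_inv_mul _ hu, Matrix.one_apply]
    split_ifs with hab
    · subst hab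
      rw [mul_one, inv_mul_cancel₀ (zpow_ne_zero _ (denom_ne_zero _ _))]
    · rw [mul_zero]
  rw [Matrix.inv_eq_left_inv h, Matrix.of_apply]

lemma dualForm_slash (hneg : (-1 : SL(2, ℤ)) ∈ Γ) (γ : SL(2, ℤ)) (i : GenIdx Γ) :
    dualForm e i ∣[12 - i.wt] γ =
      fun z ↦ Δf z * (valMat e z)⁻¹ (e i) (((γ⁻¹ : SL(2, ℤ))) : Cosets Γ) := by
  ext z
  rw [SL_slash_apply]
  simp only [dualForm]
  rw [valMat_inv_smul e hneg, invariant_apply_smul γ (discriminant_mem.2.1 γ trivial),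
    Equiv.symm_apply_apply, MulAction.Quotient.smul_coe, smul_eq_mul, mul_one]
  have hd := denom_ne_zero (γ : GL (Fin 2) ℝ) z
  rw [zpow_neg, zpow_sub₀ hd]
  field_simp

lemma valMat_inv_eq (z : ℍ) :
    (valMat e z)⁻¹ = (untwistedMat e z)⁻¹ * twist (cuspPerm Γ) (z : ℂ) := by
  rw [untwistedMat, Matrix.mul_inv_rev,
    Matrix.inv_eq_right_inv (twist_mul_untwist (cuspPerm Γ) (z : ℂ)), Matrix.mul_assoc,
    untwist_mul_twist, Matrix.mul_one]

lemma valMat_inv_mdiff (hneg : (-1 : SL(2, ℤ)) ∈ Γ) (y x : Cosets Γ) :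
    MDiff (fun z ↦ (valMat e z)⁻¹ y x) := by
  have hd : MDiff (fun z ↦ (valMat e z).det) := mdiff_det fun a b ↦ valMat_mdiff e a b
  have ha : MDiff (fun z ↦ (valMat e z).adjugate y x) := by
    simp only [Matrix.adjugate_apply]
    refine mdiff_det fun a b ↦ ?_
    simp only [Matrix.updateRow_apply]
    split
    · exact fun _ ↦ mdifferentiableAt_const
    · exact valMat_mdiff e a b
  have heq : (fun z ↦ (valMat e z)⁻¹ y x) =
      fun z ↦ (valMat e z).adjugate y x / (valMat e z).det := by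
    funext z
    rw [Matrix.inv_def, Ring.inverse_eq_inv', Matrix.smul_apply, smul_eq_mul, div_eq_inv_mul]
  rw [heq]
  exact ha.div hd (valMat_det_ne_zero e hneg)

lemma discriminant_mul_twist_tendsto (x y : Cosets Γ) :
    Tendsto (fun z : ℍ ↦ Δf z * twist (cuspPerm Γ) (z : ℂ) x y) atImInfty (𝓝 0) := by
  have h := (tendsto_eC_div_discriminant.inv₀ one_ne_zero).mul
    (eC_mul_twist_tendsto (Γ := Γ) x y)
  rw [inv_one, one_mul] at h
  refine h.congr fun z ↦ ?_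
  have := eC_ne_zero (z : ℂ)
  field_simp

lemma dual_zero (hneg : (-1 : SL(2, ℤ)) ∈ Γ) (y x : Cosets Γ) :
    IsZeroAtImInfty fun z ↦ Δf z * (valMat e z)⁻¹ y x := by
  have hne := det_limitMat_ne_zero e hneg
  have hcont : ContinuousAt Ring.inverse (limitMat e).det := by
    rw [Ring.inverse_eq_inv']
    exact continuousAt_inv₀ hne
  have hlim : Tendsto (fun z ↦ (untwistedMat e z)⁻¹) atImInfty (𝓝 (limitMat e)⁻¹) :=
    (continuousAt_matrix_inv _ hcont).tendsto.comp (tendsto_untwistedMat e)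
  simp only [IsZeroAtImInfty, ZeroAtFilter, valMat_inv_eq, Matrix.mul_apply, Finset.mul_sum]
  rw [show (0 : ℂ) = ∑ _u : Cosets Γ, 0 by simp]
  refine tendsto_finsetSum _ fun u _ ↦ ?_
  have h1 := (tendsto_pi_nhds.mp (tendsto_pi_nhds.mp hlim y)) u
  have h2 := h1.mul (discriminant_mul_twist_tendsto (Γ := Γ) u x)
  rw [mul_zero] at h2
  exact h2.congr fun z ↦ by ring

lemma dualForm_mem (hneg : (-1 : SL(2, ℤ)) ∈ Γ) (i : GenIdx Γ) :
    dualForm e i ∈ SF Γ (12 - i.wt) := by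
  refine ⟨(discriminant_mem.1).mul (valMat_inv_mdiff e hneg _ _), fun γ hγ ↦ ?_, fun γ ↦ ?_⟩
  · rw [dualForm_slash e hneg]
    have h : ((γ⁻¹ : SL(2, ℤ)) : Cosets Γ) = ((1 : SL(2, ℤ)) : Cosets Γ) := by
      rw [QuotientGroup.eq]; simpa using hγ
    rw [h]
    rfl
  · rw [dualForm_slash e hneg]
    exact dual_zero e hneg _ _

lemma cmp_dualForm (hneg : (-1 : SL(2, ℤ)) ∈ Γ) (i : GenIdx Γ) (x : Cosets Γ) :
    cmp (12 - i.wt) (dualForm e i) x = fun z ↦ Δf z * (valMat e z)⁻¹ (e i) x := by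
  induction x using QuotientGroup.induction_on with
  | H a => rw [cmp_mk (dualForm_mem e hneg i).2.1, dualForm_slash e hneg, inv_inv]

lemma dualForm_ne_zero (hneg : (-1 : SL(2, ℤ)) ∈ Γ) (i : GenIdx Γ) : dualForm e i ≠ 0 := by
  intro h
  refine valMat_det_ne_zero e hneg UpperHalfPlane.I ?_
  have hu := valMat_det_ne_zero e hneg UpperHalfPlane.I
  have hrow : ∀ x, (valMat e UpperHalfPlane.I)⁻¹ (e i) x = 0 := by
    intro x
    have h1 := congrFun (cmp_dualForm e hneg i x) UpperHalfPlane.I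
    rw [h] at h1
    simp only [cmp, SlashAction.zero_slash, Pi.zero_apply] at h1
    exact (mul_eq_zero.mp h1.symm).resolve_left (discriminant_ne_zero _)
  exact absurd (Matrix.det_eq_zero_of_row_eq_zero (e i) hrow)
    (by rw [Matrix.det_nonsing_inv, Ring.inverse_eq_inv']; exact inv_ne_zero hu)

omit [Fintype (Cosets Γ)] [DecidableEq (Cosets Γ)] in
/-- All generator weights are at most ten. -/
theorem wt_le_ten (hneg : (-1 : SL(2, ℤ)) ∈ Γ) (hsep : Separating Γ) (i : GenIdx Γ) :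
    i.wt ≤ 10 := by
  classical
  let _ : Fintype (Cosets Γ) := Fintype.ofFinite _
  by_contra h
  obtain ⟨a, ha⟩ := GenIdx.wt_even hneg i
  have h1 := dualForm_mem (genEquiv hneg hsep) hneg i
  rw [SF_eq_bot_of_nonpos (by omega)] at h1
  exact dualForm_ne_zero (genEquiv hneg hsep) hneg i ((Submodule.mem_bot ℂ).mp h1)

omit [Fintype (Cosets Γ)] [DecidableEq (Cosets Γ)] [Γ.FiniteIndex] in
lemma cmp_mul_cmp_zero {k l : ℤ} {h f : ℍ → ℂ} (hh : h ∈ SF Γ k) (hf : f ∈ MF Γ l)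
    (x : Cosets Γ) : IsZeroAtImInfty (cmp k h x * cmp l f x) := by
  have h1 := (isLittleO_one_iff ℝ).mpr (hh.2.2 (Quotient.out x)⁻¹)
  have h2 := h1.mul_isBigO (hf.2.2 (Quotient.out x)⁻¹)
  simp only [Pi.one_apply, mul_one] at h2
  exact (isLittleO_one_iff ℝ).mp h2

/-- The pairing of a cusp form with a generator, a level one cusp form. -/
lemma pairing_mem {k : ℤ} {h : ℍ → ℂ} (hh : h ∈ SF Γ k) (i : GenIdx Γ) :
    (∑ x : Cosets Γ, cmp k h x * cmp i.wt i.form x) ∈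
      SF (⊤ : Subgroup SL(2, ℤ)) (k + i.wt) := by
  have hinv : ∀ γ : SL(2, ℤ), (∑ x : Cosets Γ, cmp k h x * cmp i.wt i.form x) ∣[k + i.wt] γ =
      ∑ x : Cosets Γ, cmp k h x * cmp i.wt i.form x := by
    intro γ
    simp only [SlashAction.sum_slash, mul_slash_SL2, cmp_slash (SF_le_MF hh).2.1,
      cmp_slash i.form_mem.2.1]
    exact Equiv.sum_comp (MulAction.toPerm γ⁻¹) (fun x ↦ cmp k h x * cmp i.wt i.form x)
  refine ⟨?_, fun γ _ ↦ hinv γ, fun γ ↦ ?_⟩
  · rw [Finset.sum_fn]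
    exact mdiff_finset_sum fun x _ ↦ (cmp_mdiff hh.1 x).mul (cmp_mdiff i.form_mem.1 x)
  · rw [hinv, IsZeroAtImInfty, ZeroAtFilter, Finset.sum_fn, show (0 : ℂ) = ∑ _u : Cosets Γ, 0 by simp]
    exact tendsto_finsetSum _ fun x _ ↦ cmp_mul_cmp_zero hh i.form_mem x

/-- Level one combinations of the dual forms. -/
def dualMap [Fintype (GenIdx Γ)] (hneg : (-1 : SL(2, ℤ)) ∈ Γ) (k : ℤ) :
    (∀ i : GenIdx Γ, MF (⊤ : Subgroup SL(2, ℤ)) (k - (12 - i.wt))) →ₗ[ℂ] SF Γ k where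
  toFun A := ⟨∑ i : GenIdx Γ, dualForm e i * (A i : ℍ → ℂ), Submodule.sum_mem _ fun i _ ↦ by
    have := mul_mem_SF_left (dualForm_mem e hneg i) (MF_mono le_top (A i).2)
    rwa [add_sub_cancel] at this⟩
  map_add' A B := Subtype.ext (by simp [mul_add, Finset.sum_add_distrib])
  map_smul' c A := Subtype.ext (by simp [Finset.smul_sum])

lemma cmp_dualMap [Fintype (GenIdx Γ)] (hneg : (-1 : SL(2, ℤ)) ∈ Γ) (k : ℤ)
    (A : ∀ i : GenIdx Γ, MF (⊤ : Subgroup SL(2, ℤ)) (k - (12 - i.wt))) (x : Cosets Γ) (z : ℍ) :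
    cmp k (dualMap e hneg k A : ℍ → ℂ) x z =
      Matrix.vecMul (fun y ↦ Δf z * (A (e.symm y) : ℍ → ℂ) z) (valMat e z)⁻¹ x := by
  show cmp k (∑ i : GenIdx Γ, dualForm e i * (A i : ℍ → ℂ)) x z = _
  rw [cmp_sum, Finset.sum_apply]
  simp only [Matrix.vecMul, dotProduct]
  rw [← e.sum_comp]
  refine Finset.sum_congr rfl fun i _ ↦ ?_
  rw [mul_comm (dualForm e i), cmp_top_mul (show k = (k - (12 - i.wt)) + (12 - i.wt) by ring)
    (A i).2.2.1, Pi.mul_apply, cmp_dualForm e hneg, Equiv.symm_apply_apply]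
  ring

lemma dualMap_injective [Fintype (GenIdx Γ)] (hneg : (-1 : SL(2, ℤ)) ∈ Γ) (k : ℤ) :
    Function.Injective (dualMap e hneg k) := by
  rw [injective_iff_map_eq_zero]
  intro A hA
  refine funext fun i ↦ Subtype.ext (funext fun z ↦ ?_)
  have h1 : ∀ x, Matrix.vecMul (fun y ↦ Δf z * (A (e.symm y) : ℍ → ℂ) z) (valMat e z)⁻¹ x = 0 := by
    intro x
    rw [← cmp_dualMap e hneg k A x z, hA]
    simp [cmp]
  have h2 := congrArg (fun v ↦ Matrix.vecMul v (valMat e z)) (funext h1)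
  simp only [Matrix.vecMul_vecMul,
    Matrix.nonsing_inv_mul _ (valMat_det_ne_zero e hneg z).isUnit, Matrix.vecMul_one] at h2
  rw [show (fun _ : Cosets Γ ↦ (0 : ℂ)) = 0 from rfl, Matrix.zero_vecMul] at h2
  have h3 : ∀ y, (A (e.symm y) : ℍ → ℂ) z = 0 := fun y ↦ by
    simpa [discriminant_ne_zero z] using congrFun h2 y
  obtain ⟨y, rfl⟩ := e.symm.surjective i
  exact h3 y

lemma dualMap_surjective [Fintype (GenIdx Γ)] (hneg : (-1 : SL(2, ℤ)) ∈ Γ) (k : ℤ) :
    Function.Surjective (dualMap e hneg k) := by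
  rintro ⟨h, hh⟩
  let G : ∀ i : GenIdx Γ, ModularForm 𝒮ℒ (k + i.wt - 12) := fun i ↦
    CuspForm.discriminantEquiv (SF.toLevelOne (pairing_mem hh i))
  let A : ∀ i : GenIdx Γ, MF (⊤ : Subgroup SL(2, ℤ)) (k - (12 - i.wt)) := fun i ↦
    ⟨⇑(G i), by rw [show k - (12 - i.wt) = k + i.wt - 12 by ring]; exact coe_mem_MF_top (G i)⟩
  refine ⟨A, Subtype.ext (funext fun z ↦ ?_)⟩
  show (dualMap e hneg k A : ℍ → ℂ) z = h z
  have hu := (valMat_det_ne_zero e hneg z).isUnit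
  have h1 := cmp_dualMap e hneg k A ((1 : SL(2, ℤ)) : Cosets Γ) z
  rw [cmp_mk_one (dualMap e hneg k A).2.2.1] at h1
  have h2 : (fun y ↦ Δf z * (A (e.symm y) : ℍ → ℂ) z) =
      Matrix.vecMul (fun x ↦ cmp k h x z) (valMat e z) := by
    funext y
    show Δf z * (G (e.symm y)) z = _
    rw [ModularForm.discriminant_mul_discriminantEquiv_apply]
    show (∑ x : Cosets Γ, cmp k h x * cmp (e.symm y).wt (e.symm y).form x) z = _
    rw [Finset.sum_apply]
    rfl
  rw [h1, h2, Matrix.vecMul_vecMul, Matrix.mul_nonsing_inv _ hu, Matrix.vecMul_one,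
    cmp_mk_one (SF_le_MF hh).2.1]

omit [Fintype (Cosets Γ)] [DecidableEq (Cosets Γ)] in
/-- Cusp forms of any weight correspond to level one forms through the dual basis. -/
theorem finrank_SF_eq [Fintype (GenIdx Γ)] (hneg : (-1 : SL(2, ℤ)) ∈ Γ) (hsep : Separating Γ)
    (k : ℤ) :
    Module.finrank ℂ (SF Γ k) =
      ∑ i : GenIdx Γ, Module.finrank ℂ (MF (⊤ : Subgroup SL(2, ℤ)) (k - (12 - i.wt))) := by
  classical
  let _ : Fintype (Cosets Γ) := Fintype.ofFinite _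
  rw [← (LinearEquiv.ofBijective (dualMap (genEquiv hneg hsep) hneg k)
    ⟨dualMap_injective _ hneg k, dualMap_surjective _ hneg k⟩).finrank_eq,
    Module.finrank_pi_fintype]

omit [Fintype (Cosets Γ)] [DecidableEq (Cosets Γ)] in
/-- Cusp forms of weight two correspond to generators of weight ten. -/
theorem finrank_SF_two (hneg : (-1 : SL(2, ℤ)) ∈ Γ) (hsep : Separating Γ) :
    Module.finrank ℂ (SF Γ 2) = Nat.card {i : GenIdx Γ // i.wt = 10} := by
  classical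
  let _ : Fintype (GenIdx Γ) := fintypeGenIdx hneg
  rw [finrank_SF_eq hneg hsep, Nat.card_eq_fintype_card, Fintype.card_subtype,
    Finset.card_filter]
  refine Finset.sum_congr rfl fun i _ ↦ ?_
  have hle := wt_le_ten hneg hsep i
  split_ifs with h
  · rw [h, show (2 : ℤ) - (12 - 10) = 0 by norm_num, ← (levelOneEquiv 0).finrank_eq]
    exact Module.rank_eq_one_iff_finrank_eq_one.mp ModularForm.levelOne_weight_zero_rank_one
  · rw [MF_eq_bot_of_neg (by omega), finrank_bot]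

end FLTA.Dim
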