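import Fermat.Agent.Dim.LevelOneJ

/-!
Level one facts: zeros of `E₄`, `E₆` and of the pencil `E₄³ - c Δ`, injectivity of `j`.
-/

set_option autoImplicit false

noncomputable section

open UpperHalfPlane hiding I
open Complex Filter Topology ModularForm EisensteinSeries
open scoped MatrixGroups ModularForm Manifold

namespace FLTA.Dim

local notation "Δ" => ModularForm.discriminant

theorem jH_eq_jH_iff (a b : ℍ) : jH a = jH b ↔ E₄ a ^ 3 * Δ b = E₄ b ^ 3 * Δ a := by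
  simp only [jH]
  rw [div_eq_div_iff (discriminant_ne_zero a) (discriminant_ne_zero b)]

/-- `j` separates orbits, stated without division. -/
theorem exists_smul_eq_of_j_eq (a b : ℍ) (h : E₄ a ^ 3 * Δ b = E₄ b ^ 3 * Δ a) :
    ∃ g : SL(2, ℤ), g • a = b :=
  jH_eq_iff.mp ((jH_eq_jH_iff a b).mpr h)

theorem exists_E4_cube_eq (c : ℂ) : ∃ z : ℍ, E₄ z ^ 3 / Δ z = c :=
  jH_surjective c

theorem E4_rho : E₄ UpperHalfPlane.ρ = 0 := by
  have hfix : (ModularGroup.S * ModularGroup.T) • UpperHalfPlane.ρ = UpperHalfPlane.ρ :=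
    ModularGroup.stabilizer_ρ.mpr (by simp)
  have h : E₄ ((ModularGroup.S * ModularGroup.T) • UpperHalfPlane.ρ) = _ :=
    SlashInvariantForm.slash_action_eqn'' E₄
      (γ := ((ModularGroup.S * ModularGroup.T : SL(2, ℤ)) : GL (Fin 2) ℝ))
      (show _ ∈ 𝒮ℒ from ⟨_, rfl⟩) UpperHalfPlane.ρ
  rw [hfix] at h
  simp [denom, ModularGroup.coe_S, ModularGroup.coe_T, Matrix.mul_apply] at h
  set r : ℂ := (UpperHalfPlane.ρ : ℂ) with hr
  have hne : (r + 1) ^ (4 : ℕ) - 1 ≠ 0 := by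
    intro h1
    have h3 : (r + 1) ^ 4 - 1 = -r - 2 := by
      linear_combination (r ^ 2 + 3 * r + 2) * UpperHalfPlane.ρ_sq
    have him := congrArg Complex.im (h3.symm.trans h1)
    simp [hr] at him
    exact UpperHalfPlane.im_ne_zero _ him
  refine (mul_eq_zero_iff_left hne).mp ?_
  linear_combination -h

theorem E6_I : E₆ UpperHalfPlane.I = 0 := by
  have hfix : ModularGroup.S • UpperHalfPlane.I = UpperHalfPlane.I :=
    ModularGroup.stabilizer_I.mpr (by simp)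
  have h : E₆ (ModularGroup.S • UpperHalfPlane.I) = _ :=
    SlashInvariantForm.slash_action_eqn'' E₆
      (γ := ((ModularGroup.S : SL(2, ℤ)) : GL (Fin 2) ℝ)) (show _ ∈ 𝒮ℒ from ⟨_, rfl⟩) UpperHalfPlane.I
  rw [hfix] at h
  simp [denom, ModularGroup.coe_S] at h
  linear_combination h / 2

theorem E4_eq_zero_iff (z : ℍ) : E₄ z = 0 ↔ ∃ g : SL(2, ℤ), g • UpperHalfPlane.ρ = z := by
  rw [← jH_eq_zero_iff, ← (jH_eq_zero_iff UpperHalfPlane.ρ).mpr E4_rho, eq_comm, jH_eq_iff]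
  rfl

theorem E6_eq_zero_iff (z : ℍ) : E₆ z = 0 ↔ ∃ g : SL(2, ℤ), g • UpperHalfPlane.I = z := by
  rw [← jH_eq_1728_iff, ← (jH_eq_1728_iff UpperHalfPlane.I).mpr E6_I, eq_comm, jH_eq_iff]
  rfl

/-- The zeros of a member of the pencil `E₄³ - c Δ` away from the elliptic values are simple. -/
theorem deriv_pencil_ne_zero (z₀ z : ℍ) (h4 : E₄ z₀ ≠ 0) (h6 : E₆ z₀ ≠ 0)
    (hz : E₄ z ^ 3 * Δ z₀ = E₄ z₀ ^ 3 * Δ z) :
    deriv ((fun w ↦ E₄ w ^ 3 * Δ z₀ - E₄ z₀ ^ 3 * Δ w) ∘ ofComplex) (z : ℂ) ≠ 0 := by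
  have hj : jH z = jH z₀ := (jH_eq_jH_iff z z₀).mpr hz
  have h4' : E₄ z ≠ 0 := fun h ↦
    h4 ((jH_eq_zero_iff z₀).mp (hj ▸ (jH_eq_zero_iff z).mpr h))
  have h6' : E₆ z ≠ 0 := fun h ↦
    h6 ((jH_eq_1728_iff z₀).mp (hj ▸ (jH_eq_1728_iff z).mpr h))
  have hd : HasDerivAt ((Δ : ℍ → ℂ) ∘ ofComplex) (deriv ((Δ : ℍ → ℂ) ∘ ofComplex) z) z :=
    (UpperHalfPlane.mdifferentiableAt_iff.mp (CuspForm.discriminant.holo' z)).hasDerivAt
  have hfun : (fun w ↦ E₄ w ^ 3 * Δ z₀ - E₄ z₀ ^ 3 * Δ w) ∘ ofComplex =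
      fun w ↦ ((Δ : ℍ → ℂ) ∘ ofComplex) w * (jC w * Δ z₀ - E₄ z₀ ^ 3) := by
    ext w
    have := discriminant_ne_zero (ofComplex w)
    simp only [jC, Function.comp_apply]
    field_simp
  have h := hd.fun_mul (((jC_hasDerivAt z).differentiableAt.hasDerivAt.mul_const (Δ z₀)).sub_const
    (E₄ z₀ ^ 3))
  rw [hfun, h.deriv]
  have h0 : jC z * Δ z₀ - E₄ z₀ ^ 3 = 0 := by
    rw [jC_coe, hj, jH, div_mul_cancel₀ _ (discriminant_ne_zero z₀), sub_self]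
  rw [h0, mul_zero, zero_add, Function.comp_apply, ofComplex_apply]
  exact mul_ne_zero (discriminant_ne_zero z)
    (mul_ne_zero (deriv_jC_ne_zero z h4' h6') (discriminant_ne_zero z₀))

end FLTA.Dim
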