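import Fermat.Agent.Dim.Defs
import Fermat.Agent.Dim.LevelOne
import Fermat.Prelude.Def_ModularForm_HeckeOperator
import Mathlib.LinearAlgebra.Lagrange
import Mathlib.Algebra.AlgebraicCard
import Mathlib.Analysis.Normed.Module.FiniteDimension

/-!
Modular forms on `Γ₀(N)` separate the points of an orbit of `SL(2, ℤ)` above a transcendental point.
-/

set_option autoImplicit false

noncomputable section

open UpperHalfPlane hiding I
open Complex Filter Topology ModularForm EisensteinSeries CongruenceSubgroup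
open scoped MatrixGroups ModularForm Manifold

namespace FLTA.Dim

local notation "Δ" => ModularForm.discriminant

/-- `τ ↦ Nτ`. -/
def nMul (N : ℕ) (z : ℍ) : ℍ := heckeDiagMatrix N • z

variable {N : ℕ} [NeZero N]

theorem det_heckeDiagMatrix_pos' : 0 < ((heckeDiagMatrix N).det : ℝ) := by
  rw [det_heckeDiagMatrix (NeZero.ne N)]; exact_mod_cast Nat.pos_of_ne_zero (NeZero.ne N)

theorem coe_nMul (z : ℍ) : (nMul N z : ℂ) = N * z := by
  rw [nMul, coe_smul_of_det_pos det_heckeDiagMatrix_pos']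
  simp [num, denom, val_heckeDiagMatrix (NeZero.ne N)]

theorem coe_sl_smul_mul (γ : SL(2, ℤ)) (z : ℍ) :
    ((γ • z : ℍ) : ℂ) * ((γ 1 0 : ℂ) * z + γ 1 1) = (γ 0 0 : ℂ) * z + γ 0 1 := by
  have h : ((γ • z : ℍ) : ℂ) = ((γ 0 0 : ℂ) * z + γ 0 1) / ((γ 1 0 : ℂ) * z + γ 1 1) := by
    rw [specialLinearGroup_apply]; simp
  rw [h, div_mul_cancel₀]
  simpa [denom] using denom_ne_zero γ z

/-- `f(Nτ)` is a modular form on `Γ₀(N)` for every level one form `f`. -/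
theorem comp_nMul_mem {f : ℍ → ℂ} {k : ℤ} (hf : f ∈ MF (⊤ : Subgroup SL(2, ℤ)) k) :
    (fun z ↦ f (nMul N z)) ∈ MF (Gamma0 N) k := by
  refine ⟨fun z ↦ (hf.1 _).comp z (mdifferentiable_smul det_heckeDiagMatrix_pos' z), ?_, ?_⟩
  · intro γ hγ
    rw [Gamma0_mem, ZMod.intCast_zmod_eq_zero_iff_dvd] at hγ
    obtain ⟨c, hc⟩ := hγ
    have hdet := γ.det_coe
    rw [Matrix.det_fin_two, hc] at hdet
    let γ' : SL(2, ℤ) := ⟨!![γ 0 0, (N : ℤ) * γ 0 1; c, γ 1 1],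
      by rw [Matrix.det_fin_two_of]; linear_combination hdet⟩
    ext z
    have hden : denom γ' (nMul N z) = denom γ z := by
      rw [ModularGroup.denom_apply, ModularGroup.denom_apply, coe_nMul, hc]
      simp [γ']; ring
    have hpt : nMul N (γ • z) = γ' • nMul N z := by
      have hne : denom γ z ≠ 0 := denom_ne_zero γ z
      have h1 := coe_sl_smul_mul γ z
      have h2 := coe_sl_smul_mul γ' (nMul N z)
      apply UpperHalfPlane.ext
      rw [coe_nMul, show γ' 0 0 = γ 0 0 from rfl, show γ' 0 1 = (N : ℤ) * γ 0 1 from rfl,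
        show γ' 1 0 = c from rfl, show γ' 1 1 = γ 1 1 from rfl] at h2
      push_cast at h2
      simp [denom] at hne
      rw [hc] at h1 hne
      push_cast at h1 hne
      rw [coe_nMul]
      refine mul_right_cancel₀ (b := ((N : ℂ) * c * z + γ 1 1)) (by simpa using hne) ?_
      linear_combination (N : ℂ) * h1 - h2
    rw [SL_slash_apply, hpt]
    have h3 : f (γ' • nMul N z) = denom γ' (nMul N z) ^ k * f (nMul N z) :=
      SlashInvariantForm.slash_action_eqn'' (MF.toLevelOne hf)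
        (γ := (γ' : GL (Fin 2) ℝ)) (show _ ∈ 𝒮ℒ from ⟨_, rfl⟩) (nMul N z)
    rw [h3, hden, mul_comm, ← mul_assoc, ← zpow_add₀ (denom_ne_zero _ _)]
    simp
  · intro g
    have heq : (fun z ↦ f (nMul N z)) = ((N : ℂ) ^ (k - 1))⁻¹ • (f ∣[k] heckeDiagMatrix N) := by
      ext z
      have hN : (N : ℂ) ≠ 0 := by exact_mod_cast NeZero.ne N
      have hdet : ((heckeDiagMatrix N).det : ℝ) = N := det_heckeDiagMatrix (NeZero.ne N)
      simp only [Pi.smul_apply, smul_eq_mul, ModularForm.slash_apply, σ, hdet, denom,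
        val_heckeDiagMatrix (NeZero.ne N)]
      rw [if_pos (by exact_mod_cast Nat.pos_of_ne_zero (NeZero.ne N))]
      simp [nMul]
      field_simp
    rw [heq, SL_smul_slash]
    refine Asymptotics.IsBigO.const_smul_left ?_ _
    let gQ : GL (Fin 2) ℚ := Matrix.GeneralLinearGroup.mkOfDetNeZero !![(N : ℚ), 0; 0, 1]
      (by simp [NeZero.ne N])
    have hmap : heckeDiagMatrix N = Matrix.GeneralLinearGroup.map (Rat.castHom ℝ) gQ := by
      ext i j
      fin_cases i <;> fin_cases j <;>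
        simp [gQ, val_heckeDiagMatrix (NeZero.ne N), Matrix.GeneralLinearGroup.mkOfDetNeZero]
    have hcusp : IsCusp (heckeDiagMatrix N • ((g : GL (Fin 2) ℝ) • (OnePoint.infty : OnePoint ℝ)))
        𝒮ℒ := by
      have hc : IsCusp ((g : GL (Fin 2) ℝ) • (OnePoint.infty : OnePoint ℝ)) 𝒮ℒ :=
        isCusp_SL2Z_iff'.mpr ⟨g, rfl⟩
      rw [isCusp_SL2Z_iff] at hc ⊢
      obtain ⟨c, hc⟩ := hc
      exact ⟨gQ • c, by rw [hmap, ← hc, ← Rat.coe_castHom, OnePoint.map_smul]⟩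
    exact OnePoint.IsBoundedAt.smul_iff.mp ((MF.toLevelOne hf).bdd_at_cusps' hcusp) (g : GL (Fin 2) ℝ) rfl

/-- A point of `ℍ` that is transcendental over `ℚ`. -/
theorem exists_transcendental_point : ∃ z₀ : ℍ, Transcendental ℚ (z₀ : ℂ) := by
  obtain ⟨z, hz, hz'⟩ := ((Algebraic.countable ℚ ℂ).dense_compl ℂ).exists_mem_open
    isOpen_upperHalfPlaneSet ⟨Complex.I, by simp [upperHalfPlaneSet]⟩
  exact ⟨⟨z, hz'⟩, hz⟩

theorem quadratic_eq_zero {z : ℂ} (hz : Transcendental ℚ z) {a b c : ℤ}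
    (h : (a : ℂ) * z ^ 2 + b * z + c = 0) : a = 0 ∧ b = 0 ∧ c = 0 := by
  have hp : (Polynomial.C (a : ℚ) * Polynomial.X ^ 2 + Polynomial.C (b : ℚ) * Polynomial.X +
      Polynomial.C (c : ℚ)) = 0 :=
    transcendental_iff.mp hz _ (by simpa using h)
  refine ⟨?_, ?_, ?_⟩
  · simpa [-map_intCast, Polynomial.coeff_C] using congrArg (·.coeff 2) hp
  · simpa [-map_intCast, Polynomial.coeff_C] using congrArg (·.coeff 1) hp
  · simpa [-map_intCast] using congrArg (·.coeff 0) hp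

/-- Above a transcendental point, `N g z` for the cosets `g` of `Γ₀(N)` are inequivalent. -/
theorem mem_Gamma0_of_slEquiv {z₀ : ℍ} (hz : Transcendental ℚ (z₀ : ℂ)) {g h : SL(2, ℤ)}
    (he : SLEquiv (nMul N (g • z₀)) (nMul N (h • z₀))) : h * g⁻¹ ∈ Gamma0 N := by
  obtain ⟨γ, hγ⟩ := he
  have e1 := coe_sl_smul_mul γ (nMul N (g • z₀))
  rw [hγ, coe_nMul, coe_nMul] at e1
  have e2 := coe_sl_smul_mul g z₀
  have e3 := coe_sl_smul_mul h z₀
  -- `A = γ D g`, `B = D h`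
  set a : ℤ := γ 0 0 * N * g 0 0 + γ 0 1 * g 1 0 with ha
  set b : ℤ := γ 0 0 * N * g 0 1 + γ 0 1 * g 1 1 with hb
  set c : ℤ := γ 1 0 * N * g 0 0 + γ 1 1 * g 1 0 with hc
  set d : ℤ := γ 1 0 * N * g 0 1 + γ 1 1 * g 1 1 with hd
  have key : (((c * (N * h 0 0) - a * h 1 0 : ℤ)) : ℂ) * (z₀ : ℂ) ^ 2 +
      (((c * (N * h 0 1) + d * (N * h 0 0) - a * h 1 1 - b * h 1 0 : ℤ)) : ℂ) * (z₀ : ℂ) +
      (((d * (N * h 0 1) - b * h 1 1 : ℤ)) : ℂ) = 0 := by
    simp only [ha, hb, hc, hd]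
    push_cast
    linear_combination
      ((h 1 0 : ℂ) * z₀ + h 1 1) * ((g 1 0 : ℂ) * z₀ + g 1 1) * e1 +
        ((γ 0 0 : ℂ) * (N : ℂ) * ((h 1 0 : ℂ) * z₀ + h 1 1) -
          (γ 1 0 : ℂ) * (N : ℂ) * (N : ℂ) * ((h • z₀ : ℍ) : ℂ) * ((h 1 0 : ℂ) * z₀ + h 1 1)) * e2 -
        ((γ 1 0 : ℂ) * (N : ℂ) * ((g 0 0 : ℂ) * z₀ + g 0 1) +
          (γ 1 1 : ℂ) * ((g 1 0 : ℂ) * z₀ + g 1 1)) * (N : ℂ) * e3
  obtain ⟨k2, k1, k0⟩ := quadratic_eq_zero hz key
  have dγ := γ.det_coe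
  have dg := g.det_coe
  have dh := h.det_coe
  rw [Matrix.det_fin_two] at dγ dg dh
  set l : ℤ := h 1 1 * a - N * h 0 1 * c with hl
  have hA : (N : ℤ) * c = l * h 1 0 := by
    linear_combination -(N : ℤ) * c * dh + h 1 1 * k2
  have hD : (N : ℤ) * d = l * h 1 1 := by
    linear_combination -(N : ℤ) * d * dh + h 1 1 * k1 - h 1 0 * k0
  have hdetA : a * d - b * c = (N : ℤ) := by
    linear_combination (N : ℤ) * (γ 0 0 * γ 1 1 - γ 0 1 * γ 1 0) * dg + (N : ℤ) * dγ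
  have hB : (N : ℤ) * a = l * (N * h 0 0) := by
    linear_combination -(N : ℤ) * a * dh + (N : ℤ) * h 0 1 * k2
  have hl2 : l ^ 2 = (N : ℤ) ^ 2 := by
    have hN : (N : ℤ) ≠ 0 := by exact_mod_cast NeZero.ne N
    have hC : (N : ℤ) * b = l * (N * h 0 1) := by
      linear_combination -(N : ℤ) * b * dh + (N : ℤ) * h 0 1 * k1 - (N : ℤ) * h 0 0 * k0
    apply mul_left_cancel₀ hN
    linear_combination (N : ℤ) ^ 2 * hdetA - (N : ℤ) * d * hB - l * N * h 0 0 * hD +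
      (N : ℤ) * b * hA + l * h 1 0 * hC - l ^ 2 * (N : ℤ) * dh
  have hdvd : (N : ℤ) ∣ (h * g⁻¹) 1 0 := by
    have hval : (h * g⁻¹) 1 0 = h 1 0 * g 1 1 - h 1 1 * g 1 0 := by
      simp [Matrix.SpecialLinearGroup.coe_mul, Matrix.SpecialLinearGroup.coe_inv,
        Matrix.adjugate_fin_two, Matrix.mul_apply]
      ring
    rw [hval]
    rcases eq_or_eq_neg_of_sq_eq_sq l (N : ℤ) hl2 with h' | h' <;>
      rw [h'] at hA hD
    · refine ⟨γ 1 0, mul_left_cancel₀ (show (N : ℤ) ≠ 0 by exact_mod_cast NeZero.ne N) ?_⟩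
      linear_combination -g 1 1 * hA + g 1 0 * hD + (N : ℤ) * (N : ℤ) * γ 1 0 * dg
    · refine ⟨-γ 1 0, mul_left_cancel₀ (show (N : ℤ) ≠ 0 by exact_mod_cast NeZero.ne N) ?_⟩
      linear_combination g 1 1 * hA - g 1 0 * hD - (N : ℤ) * (N : ℤ) * γ 1 0 * dg
  rwa [Gamma0_mem, ZMod.intCast_zmod_eq_zero_iff_dvd]

/-- Forms of one weight on `Γ₀(N)` realise every tuple of values on one full orbit. -/
theorem separating_Gamma0 (N : ℕ) [NeZero N] : ∃ (z₀ : ℍ) (k : ℤ), ∀ v : Cosets (Gamma0 N) → ℂ,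
    ∃ f ∈ MF (Gamma0 N) k, ∀ x, cmp k f x z₀ = v x := by
  classical
  obtain ⟨z₀, hz₀⟩ := exists_transcendental_point
  have : Fintype (Cosets (Gamma0 N)) := Fintype.ofFinite _
  set m := Fintype.card (Cosets (Gamma0 N)) with hm
  have hm1 : 0 < m := Fintype.card_pos
  refine ⟨z₀, 12 * ((m - 1 : ℕ) : ℤ), fun v ↦ ?_⟩
  set k : ℤ := 12 * ((m - 1 : ℕ) : ℤ) with hk
  let w : Cosets (Gamma0 N) → ℍ := fun x ↦ nMul N (x.out⁻¹ • z₀)
  have hinj : Set.InjOn (fun x ↦ jH (w x)) (Finset.univ : Finset (Cosets (Gamma0 N))) := by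
    intro x _ y _ hxy
    have hmem := mem_Gamma0_of_slEquiv hz₀ (jH_eq_iff.mp hxy)
    rw [inv_inv] at hmem
    rw [← x.out_eq, ← y.out_eq]
    exact (QuotientGroup.eq.mpr hmem).symm
  let r : Cosets (Gamma0 N) → ℂ :=
    fun x ↦ v x * denom ((x.out⁻¹ : SL(2, ℤ)) : GL (Fin 2) ℝ) z₀ ^ k / Δ (w x) ^ (m - 1)
  let P := Lagrange.interpolate Finset.univ (fun x ↦ jH (w x)) r
  have hP : P.natDegree < m := by
    rcases eq_or_ne P 0 with h0 | h0
    · simp [h0, hm1]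
    · exact (Polynomial.natDegree_lt_iff_degree_lt h0).mpr (by
        simpa [P, hm] using Lagrange.degree_interpolate_lt r hinj)
  let f : ℍ → ℂ := ∑ i ∈ Finset.range m,
    P.coeff i • ((fun z ↦ E₄ (nMul N z)) ^ (3 * i) * (fun z ↦ Δ (nMul N z)) ^ (m - 1 - i))
  have hf : f ∈ MF (Gamma0 N) k := Submodule.sum_mem _ fun i hi ↦ Submodule.smul_mem _ _ (by
    have := mul_mem_MF (pow_mem_MF (comp_nMul_mem (N := N) E4_mem) (3 * i))
      (pow_mem_MF (comp_nMul_mem (N := N) (SF_le_MF discriminant_mem)) (m - 1 - i))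
    have hi' : i ≤ m - 1 := by have := Finset.mem_range.mp hi; lia
    rwa [show ((3 * i : ℕ) : ℤ) * 4 + ((m - 1 - i : ℕ) : ℤ) * 12 = k by
      rw [hk, Nat.cast_sub hi']; push_cast; ring] at this)
  refine ⟨f, hf, fun x ↦ ?_⟩
  have hval : f (x.out⁻¹ • z₀) = Δ (w x) ^ (m - 1) * P.eval (jH (w x)) := by
    rw [Polynomial.eval_eq_sum_range' hP, Finset.mul_sum]
    simp only [f, Finset.sum_apply, Pi.smul_apply, Pi.mul_apply, Pi.pow_apply, smul_eq_mul]
    refine Finset.sum_congr rfl fun i hi ↦ ?_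
    have hi' : i ≤ m - 1 := by have := Finset.mem_range.mp hi; lia
    have hΔ' : Δ (nMul N (x.out⁻¹ • z₀)) ≠ 0 := discriminant_ne_zero _
    simp only [jH, w, div_pow, ← pow_mul]
    rw [show Δ (nMul N (x.out⁻¹ • z₀)) ^ (m - 1) =
      Δ (nMul N (x.out⁻¹ • z₀)) ^ (m - 1 - i) * Δ (nMul N (x.out⁻¹ • z₀)) ^ i by
        rw [← pow_add, Nat.sub_add_cancel hi']]
    generalize Δ (nMul N (x.out⁻¹ • z₀)) = D at hΔ' ⊢
    field_simp
  simp only [cmp, SL_slash_apply]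
  rw [hval]
  simp only [P]
  rw [Lagrange.eval_interpolate_at_node r hinj (Finset.mem_univ x)]
  simp only [r]
  have hΔ := pow_ne_zero (m - 1) (discriminant_ne_zero (w x))
  rw [mul_div_cancel₀ _ hΔ, mul_assoc, ← zpow_add₀ (denom_ne_zero _ _)]
  simp

end FLTA.Dim
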