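import Fermat.Agent.Dim.Weights
import Fermat.Agent.Dim.Dual
import Fermat.Agent.Dim.Separation
import Fermat.Agent.Gamma0.Counts

/-!
# Dimension formulas
-/

set_option autoImplicit false

noncomputable section

open UpperHalfPlane ModularForm Filter Topology
open scoped MatrixGroups ModularForm Manifold

namespace FLTA.Dim

variable {Γ : Subgroup SL(2, ℤ)} [Γ.FiniteIndex]

/-- The genus of `Γ \ ℍ*` as a rational number, by the orbit counts on the cosets. -/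
def cosetGenus (Γ : Subgroup SL(2, ℤ)) : ℚ :=
  1 + (Nat.card (Cosets Γ) : ℚ) / 12
    - (Nat.card {x : Cosets Γ // ModularGroup.S • x = x} : ℚ) / 4
    - (Nat.card {x : Cosets Γ // (ModularGroup.S * ModularGroup.T) • x = x} : ℚ) / 3
    - (cuspOrbitCount Γ : ℚ) / 2

variable (hneg : (-1 : SL(2, ℤ)) ∈ Γ) (hsep : Separating Γ)
include hneg hsep

/-- The weight multiplicities satisfy the five linear equations. -/
theorem wtCount_equations :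
    let n : ℤ → ℚ := fun w ↦ (wtCount Γ w : ℚ)
    n 0 = 1 ∧
    n 0 + n 2 + n 4 + n 6 + n 8 + n 10 = Nat.card (Cosets Γ) ∧
    2 * n 2 + 4 * n 4 + 6 * n 6 + 8 * n 8 + 10 * n 10 =
      6 * ((Nat.card (Cosets Γ) : ℚ) - cuspOrbitCount Γ) ∧
    n 0 - n 2 + n 4 - n 6 + n 8 - n 10 =
      Nat.card {x : Cosets Γ // ModularGroup.S • x = x} ∧
    n 2 + n 8 = n 4 + n 10 ∧
    n 0 + n 6 - n 2 - n 8 =
      Nat.card {x : Cosets Γ // (ModularGroup.S * ModularGroup.T) • x = x} := by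
  intro n
  let := fintypeGenIdx hneg
  have h10 : ∀ i : GenIdx Γ, i.wt ≤ 10 := wt_le_ten hneg hsep
  have hs := sum_wt_eq hneg hsep
  rw [sum_by_wt hneg h10 (fun w ↦ w)] at hs
  obtain ⟨h4, h5⟩ := wtCount_fixed_ST hneg hsep h10
  have h2 := wtCount_add_eq_card_cosets hneg hsep h10
  have h3 := wtCount_fixed_S hneg hsep h10
  simp only [n]
  refine ⟨by rw [wtCount_zero hneg]; norm_num, by exact_mod_cast h2, ?_, by exact_mod_cast h3,
    by exact_mod_cast h4, by exact_mod_cast h5⟩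
  have h := congrArg (fun t : ℤ ↦ (t : ℚ)) hs
  push_cast at h
  linarith

theorem wtCount_ten : (wtCount Γ 10 : ℚ) = cosetGenus Γ := by
  obtain ⟨h1, h2, h3, h4, h5, h6⟩ := wtCount_equations hneg hsep
  rw [cosetGenus]
  linarith

theorem wtCount_two : (wtCount Γ 2 : ℚ) = cosetGenus Γ + cuspOrbitCount Γ - 1 := by
  obtain ⟨h1, h2, h3, h4, h5, h6⟩ := wtCount_equations hneg hsep
  rw [cosetGenus]
  linarith

/-- `dim S₂ = g`. -/
theorem finrank_SF_two_eq : (Module.finrank ℂ (SF Γ 2) : ℚ) = cosetGenus Γ := by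
  rw [finrank_SF_two hneg hsep, ← wtCount_ten hneg hsep, wtCount]

/-- `dim M₂ = g + c - 1`. -/
theorem finrank_MF_two_eq :
    (Module.finrank ℂ (MF Γ 2) : ℚ) = cosetGenus Γ + cuspOrbitCount Γ - 1 := by
  let := fintypeGenIdx hneg
  rw [finrank_MF_eq, sum_by_wt hneg (wt_le_ten hneg hsep) (fun w ↦ dimTop (2 - w)),
    ← wtCount_two hneg hsep]
  norm_num [dimTop]

/-- `dim M_{12 m} = μ m + 1 - g` for `m ≥ 1`. -/
theorem finrank_MF_twelve_mul (m : ℕ) (hm : 1 ≤ m) :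
    (Module.finrank ℂ (MF Γ (12 * m)) : ℚ) = Nat.card (Cosets Γ) * m + 1 - cosetGenus Γ := by
  let := fintypeGenIdx hneg
  rw [finrank_MF_eq, sum_by_wt hneg (wt_le_ten hneg hsep) (fun w ↦ dimTop (12 * (m : ℤ) - w))]
  have d0 : dimTop (12 * (m : ℤ) - 0) = m + 1 := by unfold dimTop; split_ifs <;> omega
  have d2 : dimTop (12 * (m : ℤ) - 2) = m := by unfold dimTop; split_ifs <;> omega
  have d4 : dimTop (12 * (m : ℤ) - 4) = m := by unfold dimTop; split_ifs <;> omega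
  have d6 : dimTop (12 * (m : ℤ) - 6) = m := by unfold dimTop; split_ifs <;> omega
  have d8 : dimTop (12 * (m : ℤ) - 8) = m := by unfold dimTop; split_ifs <;> omega
  have d10 : dimTop (12 * (m : ℤ) - 10) = m - 1 := by unfold dimTop; split_ifs <;> omega
  simp only [d0, d2, d4, d6, d8, d10]
  push_cast [Nat.cast_sub hm]
  obtain ⟨h1, h2, h3, h4, h5, h6⟩ := wtCount_equations hneg hsep
  have h7 := wtCount_ten hneg hsep
  rw [← h2, ← h7]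
  linear_combination h1

/-- The dimension formula for even `k ≥ 2`. -/
theorem finrank_MF_even (k : ℤ) (hk : 2 ≤ k) (hkev : Even k) :
    (Module.finrank ℂ (MF Γ k) : ℚ) =
      (k - 1) * (cosetGenus Γ - 1) +
      ((k / 4 : ℤ) : ℚ) * Nat.card {x : Cosets Γ // ModularGroup.S • x = x} +
      ((k / 3 : ℤ) : ℚ) * Nat.card {x : Cosets Γ // (ModularGroup.S * ModularGroup.T) • x = x} +
      (k : ℚ) / 2 * cuspOrbitCount Γ := by
  let := fintypeGenIdx hneg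
  rw [finrank_MF_eq, sum_by_wt hneg (wt_le_ten hneg hsep) (fun w ↦ dimTop (k - w))]
  obtain ⟨q, r, hr, rfl⟩ : ∃ q r : ℤ, (r = 2 ∨ r = 4 ∨ r = 6 ∨ r = 8 ∨ r = 10 ∨ r = 12) ∧
      k = 12 * q + r := by
    have := Int.even_iff.mp hkev
    exact ⟨(k - 2) / 12, k - 12 * ((k - 2) / 12), by omega, by ring⟩
  have hq : 0 ≤ q := by omega
  lift q to ℕ using hq
  obtain ⟨h1, h2, h3, h4, h5, h6⟩ := wtCount_equations hneg hsep
  have hg := wtCount_ten hneg hsep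
  have hc : (cuspOrbitCount Γ : ℚ) = wtCount Γ 2 - wtCount Γ 10 + 1 := by
    linarith [wtCount_two hneg hsep]
  rw [← hg, hc, ← h4, ← h6]
  rcases hr with rfl | rfl | rfl | rfl | rfl | rfl
  · have a : dimTop (12 * (q : ℤ) + 2 - 0) = q ∧ dimTop (12 * (q : ℤ) + 2 - 2) = q + 1 ∧
        dimTop (12 * (q : ℤ) + 2 - 4) = q ∧ dimTop (12 * (q : ℤ) + 2 - 6) = q ∧
        dimTop (12 * (q : ℤ) + 2 - 8) = q ∧ dimTop (12 * (q : ℤ) + 2 - 10) = q := by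
      refine ⟨?_, ?_, ?_, ?_, ?_, ?_⟩ <;> unfold dimTop <;> split_ifs <;> omega
    rw [a.1, a.2.1, a.2.2.1, a.2.2.2.1, a.2.2.2.2.1, a.2.2.2.2.2,
      show (12 * (q : ℤ) + 2) / 4 = 3 * q + 0 by omega,
      show (12 * (q : ℤ) + 2) / 3 = 4 * q + 0 by omega]
    push_cast
    linear_combination (0 + -6 * q : ℚ) * h1 + (0 + 2 * q : ℚ) * h5
  · have a : dimTop (12 * (q : ℤ) + 4 - 0) = q + 1 ∧ dimTop (12 * (q : ℤ) + 4 - 2) = q ∧
        dimTop (12 * (q : ℤ) + 4 - 4) = q + 1 ∧ dimTop (12 * (q : ℤ) + 4 - 6) = q ∧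
        dimTop (12 * (q : ℤ) + 4 - 8) = q ∧ dimTop (12 * (q : ℤ) + 4 - 10) = q := by
      refine ⟨?_, ?_, ?_, ?_, ?_, ?_⟩ <;> unfold dimTop <;> split_ifs <;> omega
    rw [a.1, a.2.1, a.2.2.1, a.2.2.2.1, a.2.2.2.2.1, a.2.2.2.2.2,
      show (12 * (q : ℤ) + 4) / 4 = 3 * q + 1 by omega,
      show (12 * (q : ℤ) + 4) / 3 = 4 * q + 1 by omega]
    push_cast
    linear_combination (-1 + -6 * q : ℚ) * h1 + (0 + 2 * q : ℚ) * h5
  · have a : dimTop (12 * (q : ℤ) + 6 - 0) = q + 1 ∧ dimTop (12 * (q : ℤ) + 6 - 2) = q + 1 ∧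
        dimTop (12 * (q : ℤ) + 6 - 4) = q ∧ dimTop (12 * (q : ℤ) + 6 - 6) = q + 1 ∧
        dimTop (12 * (q : ℤ) + 6 - 8) = q ∧ dimTop (12 * (q : ℤ) + 6 - 10) = q := by
      refine ⟨?_, ?_, ?_, ?_, ?_, ?_⟩ <;> unfold dimTop <;> split_ifs <;> omega
    rw [a.1, a.2.1, a.2.2.1, a.2.2.2.1, a.2.2.2.2.1, a.2.2.2.2.2,
      show (12 * (q : ℤ) + 6) / 4 = 3 * q + 1 by omega,
      show (12 * (q : ℤ) + 6) / 3 = 4 * q + 2 by omega]
    push_cast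
    linear_combination (-2 + -6 * q : ℚ) * h1 + (1 + 2 * q : ℚ) * h5
  · have a : dimTop (12 * (q : ℤ) + 8 - 0) = q + 1 ∧ dimTop (12 * (q : ℤ) + 8 - 2) = q + 1 ∧
        dimTop (12 * (q : ℤ) + 8 - 4) = q + 1 ∧ dimTop (12 * (q : ℤ) + 8 - 6) = q ∧
        dimTop (12 * (q : ℤ) + 8 - 8) = q + 1 ∧ dimTop (12 * (q : ℤ) + 8 - 10) = q := by
      refine ⟨?_, ?_, ?_, ?_, ?_, ?_⟩ <;> unfold dimTop <;> split_ifs <;> omega
    rw [a.1, a.2.1, a.2.2.1, a.2.2.2.1, a.2.2.2.2.1, a.2.2.2.2.2,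
      show (12 * (q : ℤ) + 8) / 4 = 3 * q + 2 by omega,
      show (12 * (q : ℤ) + 8) / 3 = 4 * q + 2 by omega]
    push_cast
    linear_combination (-3 + -6 * q : ℚ) * h1 + (1 + 2 * q : ℚ) * h5
  · have a : dimTop (12 * (q : ℤ) + 10 - 0) = q + 1 ∧ dimTop (12 * (q : ℤ) + 10 - 2) = q + 1 ∧
        dimTop (12 * (q : ℤ) + 10 - 4) = q + 1 ∧ dimTop (12 * (q : ℤ) + 10 - 6) = q + 1 ∧
        dimTop (12 * (q : ℤ) + 10 - 8) = q ∧ dimTop (12 * (q : ℤ) + 10 - 10) = q + 1 := by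
      refine ⟨?_, ?_, ?_, ?_, ?_, ?_⟩ <;> unfold dimTop <;> split_ifs <;> omega
    rw [a.1, a.2.1, a.2.2.1, a.2.2.2.1, a.2.2.2.2.1, a.2.2.2.2.2,
      show (12 * (q : ℤ) + 10) / 4 = 3 * q + 2 by omega,
      show (12 * (q : ℤ) + 10) / 3 = 4 * q + 3 by omega]
    push_cast
    linear_combination (-4 + -6 * q : ℚ) * h1 + (1 + 2 * q : ℚ) * h5
  · have a : dimTop (12 * (q : ℤ) + 12 - 0) = q + 2 ∧ dimTop (12 * (q : ℤ) + 12 - 2) = q + 1 ∧
        dimTop (12 * (q : ℤ) + 12 - 4) = q + 1 ∧ dimTop (12 * (q : ℤ) + 12 - 6) = q + 1 ∧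
        dimTop (12 * (q : ℤ) + 12 - 8) = q + 1 ∧ dimTop (12 * (q : ℤ) + 12 - 10) = q := by
      refine ⟨?_, ?_, ?_, ?_, ?_, ?_⟩ <;> unfold dimTop <;> split_ifs <;> omega
    rw [a.1, a.2.1, a.2.2.1, a.2.2.2.1, a.2.2.2.2.1, a.2.2.2.2.2,
      show (12 * (q : ℤ) + 12) / 4 = 3 * q + 3 by omega,
      show (12 * (q : ℤ) + 12) / 3 = 4 * q + 4 by omega]
    push_cast
    linear_combination (-5 + -6 * q : ℚ) * h1 + (2 + 2 * q : ℚ) * h5

/-- `dim S_k = dim M_k - c` for even `k ≥ 4`. -/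
theorem finrank_SF_add_cusps (k : ℤ) (hk : 4 ≤ k) (hkev : Even k) :
    (Module.finrank ℂ (SF Γ k) : ℚ) + cuspOrbitCount Γ = Module.finrank ℂ (MF Γ k) := by
  let := fintypeGenIdx hneg
  rw [finrank_SF_eq hneg hsep, finrank_MF_eq]
  simp only [finrank_MF_top]
  rw [sum_by_wt hneg (wt_le_ten hneg hsep) (fun w ↦ dimTop (k - (12 - w))),
    sum_by_wt hneg (wt_le_ten hneg hsep) (fun w ↦ dimTop (k - w))]
  obtain ⟨h1, h2, h3, h4, h5, h6⟩ := wtCount_equations hneg hsep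
  have hc : (cuspOrbitCount Γ : ℚ) = wtCount Γ 2 - wtCount Γ 10 + 1 := by
    linarith [wtCount_two hneg hsep, wtCount_ten hneg hsep]
  rw [hc]
  obtain ⟨q, r, hr, rfl⟩ : ∃ q r : ℤ, (r = 4 ∨ r = 6 ∨ r = 8 ∨ r = 10 ∨ r = 12 ∨ r = 14) ∧
      k = 12 * q + r := by
    have := Int.even_iff.mp hkev
    exact ⟨(k - 4) / 12, k - 12 * ((k - 4) / 12), by omega, by ring⟩
  have hq : 0 ≤ q := by omega
  lift q to ℕ using hq
  rcases hr with rfl | rfl | rfl | rfl | rfl | rfl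
  · have a : dimTop (12 * (q : ℤ) + 4 - (12 - 0)) = q ∧
        dimTop (12 * (q : ℤ) + 4 - (12 - 2)) = q ∧
        dimTop (12 * (q : ℤ) + 4 - (12 - 4)) = q ∧
        dimTop (12 * (q : ℤ) + 4 - (12 - 6)) = q ∧
        dimTop (12 * (q : ℤ) + 4 - (12 - 8)) = q + 1 ∧
        dimTop (12 * (q : ℤ) + 4 - (12 - 10)) = q ∧
        dimTop (12 * (q : ℤ) + 4 - 0) = q + 1 ∧
        dimTop (12 * (q : ℤ) + 4 - 2) = q ∧
        dimTop (12 * (q : ℤ) + 4 - 4) = q + 1 ∧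
        dimTop (12 * (q : ℤ) + 4 - 6) = q ∧
        dimTop (12 * (q : ℤ) + 4 - 8) = q ∧
        dimTop (12 * (q : ℤ) + 4 - 10) = q := by
      refine ⟨?_, ?_, ?_, ?_, ?_, ?_, ?_, ?_, ?_, ?_, ?_, ?_⟩ <;> unfold dimTop <;> split_ifs <;> omega
    obtain ⟨a0, a2, a4, a6, a8, a10, b0, b2, b4, b6, b8, b10⟩ := a
    rw [a0, a2, a4, a6, a8, a10, b0, b2, b4, b6, b8, b10]
    push_cast
    linear_combination (-1 : ℚ) * h1 + (1 : ℚ) * h5
  · have a : dimTop (12 * (q : ℤ) + 6 - (12 - 0)) = q ∧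
        dimTop (12 * (q : ℤ) + 6 - (12 - 2)) = q ∧
        dimTop (12 * (q : ℤ) + 6 - (12 - 4)) = q ∧
        dimTop (12 * (q : ℤ) + 6 - (12 - 6)) = q + 1 ∧
        dimTop (12 * (q : ℤ) + 6 - (12 - 8)) = q ∧
        dimTop (12 * (q : ℤ) + 6 - (12 - 10)) = q + 1 ∧
        dimTop (12 * (q : ℤ) + 6 - 0) = q + 1 ∧
        dimTop (12 * (q : ℤ) + 6 - 2) = q + 1 ∧
        dimTop (12 * (q : ℤ) + 6 - 4) = q ∧
        dimTop (12 * (q : ℤ) + 6 - 6) = q + 1 ∧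
        dimTop (12 * (q : ℤ) + 6 - 8) = q ∧
        dimTop (12 * (q : ℤ) + 6 - 10) = q := by
      refine ⟨?_, ?_, ?_, ?_, ?_, ?_, ?_, ?_, ?_, ?_, ?_, ?_⟩ <;> unfold dimTop <;> split_ifs <;> omega
    obtain ⟨a0, a2, a4, a6, a8, a10, b0, b2, b4, b6, b8, b10⟩ := a
    rw [a0, a2, a4, a6, a8, a10, b0, b2, b4, b6, b8, b10]
    push_cast
    linear_combination (-1 : ℚ) * h1 + (0 : ℚ) * h5
  · have a : dimTop (12 * (q : ℤ) + 8 - (12 - 0)) = q ∧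
        dimTop (12 * (q : ℤ) + 8 - (12 - 2)) = q ∧
        dimTop (12 * (q : ℤ) + 8 - (12 - 4)) = q + 1 ∧
        dimTop (12 * (q : ℤ) + 8 - (12 - 6)) = q ∧
        dimTop (12 * (q : ℤ) + 8 - (12 - 8)) = q + 1 ∧
        dimTop (12 * (q : ℤ) + 8 - (12 - 10)) = q + 1 ∧
        dimTop (12 * (q : ℤ) + 8 - 0) = q + 1 ∧
        dimTop (12 * (q : ℤ) + 8 - 2) = q + 1 ∧
        dimTop (12 * (q : ℤ) + 8 - 4) = q + 1 ∧
        dimTop (12 * (q : ℤ) + 8 - 6) = q ∧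
        dimTop (12 * (q : ℤ) + 8 - 8) = q + 1 ∧
        dimTop (12 * (q : ℤ) + 8 - 10) = q := by
      refine ⟨?_, ?_, ?_, ?_, ?_, ?_, ?_, ?_, ?_, ?_, ?_, ?_⟩ <;> unfold dimTop <;> split_ifs <;> omega
    obtain ⟨a0, a2, a4, a6, a8, a10, b0, b2, b4, b6, b8, b10⟩ := a
    rw [a0, a2, a4, a6, a8, a10, b0, b2, b4, b6, b8, b10]
    push_cast
    linear_combination (-1 : ℚ) * h1 + (0 : ℚ) * h5
  · have a : dimTop (12 * (q : ℤ) + 10 - (12 - 0)) = q ∧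
        dimTop (12 * (q : ℤ) + 10 - (12 - 2)) = q + 1 ∧
        dimTop (12 * (q : ℤ) + 10 - (12 - 4)) = q ∧
        dimTop (12 * (q : ℤ) + 10 - (12 - 6)) = q + 1 ∧
        dimTop (12 * (q : ℤ) + 10 - (12 - 8)) = q + 1 ∧
        dimTop (12 * (q : ℤ) + 10 - (12 - 10)) = q + 1 ∧
        dimTop (12 * (q : ℤ) + 10 - 0) = q + 1 ∧
        dimTop (12 * (q : ℤ) + 10 - 2) = q + 1 ∧
        dimTop (12 * (q : ℤ) + 10 - 4) = q + 1 ∧
        dimTop (12 * (q : ℤ) + 10 - 6) = q + 1 ∧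
        dimTop (12 * (q : ℤ) + 10 - 8) = q ∧
        dimTop (12 * (q : ℤ) + 10 - 10) = q + 1 := by
      refine ⟨?_, ?_, ?_, ?_, ?_, ?_, ?_, ?_, ?_, ?_, ?_, ?_⟩ <;> unfold dimTop <;> split_ifs <;> omega
    obtain ⟨a0, a2, a4, a6, a8, a10, b0, b2, b4, b6, b8, b10⟩ := a
    rw [a0, a2, a4, a6, a8, a10, b0, b2, b4, b6, b8, b10]
    push_cast
    linear_combination (-1 : ℚ) * h1 + (1 : ℚ) * h5
  · have a : dimTop (12 * (q : ℤ) + 12 - (12 - 0)) = q + 1 ∧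
        dimTop (12 * (q : ℤ) + 12 - (12 - 2)) = q ∧
        dimTop (12 * (q : ℤ) + 12 - (12 - 4)) = q + 1 ∧
        dimTop (12 * (q : ℤ) + 12 - (12 - 6)) = q + 1 ∧
        dimTop (12 * (q : ℤ) + 12 - (12 - 8)) = q + 1 ∧
        dimTop (12 * (q : ℤ) + 12 - (12 - 10)) = q + 1 ∧
        dimTop (12 * (q : ℤ) + 12 - 0) = q + 2 ∧
        dimTop (12 * (q : ℤ) + 12 - 2) = q + 1 ∧
        dimTop (12 * (q : ℤ) + 12 - 4) = q + 1 ∧
        dimTop (12 * (q : ℤ) + 12 - 6) = q + 1 ∧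
        dimTop (12 * (q : ℤ) + 12 - 8) = q + 1 ∧
        dimTop (12 * (q : ℤ) + 12 - 10) = q := by
      refine ⟨?_, ?_, ?_, ?_, ?_, ?_, ?_, ?_, ?_, ?_, ?_, ?_⟩ <;> unfold dimTop <;> split_ifs <;> omega
    obtain ⟨a0, a2, a4, a6, a8, a10, b0, b2, b4, b6, b8, b10⟩ := a
    rw [a0, a2, a4, a6, a8, a10, b0, b2, b4, b6, b8, b10]
    push_cast
    linear_combination (-1 : ℚ) * h1 + (0 : ℚ) * h5
  · have a : dimTop (12 * (q : ℤ) + 14 - (12 - 0)) = q ∧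
        dimTop (12 * (q : ℤ) + 14 - (12 - 2)) = q + 1 ∧
        dimTop (12 * (q : ℤ) + 14 - (12 - 4)) = q + 1 ∧
        dimTop (12 * (q : ℤ) + 14 - (12 - 6)) = q + 1 ∧
        dimTop (12 * (q : ℤ) + 14 - (12 - 8)) = q + 1 ∧
        dimTop (12 * (q : ℤ) + 14 - (12 - 10)) = q + 2 ∧
        dimTop (12 * (q : ℤ) + 14 - 0) = q + 1 ∧
        dimTop (12 * (q : ℤ) + 14 - 2) = q + 2 ∧
        dimTop (12 * (q : ℤ) + 14 - 4) = q + 1 ∧
        dimTop (12 * (q : ℤ) + 14 - 6) = q + 1 ∧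
        dimTop (12 * (q : ℤ) + 14 - 8) = q + 1 ∧
        dimTop (12 * (q : ℤ) + 14 - 10) = q + 1 := by
      refine ⟨?_, ?_, ?_, ?_, ?_, ?_, ?_, ?_, ?_, ?_, ?_, ?_⟩ <;> unfold dimTop <;> split_ifs <;> omega
    obtain ⟨a0, a2, a4, a6, a8, a10, b0, b2, b4, b6, b8, b10⟩ := a
    rw [a0, a2, a4, a6, a8, a10, b0, b2, b4, b6, b8, b10]
    push_cast
    linear_combination (-1 : ℚ) * h1 + (0 : ℚ) * h5
omit hneg hsep

section Gamma0

open CongruenceSubgroup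

variable (N : ℕ) [NeZero N]

theorem neg_one_mem_Gamma0' : (-1 : SL(2, ℤ)) ∈ Gamma0 N := by simp [Gamma0_mem]

theorem separating_gamma0' : Separating (Gamma0 N) := separating_Gamma0 N

theorem cuspOrbitCount_Gamma0 : cuspOrbitCount (Gamma0 N) = ModularCurve.cuspCount N :=
  FLTA.Gamma0.card_orbits_T N

/-- The genus read off from the cosets is the classical formula. -/
theorem cosetGenus_Gamma0 : cosetGenus (Gamma0 N) = ModularCurve.genusFormula N := by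
  rw [cosetGenus, ModularCurve.genusFormula, cuspOrbitCount_Gamma0]
  unfold Cosets
  rw [FLTA.Gamma0.card_cosets_Gamma0, FLTA.Gamma0.card_fixedBy_S, FLTA.Gamma0.card_fixedBy_ST]

/-- `dim S₂(Γ₀(N))` is the genus of `X₀(N)`. -/
theorem finrank_cuspForm_two_Gamma0 :
    (Module.finrank ℂ (CuspForm (Gamma0 N) 2) : ℚ) = ModularCurve.genusFormula N := by
  rw [← cosetGenus_Gamma0 N, (cuspFormEquiv (Gamma0 N) 2).finrank_eq,
    finrank_SF_two_eq (neg_one_mem_Gamma0' N) (separating_gamma0' N)]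

/-- `dim M_{12 m}(Γ₀(N)) = ψ(N) m + 1 - g`. -/
theorem finrank_MF_twelve_mul_Gamma0 (m : ℕ) (hm : 1 ≤ m) :
    (Module.finrank ℂ (MF (Gamma0 N) (12 * m)) : ℚ) =
      ModularCurve.dedekindPsi N * m + 1 - ModularCurve.genusFormula N := by
  rw [finrank_MF_twelve_mul (neg_one_mem_Gamma0' N) (separating_gamma0' N) m hm,
    cosetGenus_Gamma0 N]
  unfold Cosets
  rw [FLTA.Gamma0.card_cosets_Gamma0]

instance finiteDimensional_MF_Gamma0 (k : ℤ) : FiniteDimensional ℂ (MF (Gamma0 N) k) :=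
  finiteDimensional_MF (neg_one_mem_Gamma0' N) k

instance finiteDimensional_SF_Gamma0 (k : ℤ) : FiniteDimensional ℂ (SF (Gamma0 N) k) :=
  finiteDimensional_SF (neg_one_mem_Gamma0' N) k

end Gamma0

end FLTA.Dim
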