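import Mathlib.NumberTheory.ModularForms.NormTrace
import Mathlib.NumberTheory.ModularForms.LevelOne.GradedRing

/-!
# Modular forms as a submodule of functions on the upper half plane

For a subgroup `Γ` of `SL(2, ℤ)`, `FLTA.Dim.MF Γ k` and `FLTA.Dim.SF Γ k` are the submodules of
`ℍ → ℂ` of holomorphic, weight `k` invariant functions bounded (resp. zero) at every cusp.
`FLTA.Dim.cmp k f x` is the component of `f` at the coset `x`.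
-/

set_option autoImplicit false

noncomputable section

open UpperHalfPlane ModularForm Matrix.SpecialLinearGroup
open scoped MatrixGroups ModularForm Manifold

namespace FLTA.Dim

/-- The cosets `SL(2, ℤ) ⧸ Γ`. -/
abbrev Cosets (Γ : Subgroup SL(2, ℤ)) : Type := SL(2, ℤ) ⧸ Γ

/-- Invariance of weight `k` under `Γ`. -/
def IsInv (Γ : Subgroup SL(2, ℤ)) (k : ℤ) (f : ℍ → ℂ) : Prop := ∀ γ ∈ Γ, f ∣[k] γ = f

/-- Modular forms of weight `k` on `Γ`, as functions. -/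
def MF (Γ : Subgroup SL(2, ℤ)) (k : ℤ) : Submodule ℂ (ℍ → ℂ) where
  carrier := {f | MDiff f ∧ IsInv Γ k f ∧ ∀ g : SL(2, ℤ), IsBoundedAtImInfty (f ∣[k] g)}
  zero_mem' := ⟨fun _ ↦ mdifferentiableAt_const, fun γ _ ↦ by simp,
    fun g ↦ by simpa using zero_form_isBoundedAtImInfty⟩
  add_mem' := by
    rintro f g ⟨hf, hfi, hfb⟩ ⟨hg, hgi, hgb⟩
    exact ⟨hf.add hg, fun γ hγ ↦ by rw [SlashAction.add_slash, hfi γ hγ, hgi γ hγ],
      fun γ ↦ by rw [SlashAction.add_slash]; exact (hfb γ).add (hgb γ)⟩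
  smul_mem' := by
    rintro c f ⟨hf, hfi, hfb⟩
    refine ⟨hf.const_smul c, fun γ hγ ↦ by rw [SL_smul_slash, hfi γ hγ], fun γ ↦ ?_⟩
    rw [SL_smul_slash]
    exact Asymptotics.IsBigO.const_smul_left (hfb γ) c

/-- Cusp forms of weight `k` on `Γ`, as functions. -/
def SF (Γ : Subgroup SL(2, ℤ)) (k : ℤ) : Submodule ℂ (ℍ → ℂ) where
  carrier := {f | MDiff f ∧ IsInv Γ k f ∧ ∀ g : SL(2, ℤ), IsZeroAtImInfty (f ∣[k] g)}
  zero_mem' := ⟨fun _ ↦ mdifferentiableAt_const, fun γ _ ↦ by simp,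
    fun g ↦ by
      rw [SlashAction.zero_slash]
      exact tendsto_const_nhds⟩
  add_mem' := by
    rintro f g ⟨hf, hfi, hfb⟩ ⟨hg, hgi, hgb⟩
    exact ⟨hf.add hg, fun γ hγ ↦ by rw [SlashAction.add_slash, hfi γ hγ, hgi γ hγ],
      fun γ ↦ by
        rw [SlashAction.add_slash]
        have := (hfb γ).add (hgb γ)
        simpa [IsZeroAtImInfty, Filter.ZeroAtFilter] using this⟩
  smul_mem' := by
    rintro c f ⟨hf, hfi, hfb⟩
    refine ⟨hf.const_smul c, fun γ hγ ↦ by rw [SL_smul_slash, hfi γ hγ], fun γ ↦ ?_⟩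
    rw [SL_smul_slash]
    have := (hfb γ).const_smul c
    rw [smul_zero] at this
    exact this

variable {Γ Γ' : Subgroup SL(2, ℤ)} {k k₁ k₂ : ℤ} {f g : ℍ → ℂ}

lemma MF.mdiff (hf : f ∈ MF Γ k) : MDiff f := hf.1

lemma MF.inv (hf : f ∈ MF Γ k) : IsInv Γ k f := hf.2.1

lemma MF.bounded (hf : f ∈ MF Γ k) (γ : SL(2, ℤ)) : IsBoundedAtImInfty (f ∣[k] γ) := hf.2.2 γ

lemma MF.bounded_one (hf : f ∈ MF Γ k) : IsBoundedAtImInfty f := by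
  simpa using MF.bounded hf 1

lemma SF.isZero (hf : f ∈ SF Γ k) (γ : SL(2, ℤ)) : IsZeroAtImInfty (f ∣[k] γ) := hf.2.2 γ

lemma mem_SF_iff : f ∈ SF Γ k ↔ MDiff f ∧ IsInv Γ k f ∧ ∀ γ : SL(2, ℤ),
    IsZeroAtImInfty (f ∣[k] γ) := Iff.rfl

lemma mem_MF_iff : f ∈ MF Γ k ↔ MDiff f ∧ IsInv Γ k f ∧ ∀ γ : SL(2, ℤ),
    IsBoundedAtImInfty (f ∣[k] γ) := Iff.rfl

lemma SF_le_MF : SF Γ k ≤ MF Γ k := fun _ ⟨h1, h2, h3⟩ ↦ ⟨h1, h2, fun γ ↦ (h3 γ).isBigO_one ℝ⟩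

lemma MF_mono (h : Γ ≤ Γ') : MF Γ' k ≤ MF Γ k :=
  fun _ ⟨h1, h2, h3⟩ ↦ ⟨h1, fun γ hγ ↦ h2 γ (h hγ), h3⟩

lemma SF_mono (h : Γ ≤ Γ') : SF Γ' k ≤ SF Γ k :=
  fun _ ⟨h1, h2, h3⟩ ↦ ⟨h1, fun γ hγ ↦ h2 γ (h hγ), h3⟩

lemma mul_mem_MF (hf : f ∈ MF Γ k₁) (hg : g ∈ MF Γ k₂) : f * g ∈ MF Γ (k₁ + k₂) := by
  refine ⟨hf.1.mul hg.1, fun γ hγ ↦ ?_, fun γ ↦ ?_⟩
  · rw [mul_slash_SL2, hf.2.1 γ hγ, hg.2.1 γ hγ]
  · rw [mul_slash_SL2]
    have := (hf.2.2 γ).mul (hg.2.2 γ)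
    exact this

lemma mul_mem_SF_left (hf : f ∈ SF Γ k₁) (hg : g ∈ MF Γ k₂) : f * g ∈ SF Γ (k₁ + k₂) := by
  refine ⟨hf.1.mul hg.1, fun γ hγ ↦ ?_, fun γ ↦ ?_⟩
  · rw [mul_slash_SL2, hf.2.1 γ hγ, hg.2.1 γ hγ]
  · rw [mul_slash_SL2]
    have h1 := (Asymptotics.isLittleO_one_iff ℝ).mpr (hf.2.2 γ)
    have h2 := h1.mul_isBigO (hg.2.2 γ)
    simp only [Pi.one_apply, mul_one] at h2
    exact (Asymptotics.isLittleO_one_iff ℝ).mp h2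

lemma one_mem_MF : (1 : ℍ → ℂ) ∈ MF Γ 0 := by
  refine ⟨fun _ ↦ mdifferentiableAt_const, fun γ _ ↦ is_invariant_one γ, fun γ ↦ ?_⟩
  rw [is_invariant_one]
  exact Filter.const_boundedAtFilter _ (1 : ℂ)

lemma pow_mem_MF (hf : f ∈ MF Γ k) (n : ℕ) : f ^ n ∈ MF Γ (n * k) := by
  induction n with
  | zero => simpa using one_mem_MF
  | succ n ih =>
    rw [pow_succ, show ((n + 1 : ℕ) : ℤ) * k = n * k + k by push_cast; ring]
    exact mul_mem_MF ih hf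

/-- The component of `f` at a coset. -/
def cmp (k : ℤ) (f : ℍ → ℂ) (x : Cosets Γ) : ℍ → ℂ := f ∣[k] (Quotient.out x)⁻¹

lemma cmp_mk (hf : IsInv Γ k f) (a : SL(2, ℤ)) : cmp k f (a : Cosets Γ) = f ∣[k] a⁻¹ := by
  obtain ⟨γ, hγ⟩ := QuotientGroup.mk_out_eq_mul Γ a
  rw [cmp, hγ, _root_.mul_inv_rev, SlashAction.slash_mul, hf _ (inv_mem γ.2)]

lemma cmp_mk_one (hf : IsInv Γ k f) : cmp k f ((1 : SL(2, ℤ)) : Cosets Γ) = f := by
  simp [cmp_mk hf]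

lemma cmp_slash (hf : IsInv Γ k f) (γ : SL(2, ℤ)) (x : Cosets Γ) :
    cmp k f x ∣[k] γ = cmp k f (γ⁻¹ • x) := by
  induction x using QuotientGroup.induction_on with
  | H a =>
    rw [cmp_mk hf, MulAction.Quotient.smul_coe, cmp_mk hf, ← SlashAction.slash_mul, smul_eq_mul,
      _root_.mul_inv_rev, inv_inv]

/-- Transformation rule of the components, pointwise. -/
lemma cmp_apply_smul (hf : IsInv Γ k f) (γ : SL(2, ℤ)) (x : Cosets Γ) (z : ℍ) :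
    cmp k f x (γ • z) = denom γ z ^ k * cmp k f (γ⁻¹ • x) z := by
  rw [← cmp_slash hf γ x, SL_slash_apply, mul_left_comm, ← zpow_add₀ (denom_ne_zero _ _)]
  simp

lemma cmp_mdiff (hf : MDiff f) (x : Cosets Γ) : MDiff (cmp k f x) := hf.slash k _

lemma cmp_bounded (hf : f ∈ MF Γ k) (x : Cosets Γ) : IsBoundedAtImInfty (cmp k f x) :=
  hf.2.2 _

lemma cmp_add (f g : ℍ → ℂ) (x : Cosets Γ) : cmp k (f + g) x = cmp k f x + cmp k g x :=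
  SlashAction.add_slash _ _ _ _

lemma cmp_smul (c : ℂ) (f : ℍ → ℂ) (x : Cosets Γ) : cmp k (c • f) x = c • cmp k f x :=
  SL_smul_slash _ _ _ _

lemma cmp_sum {ι : Type*} (s : Finset ι) (F : ι → ℍ → ℂ) (x : Cosets Γ) :
    cmp k (∑ i ∈ s, F i) x = ∑ i ∈ s, cmp k (F i) x :=
  SlashAction.sum_slash _ _

lemma cmp_mul (f g : ℍ → ℂ) (x : Cosets Γ) :
    cmp (k₁ + k₂) (f * g) x = cmp k₁ f x * cmp k₂ g x :=
  mul_slash_SL2 _ _ _ _ _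

/-- The components of a level one form are the form itself. -/
lemma cmp_top (hf : IsInv ⊤ k f) (x : Cosets Γ) : cmp k f x = f := hf _ (Subgroup.mem_top _)

/-- Multiplication by a level one form commutes with taking components. -/
lemma cmp_top_mul {k' : ℤ} (h : k = k₁ + k') {A : ℍ → ℂ} (hA : IsInv ⊤ k₁ A) (f : ℍ → ℂ)
    (x : Cosets Γ) : cmp k (A * f) x = A * cmp k' f x := by
  subst h
  rw [cmp_mul, cmp_top hA]

section Bundled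

lemma coe_mem_MF [Γ.FiniteIndex] (f : ModularForm (Γ : Subgroup (GL (Fin 2) ℝ)) k) :
    (⇑f) ∈ MF Γ k := by
  refine ⟨f.holo', fun γ hγ ↦ f.slash_action_eq' _ ⟨γ, hγ, rfl⟩, fun γ ↦ ?_⟩
  exact f.bdd_at_cusps' ((Subgroup.IsArithmetic.isCusp_iff_isCusp_SL2Z _).mpr
    (isCusp_SL2Z_iff'.mpr ⟨γ, rfl⟩)) _ rfl

lemma coe_mem_SF [Γ.FiniteIndex] (f : CuspForm (Γ : Subgroup (GL (Fin 2) ℝ)) k) :
    (⇑f) ∈ SF Γ k := by
  refine ⟨f.holo', fun γ hγ ↦ f.slash_action_eq' _ ⟨γ, hγ, rfl⟩, fun γ ↦ ?_⟩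
  exact f.zero_at_cusps' ((Subgroup.IsArithmetic.isCusp_iff_isCusp_SL2Z _).mpr
    (isCusp_SL2Z_iff'.mpr ⟨γ, rfl⟩)) _ rfl

/-- An element of `MF Γ k` as a bundled modular form. -/
def MF.toForm [Γ.FiniteIndex] (hf : f ∈ MF Γ k) :
    ModularForm (Γ : Subgroup (GL (Fin 2) ℝ)) k where
  toFun := f
  slash_action_eq' := by
    rintro _ ⟨γ, hγ, rfl⟩
    exact hf.2.1 γ hγ
  holo' := hf.1
  bdd_at_cusps' hc := by
    rw [Subgroup.IsArithmetic.isCusp_iff_isCusp_SL2Z] at hc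
    rw [OnePoint.isBoundedAt_iff_forall_SL2Z hc]
    exact fun γ _ ↦ hf.2.2 γ

/-- An element of `SF Γ k` as a bundled cusp form. -/
def SF.toForm [Γ.FiniteIndex] (hf : f ∈ SF Γ k) :
    CuspForm (Γ : Subgroup (GL (Fin 2) ℝ)) k where
  toFun := f
  slash_action_eq' := by
    rintro _ ⟨γ, hγ, rfl⟩
    exact hf.2.1 γ hγ
  holo' := hf.1
  zero_at_cusps' hc := by
    rw [Subgroup.IsArithmetic.isCusp_iff_isCusp_SL2Z] at hc
    rw [OnePoint.isZeroAt_iff_forall_SL2Z hc]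
    exact fun γ _ ↦ hf.2.2 γ

/-- Bundled and unbundled modular forms agree. -/
def modularFormEquiv (Γ : Subgroup SL(2, ℤ)) [Γ.FiniteIndex] (k : ℤ) :
    ModularForm (Γ : Subgroup (GL (Fin 2) ℝ)) k ≃ₗ[ℂ] MF Γ k where
  toFun f := ⟨⇑f, coe_mem_MF f⟩
  map_add' _ _ := rfl
  map_smul' _ _ := rfl
  invFun f := MF.toForm f.2
  left_inv _ := rfl
  right_inv _ := rfl

/-- Bundled and unbundled cusp forms agree. -/
def cuspFormEquiv (Γ : Subgroup SL(2, ℤ)) [Γ.FiniteIndex] (k : ℤ) :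
    CuspForm (Γ : Subgroup (GL (Fin 2) ℝ)) k ≃ₗ[ℂ] SF Γ k where
  toFun f := ⟨⇑f, coe_mem_SF f⟩
  map_add' _ _ := rfl
  map_smul' _ _ := rfl
  invFun f := SF.toForm f.2
  left_inv _ := rfl
  right_inv _ := rfl

end Bundled

section LevelOne

/-- A bundled level one form lies in `MF ⊤`. -/
lemma coe_mem_MF_top (f : ModularForm 𝒮ℒ k) : (⇑f) ∈ MF (⊤ : Subgroup SL(2, ℤ)) k := by
  refine ⟨f.holo', fun γ _ ↦ f.slash_action_eq' _ ⟨γ, rfl⟩, fun γ ↦ ?_⟩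
  exact f.bdd_at_cusps' (isCusp_SL2Z_iff'.mpr ⟨γ, rfl⟩) _ rfl

lemma coe_mem_SF_top (f : CuspForm 𝒮ℒ k) : (⇑f) ∈ SF (⊤ : Subgroup SL(2, ℤ)) k := by
  refine ⟨f.holo', fun γ _ ↦ f.slash_action_eq' _ ⟨γ, rfl⟩, fun γ ↦ ?_⟩
  exact f.zero_at_cusps' (isCusp_SL2Z_iff'.mpr ⟨γ, rfl⟩) _ rfl

/-- An element of `MF ⊤ k` as a bundled level one form. -/
def MF.toLevelOne (hf : f ∈ MF (⊤ : Subgroup SL(2, ℤ)) k) : ModularForm 𝒮ℒ k where
  toFun := f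
  slash_action_eq' := by
    rintro _ ⟨γ, rfl⟩
    exact hf.2.1 γ trivial
  holo' := hf.1
  bdd_at_cusps' hc := by
    rw [OnePoint.isBoundedAt_iff_forall_SL2Z hc]
    exact fun γ _ ↦ hf.2.2 γ

lemma MF.coe_toLevelOne (hf : f ∈ MF (⊤ : Subgroup SL(2, ℤ)) k) : ⇑(MF.toLevelOne hf) = f := rfl

/-- An element of `SF ⊤ k` as a bundled level one cusp form. -/
def SF.toLevelOne (hf : f ∈ SF (⊤ : Subgroup SL(2, ℤ)) k) : CuspForm 𝒮ℒ k where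
  toFun := f
  slash_action_eq' := by
    rintro _ ⟨γ, rfl⟩
    exact hf.2.1 γ trivial
  holo' := hf.1
  zero_at_cusps' hc := by
    rw [OnePoint.isZeroAt_iff_forall_SL2Z hc]
    exact fun γ _ ↦ hf.2.2 γ

lemma E4_mem : (⇑E₄) ∈ MF (⊤ : Subgroup SL(2, ℤ)) 4 := coe_mem_MF_top _

lemma E6_mem : (⇑E₆) ∈ MF (⊤ : Subgroup SL(2, ℤ)) 6 := coe_mem_MF_top _

lemma discriminant_mem : ModularForm.discriminant ∈ SF (⊤ : Subgroup SL(2, ℤ)) 12 :=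
  coe_mem_SF_top CuspForm.discriminant

end LevelOne

lemma MF_eq_bot_of_neg [Γ.FiniteIndex] (hk : k < 0) : MF Γ k = ⊥ := by
  rw [eq_bot_iff]
  intro f hf
  exact congrArg DFunLike.coe (ModularForm.isZero_of_neg_weight hk (MF.toForm hf))

lemma exists_eq_const_of_mem_MF_zero [Γ.FiniteIndex] (hf : f ∈ MF Γ 0) :
    ∃ c : ℂ, f = fun _ ↦ c :=
  ModularForm.eq_const_of_weight_zero (MF.toForm hf)

end FLTA.Dim
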