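import Mathlib.LinearAlgebra.Determinant
import Mathlib.LinearAlgebra.Projection
import Mathlib.LinearAlgebra.Matrix.ToLin
import Mathlib.Analysis.SpecialFunctions.Complex.Circle
import Mathlib.GroupTheory.GroupAction.Quotient
import Mathlib.RingTheory.RootsOfUnity.Complex

/-!
# Fourier projections for a permutation of finite order

For a permutation of finite order `L` the projections `proj a` diagonalise the permutation matrix,
and `twist z = ∑ exp(-2πi a z / L) proj a` untwists it. The square of `det (twist z)` is computed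
from the number of orbits.
-/

set_option autoImplicit false

noncomputable section

open Matrix Complex
open scoped Real

namespace FLTA.Dim

/-- `exp (2 π i t)`. -/
def eC (t : ℂ) : ℂ := Complex.exp (2 * π * Complex.I * t)

lemma eC_add (s t : ℂ) : eC (s + t) = eC s * eC t := by
  rw [eC, eC, eC, mul_add, Complex.exp_add]

lemma eC_zero : eC 0 = 1 := by simp [eC]

lemma eC_ne_zero (t : ℂ) : eC t ≠ 0 := Complex.exp_ne_zero _

lemma eC_int (n : ℤ) : eC n = 1 := by
  rw [eC, show 2 * (π : ℂ) * Complex.I * n = n * (2 * π * Complex.I) by ring,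
    Complex.exp_int_mul_two_pi_mul_I]

lemma eC_nat_mul (n : ℕ) (t : ℂ) : eC (n * t) = eC t ^ n := by
  rw [eC, eC, ← Complex.exp_nat_mul]
  congr 1
  ring

lemma eC_neg (t : ℂ) : eC (-t) = (eC t)⁻¹ := by
  rw [← mul_eq_one_iff_eq_inv₀ (eC_ne_zero _), ← eC_add, neg_add_cancel, eC_zero]

variable {X : Type*} [Fintype X] [DecidableEq X]

/-- The matrix of `v ↦ v ∘ σ`. -/
def permMat (σ : X ≃ X) : Matrix X X ℂ := Matrix.of fun x y ↦ if y = σ x then 1 else 0

lemma permMat_mulVec (σ : X ≃ X) (v : X → ℂ) (x : X) : (permMat σ *ᵥ v) x = v (σ x) := by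
  simp [permMat, Matrix.mulVec, dotProduct]

lemma permMat_mul_apply {Y : Type*} (σ : X ≃ X) (M : Matrix X Y ℂ) (x : X) (y : Y) :
    (permMat σ * M) x y = M (σ x) y := by
  simp [permMat, Matrix.mul_apply]

lemma permMat_transpose_mul (σ : X ≃ X) : (permMat σ)ᵀ * permMat σ = 1 := by
  ext x y
  simp only [Matrix.mul_apply, Matrix.transpose_apply, permMat, Matrix.of_apply,
    Matrix.one_apply, mul_ite, mul_one, mul_zero]
  rw [Finset.sum_eq_single (σ.symm x)]
  · simp [eq_comm]
  · intro b _ hb
    have hb' : x ≠ σ b := fun h ↦ hb (by simp [h])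
    simp [hb']
  · simp

variable (σ : Equiv.Perm X)

/-- The order of the permutation. -/
def per : ℕ := orderOf σ

lemma per_pos : 0 < per σ := orderOf_pos σ

lemma permMat_pow (n : ℕ) : permMat σ ^ n = permMat (σ ^ n) := by
  induction n with
  | zero => ext x y; simp [permMat, Matrix.one_apply, eq_comm]
  | succ n ih =>
    rw [pow_succ' (permMat σ), ih]
    ext x y
    rw [permMat_mul_apply, pow_succ σ]
    simp [permMat]

lemma permMat_pow_per : permMat σ ^ per σ = 1 := by
  rw [permMat_pow, per, pow_orderOf_eq_one]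
  ext x y; simp [permMat, Matrix.one_apply, eq_comm]

/-- The root of unity. -/
def zeta : ℂ := eC (1 / (per σ : ℂ))

lemma zeta_pow_per : zeta σ ^ per σ = 1 := by
  rw [zeta, ← eC_nat_mul, mul_one_div, div_self (Nat.cast_ne_zero.mpr (per_pos σ).ne')]
  exact_mod_cast eC_int 1

lemma isPrimitiveRoot_zeta : IsPrimitiveRoot (zeta σ) (per σ) := by
  convert Complex.isPrimitiveRoot_exp (per σ) (per_pos σ).ne' using 1
  rw [zeta, eC]
  congr 1
  ring

lemma zeta_ne_zero : zeta σ ≠ 0 := eC_ne_zero _

/-- The spectral projection for the eigenvalue `ζ ^ a`. -/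
def proj (a : ℕ) : Matrix X X ℂ :=
  (per σ : ℂ)⁻¹ • ∑ j ∈ Finset.range (per σ), ((zeta σ ^ a) ^ j)⁻¹ • permMat σ ^ j

lemma permMat_mul_proj (a : ℕ) : permMat σ * proj σ a = zeta σ ^ a • proj σ a := by
  set L := per σ with hL
  set c := zeta σ ^ a with hc
  have hc0 : c ≠ 0 := pow_ne_zero _ (zeta_ne_zero σ)
  let f : ℕ → Matrix X X ℂ := fun j ↦ (c ^ j)⁻¹ • permMat σ ^ j
  have hf : f L = f 0 := by
    simp only [f, pow_zero]
    rw [hL, permMat_pow_per, hc, ← pow_mul, mul_comm, pow_mul, zeta_pow_per, one_pow]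
  have hshift : ∑ j ∈ Finset.range L, f (j + 1) = ∑ j ∈ Finset.range L, f j := by
    have h := Finset.sum_range_succ' f L
    rw [Finset.sum_range_succ, hf] at h
    exact add_right_cancel h.symm
  rw [proj, Matrix.mul_smul, Finset.mul_sum, smul_comm]
  congr 1
  rw [Finset.smul_sum]
  have e1 : ∀ j, permMat σ * (c ^ j)⁻¹ • permMat σ ^ j = c • f (j + 1) := by
    intro j
    simp only [f]
    rw [Matrix.mul_smul, ← pow_succ', smul_smul]
    congr 1
    rw [pow_succ]
    field_simp
  simp only [← hL, ← hc]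
  rw [Finset.sum_congr rfl fun j _ ↦ e1 j, ← Finset.smul_sum, hshift, Finset.smul_sum]

lemma proj_mul_permMat (a : ℕ) : proj σ a * permMat σ = zeta σ ^ a • proj σ a := by
  rw [← permMat_mul_proj]
  simp only [proj, Matrix.mul_smul, Matrix.smul_mul, Finset.mul_sum, Finset.sum_mul]
  congr 1
  refine Finset.sum_congr rfl fun j _ ↦ ?_
  rw [← pow_succ', ← pow_succ]

/-- Projections act on an eigenmatrix by a Kronecker delta. -/
lemma proj_mul_of_eigen {Y : Type*} {a b : ℕ} (ha : a < per σ) (hb : b < per σ)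
    (M : Matrix X Y ℂ) (hM : permMat σ * M = zeta σ ^ b • M) :
    proj σ a * M = if a = b then M else 0 := by
  have hpow : ∀ j : ℕ, permMat σ ^ j * M = (zeta σ ^ b) ^ j • M := by
    intro j
    induction j with
    | zero => simp
    | succ j ih =>
      rw [pow_succ', Matrix.mul_assoc, ih, Matrix.mul_smul, hM, smul_smul, ← pow_succ]
  rw [proj, Matrix.smul_mul, Matrix.sum_mul]
  simp only [Matrix.smul_mul, hpow, smul_smul, ← Finset.sum_smul]
  have e1 : ∀ j : ℕ, ((zeta σ ^ a) ^ j)⁻¹ * (zeta σ ^ b) ^ j = (zeta σ ^ b / zeta σ ^ a) ^ j :=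
    fun j ↦ by rw [div_pow]; ring
  simp only [e1]
  split_ifs with h
  · subst h
    simp [div_self (pow_ne_zero a (zeta_ne_zero σ)),
      inv_mul_cancel₀ (Nat.cast_ne_zero (R := ℂ).mpr (per_pos σ).ne')]
  · have h1 : zeta σ ^ b / zeta σ ^ a ≠ 1 := by
      rw [ne_eq, div_eq_one_iff_eq (pow_ne_zero a (zeta_ne_zero σ))]
      exact fun hh ↦ h ((isPrimitiveRoot_zeta σ).pow_inj hb ha hh).symm
    rw [geom_sum_eq h1, div_pow, ← pow_mul, ← pow_mul, mul_comm b, mul_comm a, pow_mul, pow_mul,
      zeta_pow_per]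
    simp

lemma proj_mul_proj {a b : ℕ} (ha : a < per σ) (hb : b < per σ) :
    proj σ a * proj σ b = if a = b then proj σ b else 0 :=
  proj_mul_of_eigen σ ha hb _ (permMat_mul_proj σ b)

lemma sum_proj : ∑ a ∈ Finset.range (per σ), proj σ a = 1 := by
  simp only [proj]
  rw [← Finset.smul_sum, Finset.sum_comm]
  have e1 : ∀ j ∈ Finset.range (per σ), ∑ a ∈ Finset.range (per σ),
      ((zeta σ ^ a) ^ j)⁻¹ • permMat σ ^ j =
      if j = 0 then (per σ : ℂ) • (1 : Matrix X X ℂ) else 0 := by
    intro j hj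
    rw [← Finset.sum_smul]
    split_ifs with h
    · subst h; simp
    · have hne : (zeta σ ^ j)⁻¹ ≠ 1 := by
        rw [ne_eq, inv_eq_one]
        exact (isPrimitiveRoot_zeta σ).pow_ne_one_of_pos_of_lt h (Finset.mem_range.mp hj)
      rw [Finset.sum_congr rfl fun a _ ↦ show ((zeta σ ^ a) ^ j)⁻¹ = ((zeta σ ^ j)⁻¹) ^ a by
        rw [inv_pow, ← pow_mul, ← pow_mul, mul_comm], geom_sum_eq hne, inv_pow, ← pow_mul,
        mul_comm, pow_mul, zeta_pow_per]
      simp
  rw [Finset.sum_congr rfl e1, Finset.sum_ite_eq' (Finset.range (per σ)) 0,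
    if_pos (Finset.mem_range.mpr (per_pos σ)), smul_smul,
    inv_mul_cancel₀ (Nat.cast_ne_zero.mpr (per_pos σ).ne'), one_smul]

/-- The negative of a residue modulo the order. -/
def negRes (a : ℕ) : ℕ := (per σ - a) % per σ

lemma negRes_lt (a : ℕ) : negRes σ a < per σ := Nat.mod_lt _ (per_pos σ)

lemma negRes_negRes {a : ℕ} (ha : a < per σ) : negRes σ (negRes σ a) = a := by
  unfold negRes
  rcases Nat.eq_zero_or_pos a with rfl | h
  · simp
  · rw [Nat.mod_eq_of_lt (a := per σ - a) (by omega), Nat.mod_eq_of_lt (by omega)]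
    omega

lemma zeta_pow_negRes {a : ℕ} (ha : a < per σ) : zeta σ ^ negRes σ a = (zeta σ ^ a)⁻¹ := by
  rw [← mul_eq_one_iff_eq_inv₀ (pow_ne_zero _ (zeta_ne_zero σ)), ← pow_add]
  unfold negRes
  rcases Nat.eq_zero_or_pos a with rfl | h
  · simp
  · rw [Nat.mod_eq_of_lt (by omega), Nat.sub_add_cancel ha.le, zeta_pow_per]

lemma proj_transpose {a : ℕ} (ha : a < per σ) : (proj σ a)ᵀ = proj σ (negRes σ a) := by
  have key : ∀ {b : ℕ}, b < per σ →
      permMat σ * (proj σ b)ᵀ = zeta σ ^ negRes σ b • (proj σ b)ᵀ := by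
    intro b hb
    have h1 : (permMat σ)ᵀ * (proj σ b)ᵀ = zeta σ ^ b • (proj σ b)ᵀ := by
      rw [← Matrix.transpose_mul, proj_mul_permMat, Matrix.transpose_smul]
    have h2 : permMat σ * (permMat σ)ᵀ = 1 :=
      mul_eq_one_comm.mp (permMat_transpose_mul σ)
    have h3 := congrArg (permMat σ * ·) h1
    simp only [← Matrix.mul_assoc, h2, Matrix.one_mul, Matrix.mul_smul] at h3
    rw [zeta_pow_negRes σ hb]
    exact (eq_inv_smul_iff₀ (pow_ne_zero b (zeta_ne_zero σ))).mpr h3.symm
  have h1 : proj σ (negRes σ a) * (proj σ a)ᵀ = (proj σ a)ᵀ := by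
    rw [proj_mul_of_eigen σ (negRes_lt σ a) (negRes_lt σ a) _ (key ha), if_pos rfl]
  have h2 : proj σ a * (proj σ (negRes σ a))ᵀ = (proj σ (negRes σ a))ᵀ := by
    rw [proj_mul_of_eigen σ ha (negRes_lt σ _) _ (key (negRes_lt σ a)),
      if_pos (negRes_negRes σ ha).symm]
  have h3 : proj σ (negRes σ a) * (proj σ a)ᵀ = proj σ (negRes σ a) := by
    have := congrArg Matrix.transpose h2
    rwa [Matrix.transpose_mul, Matrix.transpose_transpose] at this
  exact h1.symm.trans h3

/-- The untwisting matrix. -/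
def twist (z : ℂ) : Matrix X X ℂ :=
  ∑ a ∈ Finset.range (per σ), eC (-((a : ℂ) * z / per σ)) • proj σ a

/-- The inverse of the untwisting matrix. -/
def untwist (z : ℂ) : Matrix X X ℂ :=
  ∑ a ∈ Finset.range (per σ), eC ((a : ℂ) * z / per σ) • proj σ a

lemma comb_mul_comb (u v : ℕ → ℂ) :
    (∑ a ∈ Finset.range (per σ), u a • proj σ a) * (∑ a ∈ Finset.range (per σ), v a • proj σ a) =
      ∑ a ∈ Finset.range (per σ), (u a * v a) • proj σ a := by
  rw [Finset.sum_mul]
  refine Finset.sum_congr rfl fun a ha ↦ ?_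
  rw [Finset.mul_sum, Finset.sum_eq_single a]
  · rw [Matrix.smul_mul, Matrix.mul_smul, smul_smul,
      proj_mul_proj σ (Finset.mem_range.mp ha) (Finset.mem_range.mp ha), if_pos rfl]
  · intro b hb hba
    rw [Matrix.smul_mul, Matrix.mul_smul,
      proj_mul_proj σ (Finset.mem_range.mp ha) (Finset.mem_range.mp hb), if_neg (Ne.symm hba),
      smul_zero, smul_zero]
  · exact fun h ↦ absurd ha h

lemma untwist_mul_twist (z : ℂ) : untwist σ z * twist σ z = 1 := by
  rw [untwist, twist, comb_mul_comb]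
  simp [← eC_add, eC_zero, sum_proj]

lemma twist_mul_untwist (z : ℂ) : twist σ z * untwist σ z = 1 :=
  mul_eq_one_comm.mp (untwist_mul_twist σ z)

lemma twist_add_one (z : ℂ) : twist σ (z + 1) * permMat σ = twist σ z := by
  simp only [twist, Finset.sum_mul, Matrix.smul_mul, proj_mul_permMat, smul_smul]
  refine Finset.sum_congr rfl fun a _ ↦ ?_
  congr 1
  rw [zeta, ← eC_nat_mul, ← eC_add]
  congr 1
  ring

omit [DecidableEq X] in
/-- Determinant of a combination of an idempotent and its complement. -/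
lemma det_proj_add_smul (f : (X → ℂ) →ₗ[ℂ] (X → ℂ)) (hf : IsIdempotentElem f) (t : ℂ) :
    LinearMap.det (f + t • (LinearMap.id - f)) =
      t ^ (Fintype.card X - Module.finrank ℂ (LinearMap.range f)) := by
  have hp : LinearMap.IsProj (LinearMap.range f) f :=
    (LinearMap.isProj_range_iff_isIdempotentElem f).mpr hf
  let e := Submodule.prodEquivOfIsCompl _ _ hp.isCompl
  let g : (LinearMap.range f × LinearMap.ker f) →ₗ[ℂ] (LinearMap.range f × LinearMap.ker f) :=
    LinearMap.prodMap LinearMap.id (t • LinearMap.id)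
  have hconj : f + t • (LinearMap.id - f) = e.conj g := by
    refine LinearMap.ext fun v ↦ ?_
    obtain ⟨⟨a, b⟩, rfl⟩ := e.surjective v
    rw [LinearEquiv.conj_apply_apply, LinearEquiv.symm_apply_apply]
    have ha : f (a : X → ℂ) = a := hp.map_id _ a.2
    have hb : f (b : X → ℂ) = 0 := b.2
    simp [e, g, ha, hb]
  rw [hconj, LinearEquiv.conj_apply, LinearMap.comp_assoc, LinearMap.det_conj]
  simp only [g, LinearMap.det_prodMap, LinearMap.det_id, one_mul, LinearMap.det_smul, mul_one]
  congr 1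
  have h := LinearMap.finrank_range_add_finrank_ker f
  rw [Module.finrank_fintype_fun_eq_card] at h
  omega

/-- The space of invariant functions has dimension the number of orbits. -/
lemma finrank_range_proj_zero :
    Module.finrank ℂ (LinearMap.range (proj σ 0).toLin') =
      Nat.card (MulAction.orbitRel.Quotient (Subgroup.zpowers σ) X) := by
  classical
  set Q := MulAction.orbitRel.Quotient (Subgroup.zpowers σ) X
  have hrange : LinearMap.range (proj σ 0).toLin' =
      LinearMap.range (LinearMap.funLeft ℂ ℂ (fun x : X ↦ (Quotient.mk'' x : Q))) := by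
    refine le_antisymm ?_ ?_
    · rintro _ ⟨w, rfl⟩
      set v := (proj σ 0).toLin' w with hv
      have hinv : ∀ x, v (σ x) = v x := fun x ↦ by
        have h := congrFun (congrArg (· *ᵥ w) (permMat_mul_proj σ 0)) x
        simp only [← Matrix.mulVec_mulVec, pow_zero, one_smul, permMat_mulVec] at h
        simpa [hv, Matrix.toLin'_apply] using h
      have hzp : ∀ (n : ℤ) x, v ((σ ^ n : Equiv.Perm X) x) = v x := by
        intro n
        induction n with
        | zero => simp
        | succ i ih => intro x; rw [zpow_add_one, Equiv.Perm.mul_apply, ih, hinv]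
        | pred i ih =>
          intro x
          rw [zpow_sub_one, Equiv.Perm.mul_apply, ih]
          conv_rhs => rw [← σ.apply_symm_apply x, hinv]
          rfl
      refine ⟨fun q ↦ Quotient.liftOn' q v fun x y hxy ↦ ?_, funext fun x ↦ rfl⟩
      obtain ⟨⟨g, n, rfl⟩, rfl⟩ := MulAction.orbitRel_apply.mp hxy
      exact hzp n y
    · rintro _ ⟨u, rfl⟩
      set v := LinearMap.funLeft ℂ ℂ (fun x : X ↦ (Quotient.mk'' x : Q)) u with hv
      refine ⟨v, ?_⟩
      let M : Matrix X (Fin 1) ℂ := Matrix.of fun x _ ↦ v x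
      have hM : permMat σ * M = zeta σ ^ 0 • M := by
        ext x y
        rw [permMat_mul_apply, pow_zero, one_smul]
        show u (Quotient.mk'' (σ x)) = u (Quotient.mk'' x)
        congr 1
        exact Quotient.sound' ⟨⟨σ, Subgroup.mem_zpowers σ⟩, rfl⟩
      have h := proj_mul_of_eigen σ (per_pos σ) (per_pos σ) M hM
      rw [if_pos rfl] at h
      funext x
      exact congrFun (congrFun h x) 0
  rw [hrange, LinearMap.finrank_range_of_inj]
  · have : Fintype Q := Fintype.ofFinite _
    rw [Module.finrank_fintype_fun_eq_card, Nat.card_eq_fintype_card]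
  · exact LinearMap.funLeft_injective_of_surjective ℂ ℂ _ Quotient.mk''_surjective

/-- The square of the determinant of the untwisting matrix. -/
theorem det_twist_sq (z : ℂ) :
    (twist σ z).det ^ 2 = eC (-z) ^
      (Fintype.card X - Nat.card (MulAction.orbitRel.Quotient (Subgroup.zpowers σ) X)) := by
  have hT : (twist σ z)ᵀ =
      ∑ b ∈ Finset.range (per σ), eC (-((negRes σ b : ℂ) * z / per σ)) • proj σ b := by
    rw [twist, Matrix.transpose_sum]
    simp only [Matrix.transpose_smul]
    rw [Finset.sum_congr rfl fun a ha ↦ by rw [proj_transpose σ (Finset.mem_range.mp ha)]]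
    refine Finset.sum_nbij' (negRes σ) (negRes σ) (fun a _ ↦ Finset.mem_range.mpr (negRes_lt σ a))
      (fun a _ ↦ Finset.mem_range.mpr (negRes_lt σ a))
      (fun a ha ↦ negRes_negRes σ (Finset.mem_range.mp ha))
      (fun a ha ↦ negRes_negRes σ (Finset.mem_range.mp ha)) fun a ha ↦ ?_
    rw [negRes_negRes σ (Finset.mem_range.mp ha)]
  have hprod : (twist σ z)ᵀ * twist σ z = proj σ 0 + eC (-z) • (1 - proj σ 0) := by
    rw [hT, twist, comb_mul_comb]
    have e : ∀ b ∈ Finset.range (per σ),
        eC (-((negRes σ b : ℂ) * z / per σ)) * eC (-((b : ℂ) * z / per σ)) =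
          if b = 0 then 1 else eC (-z) := by
      intro b hb
      have hb' := Finset.mem_range.mp hb
      rw [← eC_add]
      split_ifs with h
      · subst h; simp [negRes, eC_zero]
      · congr 1
        have : (negRes σ b : ℂ) + b = (per σ : ℂ) := by
          rw [← Nat.cast_add, negRes, Nat.mod_eq_of_lt (by omega), Nat.sub_add_cancel hb'.le]
        have hL : (per σ : ℂ) ≠ 0 := Nat.cast_ne_zero.mpr (per_pos σ).ne'
        field_simp
        linear_combination (-z) * this
    rw [Finset.sum_congr rfl fun b hb ↦ by rw [e b hb],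
      ← Finset.add_sum_erase _ _ (Finset.mem_range.mpr (per_pos σ)), if_pos rfl, one_smul]
    congr 1
    rw [Finset.sum_congr rfl fun b hb ↦ by rw [if_neg (Finset.ne_of_mem_erase hb)],
      ← Finset.smul_sum, ← sum_proj σ]
    congr 1
    rw [eq_sub_iff_add_eq, add_comm,
      Finset.add_sum_erase _ _ (Finset.mem_range.mpr (per_pos σ))]
  have hid : IsIdempotentElem (proj σ 0).toLin' := by
    show (proj σ 0).toLin' * (proj σ 0).toLin' = _
    rw [Module.End.mul_eq_comp, ← Matrix.toLin'_mul, proj_mul_proj σ (per_pos σ) (per_pos σ),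
      if_pos rfl]
  have h := congrArg Matrix.det hprod
  rw [Matrix.det_mul, Matrix.det_transpose, ← pow_two] at h
  rw [h, ← LinearMap.det_toLin', map_add, map_smul, map_sub, Matrix.toLin'_one,
    det_proj_add_smul _ hid, finrank_range_proj_zero]

end FLTA.Dim
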