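import Fermat.Agent.Dim.Evaluation
import Fermat.Agent.Dim.Averaging

/-!
# The behaviour of the graded basis at infinity

The value matrix, untwisted along `T`, has an invertible limit at infinity. Comparing the square
of its determinant with a power of `Δ` gives the sum of the weights of the generators.
-/

set_option autoImplicit false

noncomputable section

open UpperHalfPlane ModularForm Filter Topology Asymptotics
open scoped MatrixGroups ModularForm Manifold Real

namespace FLTA.Dim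

local notation "Δf" => ModularForm.discriminant

section analysis

lemma norm_eC (t : ℂ) : ‖eC t‖ = Real.exp (-2 * π * t.im) := by
  rw [eC, Complex.norm_exp]
  congr 1
  simp [Complex.mul_re, Complex.mul_im]

lemma tendsto_eC_mul {r : ℝ} (hr : 0 < r) :
    Tendsto (fun z : ℍ ↦ eC ((r : ℂ) * z)) atImInfty (𝓝 0) := by
  rw [tendsto_zero_iff_norm_tendsto_zero]
  simp only [norm_eC, Complex.im_ofReal_mul]
  refine Real.tendsto_exp_atBot.comp ?_
  refine Tendsto.const_mul_atTop_of_neg (by linarith [Real.pi_pos]) ?_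
  exact Tendsto.const_mul_atTop hr tendsto_comap

lemma isBigO_eC_mul {r : ℝ} (hr : 0 ≤ r) :
    (fun z : ℍ ↦ eC ((r : ℂ) * z)) =O[atImInfty] (1 : ℍ → ℝ) := by
  refine IsBigO.of_bound 1 (Eventually.of_forall fun z ↦ ?_)
  simp only [norm_eC, Complex.im_ofReal_mul, Pi.one_apply, norm_one, mul_one]
  rw [Real.exp_le_one_iff]
  exact mul_nonpos_of_nonpos_of_nonneg (by linarith [Real.pi_pos])
    (mul_nonneg hr z.im_pos.le)

variable {f : ℍ → ℂ}

/-- A periodic holomorphic function tending to zero is `O(exp (-2π im))`. -/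
lemma isBigO_exp_of_periodic_zero (hper : ∀ z : ℍ, f ((1 : ℝ) +ᵥ z) = f z) (hf : MDiff f)
    (h0 : IsZeroAtImInfty f) :
    f =O[atImInfty] fun τ : ℍ ↦ Real.exp (-2 * π * τ.im) := by
  have h := h0.exp_decay_atImInfty one_pos (periodic_comp_ofComplex hper) hf
    h0.isBoundedAtImInfty
  simpa using h

/-- Removable singularity at infinity: if `q f → 0` then `f` is bounded. -/
lemma bounded_of_periodic_of_tendsto (hper : ∀ z : ℍ, f ((1 : ℝ) +ᵥ z) = f z) (hf : MDiff f)
    (h0 : IsZeroAtImInfty fun z : ℍ ↦ eC (z : ℂ) * f z) : IsBoundedAtImInfty f := by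
  have hg : MDiff (fun z : ℍ ↦ eC (z : ℂ) * f z) := by
    rw [UpperHalfPlane.mdifferentiable_iff] at hf ⊢
    refine DifferentiableOn.congr ((Differentiable.differentiableOn (f := eC) ?_).mul hf)
      fun w hw ↦ ?_
    · unfold eC; fun_prop
    · simp [ofComplex_apply_of_im_pos hw]
  have hgper : ∀ z : ℍ, eC ((((1 : ℝ) +ᵥ z : ℍ) : ℂ)) * f ((1 : ℝ) +ᵥ z) = eC (z : ℂ) * f z := by
    intro z
    rw [hper, UpperHalfPlane.coe_vadd, eC_add, show ((1 : ℝ) : ℂ) = ((1 : ℤ) : ℂ) by norm_num,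
      eC_int, one_mul]
  have h1 := isBigO_exp_of_periodic_zero (f := fun z : ℍ ↦ eC (z : ℂ) * f z) hgper hg h0
  have h2 : (fun z : ℍ ↦ eC (-(z : ℂ))) =O[atImInfty] fun τ : ℍ ↦ Real.exp (2 * π * τ.im) :=
    IsBigO.of_bound 1 (Eventually.of_forall fun z ↦ by simp [norm_eC, Real.abs_exp])
  refine (h1.mul h2).congr (fun z ↦ ?_) fun z ↦ ?_
  · rw [mul_comm (eC _) (f z), mul_assoc, ← eC_add, add_neg_cancel, eC_zero, mul_one]
  · rw [← Real.exp_add, Pi.one_apply, Real.exp_eq_one_iff]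
    ring

lemma mdiff_finset_sum {ι : Type*} {s : Finset ι} {F : ι → ℍ → ℂ} (h : ∀ i ∈ s, MDiff (F i)) :
    MDiff (fun z ↦ ∑ i ∈ s, F i z) := by
  simp only [UpperHalfPlane.mdifferentiable_iff] at h ⊢
  refine (DifferentiableOn.fun_sum (u := s) (A := fun i ↦ F i ∘ ofComplex) h).congr ?_
  exact fun w _ ↦ rfl

lemma mdiff_det {n : Type*} [Fintype n] [DecidableEq n] {M : ℍ → Matrix n n ℂ}
    (h : ∀ i j, MDiff (fun z ↦ M z i j)) : MDiff (fun z ↦ (M z).det) := by
  simp only [Matrix.det_apply']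
  refine mdiff_finset_sum fun τ _ ↦ ?_
  simp only [UpperHalfPlane.mdifferentiable_iff] at h ⊢
  exact (DifferentiableOn.const_mul
    (DifferentiableOn.fun_finset_prod fun i _ ↦ h (τ i) i) _).congr fun w _ ↦ rfl

lemma invariant_apply_smul {k : ℤ} {f : ℍ → ℂ} (γ : SL(2, ℤ)) (hf : f ∣[k] γ = f) (z : ℍ) :
    f (γ • z) = denom γ z ^ k * f z := by
  have h := congrFun hf z
  rw [SL_slash_apply] at h
  rw [← h, mul_left_comm, ← zpow_add₀ (denom_ne_zero _ _)]
  simp

lemma tendsto_eC_div_discriminant :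
    Tendsto (fun z : ℍ ↦ eC (z : ℂ) / Δf z) atImInfty (𝓝 1) := by
  have h := tendsto_atImInfty_tprod_one_sub_eta_q_pow.inv₀ one_ne_zero
  rw [inv_one] at h
  refine h.congr fun z ↦ ?_
  rw [discriminant_eq_q_prod]
  have e : Function.Periodic.qParam 1 (z : ℂ) = eC (z : ℂ) := by
    simp [Function.Periodic.qParam, eC]
  rw [e, ← div_div, div_self (eC_ne_zero _), one_div]

end analysis

variable {Γ : Subgroup SL(2, ℤ)}

/-- The number of cusps, as orbits of `T` on the cosets. -/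
def cuspOrbitCount (Γ : Subgroup SL(2, ℤ)) : ℕ :=
  Nat.card (MulAction.orbitRel.Quotient (Subgroup.zpowers (ModularGroup.T : SL(2, ℤ))) (Cosets Γ))

/-- The permutation of the cosets by the inverse of `T`. -/
def cuspPerm (Γ : Subgroup SL(2, ℤ)) : Equiv.Perm (Cosets Γ) :=
  MulAction.toPermHom SL(2, ℤ) (Cosets Γ) (ModularGroup.T : SL(2, ℤ))⁻¹

lemma cuspPerm_apply (x : Cosets Γ) :
    cuspPerm Γ x = (ModularGroup.T : SL(2, ℤ))⁻¹ • x := rfl

lemma card_orbits_cuspPerm :
    Nat.card (MulAction.orbitRel.Quotient (Subgroup.zpowers (cuspPerm Γ)) (Cosets Γ)) =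
      cuspOrbitCount Γ := by
  refine Nat.card_congr (Quotient.congrRight fun x y ↦ ?_)
  show (MulAction.orbitRel _ _) x y ↔ (MulAction.orbitRel _ _) x y
  simp only [MulAction.orbitRel_apply, MulAction.mem_orbit_iff, Subtype.exists,
    Subgroup.mk_smul, Subgroup.mem_zpowers_iff]
  have key : ∀ (n : ℤ) (y : Cosets Γ),
      (cuspPerm Γ ^ n) • y = (ModularGroup.T : SL(2, ℤ)) ^ (-n) • y := by
    intro n y
    rw [cuspPerm, ← map_zpow, inv_zpow, ← zpow_neg]
    rfl
  constructor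
  · rintro ⟨_, ⟨n, rfl⟩, h⟩
    exact ⟨_, ⟨-n, rfl⟩, (key n y).symm.trans h⟩
  · rintro ⟨_, ⟨n, rfl⟩, h⟩
    exact ⟨_, ⟨-n, rfl⟩, (key (-n) y).trans (by rw [neg_neg]; exact h)⟩

variable [Γ.FiniteIndex]

/-- A bijection between generators and cosets. -/
def genEquiv (hneg : (-1 : SL(2, ℤ)) ∈ Γ) (hsep : Separating Γ) : GenIdx Γ ≃ Cosets Γ :=
  have := finite_genIdx (Γ := Γ) hneg
  Classical.choice (Finite.card_eq.mp (card_genIdx hneg hsep))

variable [Fintype (Cosets Γ)] [DecidableEq (Cosets Γ)]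

/-- The square value matrix. -/
def valMat (e : GenIdx Γ ≃ Cosets Γ) (z : ℍ) : Matrix (Cosets Γ) (Cosets Γ) ℂ :=
  Matrix.of fun x y ↦ (e.symm y).vec z x

/-- The untwisted value matrix. -/
def untwistedMat (e : GenIdx Γ ≃ Cosets Γ) (z : ℍ) : Matrix (Cosets Γ) (Cosets Γ) ℂ :=
  twist (cuspPerm Γ) (z : ℂ) * valMat e z

variable (e : GenIdx Γ ≃ Cosets Γ)

lemma valMat_vadd (z : ℍ) :
    valMat e ((1 : ℝ) +ᵥ z) = permMat (cuspPerm Γ) * valMat e z := by
  ext x y
  rw [permMat_mul_apply, cuspPerm_apply]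
  simp only [valMat, Matrix.of_apply]
  rw [← UpperHalfPlane.modular_T_smul, GenIdx.vec_smul]
  simp [denom, ModularGroup.T]

lemma untwistedMat_vadd (z : ℍ) : untwistedMat e ((1 : ℝ) +ᵥ z) = untwistedMat e z := by
  rw [untwistedMat, untwistedMat, valMat_vadd, UpperHalfPlane.coe_vadd,
    show ((1 : ℝ) : ℂ) + (z : ℂ) = (z : ℂ) + 1 by simp [add_comm], ← Matrix.mul_assoc,
    twist_add_one]

lemma valMat_mdiff (x y : Cosets Γ) : MDiff (fun z ↦ valMat e z x y) :=
  cmp_mdiff (e.symm y).form_mem.1 x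

lemma valMat_bounded (x y : Cosets Γ) : IsBoundedAtImInfty (fun z ↦ valMat e z x y) :=
  cmp_bounded (e.symm y).form_mem x

lemma twist_mdiff (x y : Cosets Γ) :
    MDiff (fun z : ℍ ↦ twist (cuspPerm Γ) (z : ℂ) x y) := by
  rw [UpperHalfPlane.mdifferentiable_iff]
  refine DifferentiableOn.congr (f := fun w ↦ twist (cuspPerm Γ) w x y) ?_
    fun w hw ↦ by simp [ofComplex_apply_of_im_pos hw]
  refine Differentiable.differentiableOn ?_
  simp only [twist, Matrix.sum_apply, Matrix.smul_apply, smul_eq_mul, eC]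
  fun_prop

lemma eC_mul_twist_tendsto (x y : Cosets Γ) :
    Tendsto (fun z : ℍ ↦ eC (z : ℂ) * twist (cuspPerm Γ) (z : ℂ) x y) atImInfty (𝓝 0) := by
  simp only [twist, Matrix.sum_apply, Matrix.smul_apply, smul_eq_mul, Finset.mul_sum]
  rw [show (0 : ℂ) = ∑ _a ∈ Finset.range (per (cuspPerm Γ)), 0 by simp]
  refine tendsto_finsetSum _ fun a ha ↦ ?_
  simp only [← mul_assoc, ← eC_add]
  rw [show (0 : ℂ) = 0 * proj (cuspPerm Γ) a x y by simp]
  refine Tendsto.mul_const _ ?_
  have hr : (0 : ℝ) < 1 - (a : ℝ) / (per (cuspPerm Γ) : ℝ) := by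
    rw [sub_pos, div_lt_one (Nat.cast_pos.mpr (per_pos _))]
    exact_mod_cast Finset.mem_range.mp ha
  refine (tendsto_eC_mul hr).congr fun z ↦ ?_
  congr 1
  push_cast
  ring

lemma untwist_bounded (x y : Cosets Γ) :
    IsBoundedAtImInfty (fun z : ℍ ↦ untwist (cuspPerm Γ) (z : ℂ) x y) := by
  simp only [untwist, Matrix.sum_apply, Matrix.smul_apply, smul_eq_mul]
  refine IsBigO.fun_sum fun a _ ↦ ?_
  have h := (isBigO_eC_mul (r := (a : ℝ) / (per (cuspPerm Γ) : ℝ)) (by positivity)).mul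
    (isBigO_const_one ℝ (proj (cuspPerm Γ) a x y) atImInfty)
  simp only [Pi.one_apply, mul_one] at h
  refine h.congr_left fun z ↦ ?_
  congr 2
  push_cast
  ring

lemma untwistedMat_mdiff (x y : Cosets Γ) : MDiff (fun z ↦ untwistedMat e z x y) := by
  simp only [untwistedMat, Matrix.mul_apply]
  exact mdiff_finset_sum fun u _ ↦ (twist_mdiff x u).mul (valMat_mdiff e u y)

lemma untwistedMat_bounded (x y : Cosets Γ) :
    IsBoundedAtImInfty (fun z ↦ untwistedMat e z x y) := by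
  refine bounded_of_periodic_of_tendsto (fun z ↦ by simp only [untwistedMat_vadd])
    (untwistedMat_mdiff e x y) ?_
  simp only [IsZeroAtImInfty, ZeroAtFilter, untwistedMat, Matrix.mul_apply, Finset.mul_sum,
    ← mul_assoc]
  rw [show (0 : ℂ) = ∑ _u : Cosets Γ, 0 by simp]
  refine tendsto_finsetSum _ fun u _ ↦ ?_
  exact (isLittleO_one_iff ℝ).mp
    (((isLittleO_one_iff ℝ).mpr (eC_mul_twist_tendsto x u)).mul_isBigO
      (valMat_bounded e u y) |>.congr_right (by simp))

/-- The limit of the untwisted value matrix. -/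
def limitMat : Matrix (Cosets Γ) (Cosets Γ) ℂ :=
  Matrix.of fun x y ↦ valueAtInfty fun z ↦ untwistedMat e z x y

lemma tendsto_untwistedMat : Tendsto (untwistedMat e) atImInfty (𝓝 (limitMat e)) := by
  refine tendsto_pi_nhds.mpr fun x ↦ tendsto_pi_nhds.mpr fun y ↦ ?_
  exact tendsto_valueAtInfty one_pos (fun z ↦ by simp only [untwistedMat_vadd])
    (untwistedMat_mdiff e x y) (untwistedMat_bounded e x y)

lemma tendsto_det_untwistedMat :
    Tendsto (fun z ↦ (untwistedMat e z).det) atImInfty (𝓝 (limitMat e).det) :=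
  (Continuous.matrix_det continuous_id).continuousAt.tendsto.comp (tendsto_untwistedMat e)

/-- The limit matrix is invertible. -/
theorem det_limitMat_ne_zero (hneg : (-1 : SL(2, ℤ)) ∈ Γ) : (limitMat e).det ≠ 0 := by
  classical
  let _ : Fintype (GenIdx Γ) := Fintype.ofEquiv _ e.symm
  intro hdet
  obtain ⟨c, hc0, hc⟩ := Matrix.exists_mulVec_eq_zero_iff.mpr hdet
  set k := (∑ i : GenIdx Γ, i.wt) + 4
  have hkev : ∀ i : GenIdx Γ, Even (k - i.wt) ∧ 4 ≤ k - i.wt := by
    intro i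
    refine ⟨(Even.add ?_ (by decide : Even (4 : ℤ))).sub (GenIdx.wt_even hneg i), ?_⟩
    · exact Finset.even_sum (fun j : GenIdx Γ ↦ j.wt) fun j _ ↦ GenIdx.wt_even hneg j
    · have := Finset.single_le_sum (f := fun j : GenIdx Γ ↦ j.wt)
        (fun j _ ↦ GenIdx.wt_nonneg j) (Finset.mem_univ i)
      simp only [k]
      linarith
  choose a b hab using fun i ↦ exists_weight_eq (hkev i).1 (hkev i).2
  let Q : GenIdx Γ → ℍ → ℂ := fun i ↦ mono (a i) (b i)
  have hQ : ∀ i, Q i ∈ MF (⊤ : Subgroup SL(2, ℤ)) (k - i.wt) := fun i ↦ hab i ▸ mono_mem _ _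
  let A : GenIdx Γ → ℍ → ℂ := fun i ↦ c (e i) • Q i
  have hA : ∀ i, A i ∈ MF (⊤ : Subgroup SL(2, ℤ)) (k - i.wt) := fun i ↦
    Submodule.smul_mem _ _ (hQ i)
  set F := ∑ i : GenIdx Γ, A i * i.form with hF
  have hFm : F ∈ MF Γ k := sum_mem fun i _ ↦ top_mul_mem (by ring) (hA i) i.form_mem
  let d : ℍ → Cosets Γ → ℂ := fun z y ↦ c y * Q (e.symm y) z
  have hcmp : ∀ (z : ℍ) (x : Cosets Γ), cmp k F x z = (valMat e z).mulVec (d z) x := by
    intro z x
    rw [hF, cmp_combination _ A fun i _ ↦ hA i]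
    simp only [Matrix.mulVec, dotProduct, valMat, Matrix.of_apply, d]
    rw [← e.sum_comp (fun y ↦ (e.symm y).vec z x * (c y * Q (e.symm y) z))]
    refine Finset.sum_congr rfl fun i _ ↦ ?_
    simp [A, mul_comm]
  let u : Cosets Γ → ℍ → ℂ := fun x z ↦ (untwistedMat e z).mulVec (d z) x
  have hu_per : ∀ x z, u x ((1 : ℝ) +ᵥ z) = u x z := by
    intro x z
    have : d ((1 : ℝ) +ᵥ z) = d z := funext fun y ↦ by
      simp only [d]; rw [periodic_of_mem_MF (hQ _) trivial]
    simp only [u, untwistedMat_vadd, this]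
  have hu_mdiff : ∀ x, MDiff (u x) := by
    intro x
    simp only [u, Matrix.mulVec, dotProduct]
    exact mdiff_finset_sum fun y _ ↦ (untwistedMat_mdiff e x y).mul
      ((hQ (e.symm y)).1.const_smul (c y))
  have hu_zero : ∀ x, IsZeroAtImInfty (u x) := by
    intro x
    have h : Tendsto (u x) atImInfty (𝓝 ((limitMat e).mulVec c x)) := by
      simp only [u, Matrix.mulVec, dotProduct]
      refine tendsto_finsetSum _ fun y _ ↦ ?_
      have h1 := (tendsto_pi_nhds.mp (tendsto_pi_nhds.mp (tendsto_untwistedMat e) x)) y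
      simpa [d, Q] using h1.mul ((tendsto_mono (a (e.symm y)) (b (e.symm y))).const_mul (c y))
    rwa [hc] at h
  have hdecay : ∀ x : Cosets Γ, (fun z ↦ cmp k F x z) =O[atImInfty] Δf := by
    intro x
    have h1 : ∀ z, cmp k F x z =
        ∑ y, untwist (cuspPerm Γ) (z : ℂ) x y * u y z := by
      intro z
      rw [hcmp]
      show _ = (untwist (cuspPerm Γ) (z : ℂ)).mulVec ((untwistedMat e z).mulVec (d z)) x
      rw [Matrix.mulVec_mulVec, untwistedMat, ← Matrix.mul_assoc, untwist_mul_twist,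
        Matrix.one_mul]
    have h2 : (fun z ↦ cmp k F x z) =O[atImInfty] fun τ : ℍ ↦ Real.exp (-2 * π * τ.im) := by
      simp only [h1]
      refine IsBigO.fun_sum fun y _ ↦ ?_
      have := Asymptotics.IsBigO.mul (untwist_bounded (Γ := Γ) x y)
        (isBigO_exp_of_periodic_zero (hu_per y) (hu_mdiff y) (hu_zero y))
      simpa using this
    exact h2.trans exp_isBigO_discriminant
  have hG : (F / Δf) ∈ MF Γ (k - 12) := by
    refine ⟨hFm.1.div discriminant_mem.1 discriminant_ne_zero, fun γ hγ ↦ ?_, fun γ ↦ ?_⟩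
    · rw [div_slash_SL2, hFm.2.1 γ hγ, discriminant_mem.2.1 γ trivial]
    · rw [div_slash_SL2, discriminant_mem.2.1 γ trivial]
      have h := hdecay ((γ⁻¹ : SL(2, ℤ)) : Cosets Γ)
      rw [cmp_mk hFm.2.1, inv_inv] at h
      exact (div_isBoundedUnder_of_isBigO h).isBigO_one ℝ
  obtain ⟨s', H, hH, hH0, hHsum⟩ := exists_sum_of_mem_genSpan (MF_le_genSpan _ hG)
  have hzero : ∀ i ∈ (Finset.univ : Finset (GenIdx Γ)), A i - Δf * H i = 0 := by
    refine gen_indep (k := k) _ _ (fun i _ ↦ ?_) ?_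
    · refine sub_mem (hA i) ?_
      convert mul_mem_MF (SF_le_MF discriminant_mem) (hH i) using 2
      ring
    · simp only [sub_mul, Finset.sum_sub_distrib, mul_assoc, ← Finset.mul_sum]
      have e1 : ∑ i : GenIdx Γ, H i * i.form = ∑ i ∈ s', H i * i.form :=
        (Finset.sum_subset (Finset.subset_univ s') fun i _ hi ↦ by simp [hH0 i hi]).symm
      rw [e1, hHsum, ← hF, sub_eq_zero]
      ext z
      simp [mul_div_cancel₀ _ (discriminant_ne_zero z)]
  refine hc0 (funext fun y ↦ ?_)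
  have heq : A (e.symm y) = Δf * H (e.symm y) := sub_eq_zero.mp (hzero _ (Finset.mem_univ _))
  have h1 : Tendsto (A (e.symm y)) atImInfty (𝓝 (c y)) := by
    simpa [A, Q, Pi.smul_def] using!
      (tendsto_mono (a (e.symm y)) (b (e.symm y))).const_mul (c (e (e.symm y)))
  have h2 : Tendsto (A (e.symm y)) atImInfty (𝓝 0) := by
    rw [heq]
    simpa [Pi.mul_def] using tendsto_discriminant.mul (MF_top_tendsto (hH (e.symm y)))
  exact tendsto_nhds_unique h1 h2

lemma valMat_det_ne_zero (hneg : (-1 : SL(2, ℤ)) ∈ Γ) (z : ℍ) : (valMat e z).det ≠ 0 := by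
  have h := (vec_indep (Γ := Γ) hneg z).comp e.symm e.symm.injective
  have h' : LinearIndependent ℂ (valMat e z).col := h
  exact ((Matrix.isUnit_iff_isUnit_det _).mp
    (Matrix.linearIndependent_cols_iff_isUnit.mp h')).ne_zero

lemma valMat_det_smul_sq (γ : SL(2, ℤ)) (z : ℍ) [Fintype (GenIdx Γ)] :
    (valMat e (γ • z)).det ^ 2 =
      denom γ z ^ (2 * ∑ i : GenIdx Γ, i.wt) * (valMat e z).det ^ 2 := by
  have h : valMat e (γ • z) = (valMat e z).submatrix (MulAction.toPerm γ⁻¹) id *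
      Matrix.diagonal (fun y ↦ denom γ z ^ (e.symm y).wt) := by
    ext x y
    rw [Matrix.mul_diagonal]
    simp only [valMat, Matrix.of_apply, Matrix.submatrix_apply, id_eq, MulAction.toPerm_apply]
    rw [GenIdx.vec_smul, mul_comm]
  rw [h, Matrix.det_mul, Matrix.det_permute, Matrix.det_diagonal,
    e.symm.prod_comp (fun i : GenIdx Γ ↦ denom γ z ^ i.wt)]
  have hs : ((Equiv.Perm.sign (MulAction.toPerm γ⁻¹ : Equiv.Perm (Cosets Γ)) : ℤ) : ℂ) ^ 2 = 1 := by
    rw [← Int.cast_pow, ← Units.val_pow_eq_pow_val, Int.units_sq]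
    simp
  have hp : ∀ s : Finset (GenIdx Γ),
      (∏ i ∈ s, denom γ z ^ i.wt) = denom γ z ^ (∑ i ∈ s, i.wt) := by
    intro s
    classical
    induction s using Finset.induction_on with
    | empty => simp
    | insert i s hi ih =>
      rw [Finset.prod_insert hi, Finset.sum_insert hi, zpow_add₀ (denom_ne_zero _ _), ih]
  rw [hp, mul_pow, mul_pow, hs, one_mul, mul_comm, ← zpow_natCast (denom γ z ^ _), ← zpow_mul]
  congr 2
  push_cast
  ring

omit [Fintype (Cosets Γ)] [DecidableEq (Cosets Γ)] in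
/-- The weights of the generators add up to six times index minus number of cusps. -/
theorem sum_wt_eq [Fintype (GenIdx Γ)] (hneg : (-1 : SL(2, ℤ)) ∈ Γ) (hsep : Separating Γ) :
    ∑ i : GenIdx Γ, i.wt = 6 * ((Nat.card (Cosets Γ) : ℤ) - cuspOrbitCount Γ) := by
  classical
  let _ : Fintype (Cosets Γ) := Fintype.ofFinite _
  set e := genEquiv hneg hsep
  set W := ∑ i : GenIdx Γ, i.wt
  set n : ℕ := Fintype.card (Cosets Γ) - cuspOrbitCount Γ with hn
  set w : ℤ := 2 * W - 12 * n with hw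
  let G : ℍ → ℂ := fun z ↦ (valMat e z).det ^ 2 / Δf z ^ n
  have hGlim : Tendsto G atImInfty (𝓝 ((limitMat e).det ^ 2)) := by
    have h := ((tendsto_det_untwistedMat e).pow 2).mul (tendsto_eC_div_discriminant.pow n)
    rw [one_pow, mul_one] at h
    refine h.congr fun z ↦ ?_
    simp only [G, untwistedMat, Matrix.det_mul, mul_pow, det_twist_sq, card_orbits_cuspPerm]
    rw [← hn, eC_neg, inv_pow, div_pow]
    field_simp [eC_ne_zero]
  have hG0 : ∀ z, G z ≠ 0 := fun z ↦
    div_ne_zero (pow_ne_zero _ (valMat_det_ne_zero e hneg z))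
      (pow_ne_zero _ (discriminant_ne_zero z))
  have hGd : MDiff G := by
    have h1 : MDiff (fun z ↦ (valMat e z).det) := mdiff_det fun x y ↦ valMat_mdiff e x y
    exact (h1.pow 2).div (discriminant_mem.1.pow n)
      fun z ↦ pow_ne_zero n (discriminant_ne_zero z)
  have hGinv : ∀ γ : SL(2, ℤ), G ∣[w] γ = G := by
    intro γ
    ext z
    have hd := denom_ne_zero (γ : GL (Fin 2) ℝ) z
    simp only [SL_slash_apply, G]
    rw [valMat_det_smul_sq,
      invariant_apply_smul γ (discriminant_mem.2.1 γ trivial), mul_pow,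
      ← zpow_natCast (denom γ z ^ (12 : ℤ)), ← zpow_mul, hw, neg_sub, zpow_sub₀ hd]
    have h1 : denom γ z ^ (2 * W) ≠ 0 := zpow_ne_zero _ hd
    have h2 : denom γ z ^ (12 * (n : ℤ)) ≠ 0 := zpow_ne_zero _ hd
    field_simp
    ring
  have hGm : G ∈ MF (⊤ : Subgroup SL(2, ℤ)) w :=
    ⟨hGd, fun γ _ ↦ hGinv γ, fun γ ↦ by rw [hGinv]; exact hGlim.isBigO_one ℝ⟩
  have hne : (limitMat e).det ^ 2 ≠ 0 := pow_ne_zero _ (det_limitMat_ne_zero e hneg)
  have hIm : (1 / G) ∈ MF (⊤ : Subgroup SL(2, ℤ)) (0 - w) := by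
    refine ⟨mdifferentiable_const.div hGd hG0, fun γ _ ↦ ?_, fun γ ↦ ?_⟩
    · rw [div_slash_SL2, hGinv, is_invariant_one]
    · rw [div_slash_SL2, hGinv, is_invariant_one]
      exact ((tendsto_const_nhds (x := (1 : ℂ))).div hGlim hne).isBigO_one ℝ
  have hw0 : w = 0 := by
    rcases lt_trichotomy w 0 with h | h | h
    · rw [MF_eq_bot_of_neg h] at hGm
      exact absurd (congrFun ((Submodule.mem_bot ℂ).mp hGm) UpperHalfPlane.I) (hG0 _)
    · exact h
    · rw [MF_eq_bot_of_neg (by omega)] at hIm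
      have := congrFun ((Submodule.mem_bot ℂ).mp hIm) UpperHalfPlane.I
      simp [hG0] at this
  have hc : cuspOrbitCount Γ ≤ Fintype.card (Cosets Γ) := by
    rw [← Nat.card_eq_fintype_card]
    exact Nat.card_le_card_of_surjective Quotient.mk'' Quotient.mk''_surjective
  rw [Nat.card_eq_fintype_card]
  omega

end FLTA.Dim
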