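import Fermat.Agent.Dim.Defs
import Mathlib.Analysis.Complex.RemovableSingularity

/-!
# Dividing a modular form by a level one form with simple zeros

If `P` is a level one form with simple zeros, not vanishing at infinity, and `f` vanishes at
every zero of `P`, then `f = P * g` for a modular form `g`.
-/

set_option autoImplicit false

noncomputable section

open UpperHalfPlane ModularForm Filter Topology
open scoped MatrixGroups ModularForm Manifold

namespace FLTA.Dim

variable {f g u v P : ℍ → ℂ}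

lemma analyticAt_comp_ofComplex (hf : MDiff f) (z : ℍ) :
    AnalyticAt ℂ (f ∘ ofComplex) (z : ℂ) :=
  (UpperHalfPlane.mdifferentiable_iff.mp hf).analyticAt
    (isOpen_upperHalfPlaneSet.mem_nhds z.im_pos)

lemma mul_left_cancel_of_mdiff (hP : MDiff P) (hP0 : P ≠ 0) (hu : MDiff u) (hv : MDiff v)
    (h : P * u = P * v) : u = v := by
  have h0 : P * (u - v) = 0 := by rw [mul_sub, h, sub_self]
  rcases (UpperHalfPlane.mul_eq_zero_iff hP (hu.sub hv)).mp h0 with h1 | h1
  · exact absurd h1 hP0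
  · exact sub_eq_zero.mp h1

lemma eq_of_forall_ne (hP : MDiff P) (hP0 : P ≠ 0) (hu : MDiff u) (hv : MDiff v)
    (h : ∀ z, P z ≠ 0 → u z = v z) : u = v := by
  refine mul_left_cancel_of_mdiff hP hP0 hu hv (funext fun z ↦ ?_)
  rcases eq_or_ne (P z) 0 with hz | hz
  · simp [hz]
  · simp [h z hz]

/-- The quotient `f / P`, extended over the simple zeros of `P`. -/
def quot (P f : ℍ → ℂ) (z : ℍ) : ℂ :=
  if P z = 0 then deriv (f ∘ ofComplex) (z : ℂ) / deriv (P ∘ ofComplex) (z : ℂ) else f z / P z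

lemma mul_quot (h0 : ∀ z, P z = 0 → f z = 0) : P * quot P f = f := by
  ext z
  rcases eq_or_ne (P z) 0 with hz | hz
  · simp [hz, h0 z hz]
  · simp [quot, hz, mul_div_cancel₀ (f z) hz]

lemma mdiff_quot (hP : MDiff P) (hsimple : ∀ z : ℍ, P z = 0 → deriv (P ∘ ofComplex) (z : ℂ) ≠ 0)
    (hf : MDiff f) (h0 : ∀ z, P z = 0 → f z = 0) : MDiff (quot P f) := by
  intro z
  rw [UpperHalfPlane.mdifferentiableAt_iff]
  have hH : ∀ᶠ w in 𝓝 (z : ℂ), w ∈ upperHalfPlaneSet :=
    isOpen_upperHalfPlaneSet.mem_nhds z.im_pos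
  set p := P ∘ ofComplex with hpdef
  set q := f ∘ ofComplex with hqdef
  have hp : DifferentiableOn ℂ p upperHalfPlaneSet := UpperHalfPlane.mdifferentiable_iff.mp hP
  have hq : DifferentiableOn ℂ q upperHalfPlaneSet := UpperHalfPlane.mdifferentiable_iff.mp hf
  rcases eq_or_ne (P z) 0 with hz | hz
  · have hpz : p (z : ℂ) = 0 := by simp [p, hz]
    have hqz : q (z : ℂ) = 0 := by simp [q, h0 z hz]
    have hdP : DifferentiableAt ℂ (dslope p (z : ℂ)) (z : ℂ) :=
      ((Complex.differentiableOn_dslope hH).mpr hp).differentiableAt hH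
    have hdQ : DifferentiableAt ℂ (dslope q (z : ℂ)) (z : ℂ) :=
      ((Complex.differentiableOn_dslope hH).mpr hq).differentiableAt hH
    have hne : dslope p (z : ℂ) (z : ℂ) ≠ 0 := by rw [dslope_same]; exact hsimple z hz
    refine (hdQ.div hdP hne).congr_of_eventuallyEq ?_
    filter_upwards [hdP.continuousAt.eventually_ne hne, hH] with w hw hwH
    rcases eq_or_ne w (z : ℂ) with rfl | hwz
    · simp [quot, hz, p, q]
    · have e1 := sub_smul_dslope p (z : ℂ) w
      have e2 := sub_smul_dslope q (z : ℂ) w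
      rw [hpz, sub_zero, smul_eq_mul] at e1
      rw [hqz, sub_zero, smul_eq_mul] at e2
      have hPw : p w ≠ 0 := by rw [← e1]; exact mul_ne_zero (sub_ne_zero.mpr hwz) hw
      have hPw' : P (ofComplex w) ≠ 0 := hPw
      calc quot P f (ofComplex w) = q w / p w := if_neg hPw'
        _ = dslope q (z : ℂ) w / dslope p (z : ℂ) w := by
          rw [← e1, ← e2, mul_div_mul_left _ _ (sub_ne_zero.mpr hwz)]
  · have hdP : DifferentiableAt ℂ p (z : ℂ) := hp.differentiableAt hH
    have hdQ : DifferentiableAt ℂ q (z : ℂ) := hq.differentiableAt hH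
    have hne : p (z : ℂ) ≠ 0 := by simpa [p] using hz
    refine (hdQ.div hdP hne).congr_of_eventuallyEq ?_
    filter_upwards [hdP.continuousAt.eventually_ne hne] with w hw
    exact if_neg hw

variable {Γ : Subgroup SL(2, ℤ)} {k m : ℤ}

lemma ne_zero_of_tendsto {c : ℂ} (hc : c ≠ 0) (h : Tendsto P atImInfty (𝓝 c))
    [atImInfty.NeBot] : P ≠ 0 := by
  rintro rfl
  exact hc (tendsto_nhds_unique h tendsto_const_nhds)

instance : (atImInfty : Filter ℍ).NeBot := by
  refine Filter.comap_neBot fun s hs ↦ ?_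
  obtain ⟨A, hA⟩ := Filter.mem_atTop_sets.mp hs
  refine ⟨⟨⟨0, max A 1⟩, ?_⟩, hA _ (le_max_left A 1)⟩
  exact lt_max_of_lt_right one_pos

/-- Division by a level one form with simple zeros. -/
theorem exists_eq_mul (hP : P ∈ MF (⊤ : Subgroup SL(2, ℤ)) m)
    (hsimple : ∀ z : ℍ, P z = 0 → deriv (P ∘ ofComplex) (z : ℂ) ≠ 0)
    {c : ℂ} (hc : c ≠ 0) (hlim : Tendsto P atImInfty (𝓝 c))
    (hf : f ∈ MF Γ k) (h0 : ∀ z, P z = 0 → f z = 0) :
    ∃ g ∈ MF Γ (k - m), f = P * g := by
  refine ⟨quot P f, ?_, (mul_quot h0).symm⟩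
  have hg := mdiff_quot hP.1 hsimple hf.1 h0
  have hP0 : P ≠ 0 := ne_zero_of_tendsto hc hlim
  have key : ∀ γ : SL(2, ℤ), P * (quot P f ∣[k - m] γ) = f ∣[k] γ := by
    intro γ
    conv_rhs => rw [← mul_quot h0]
    rw [← add_sub_cancel m k, mul_slash_SL2, hP.2.1 γ trivial, add_sub_cancel_left]
  refine ⟨hg, fun γ hγ ↦ ?_, fun γ ↦ ?_⟩
  · refine mul_left_cancel_of_mdiff hP.1 hP0 (hg.slash _ _) hg ?_
    rw [key, hf.2.1 γ hγ, mul_quot h0]
  · have h1 : (fun z ↦ (P z)⁻¹) =O[atImInfty] (1 : ℍ → ℝ) := (hlim.inv₀ hc).isBigO_one ℝ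
    have h2 := h1.mul (hf.2.2 γ)
    simp only [Pi.one_apply, mul_one] at h2
    refine h2.congr' ?_ EventuallyEq.rfl
    filter_upwards [hlim.eventually_ne hc] with z hz
    rw [← key γ]
    simp [← mul_assoc, inv_mul_cancel₀ hz]

end FLTA.Dim
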