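import Fermat.Agent.Dim.Periodic
import Fermat.Agent.Dim.LevelOne

/-!
# A graded basis of modular forms over the level one forms

The level one forms `E₄, E₆` form a regular sequence on `⊕ₖ MF Γ k`; lifts of a basis of the
quotient form a basis over the level one forms.
-/

set_option autoImplicit false

noncomputable section

open UpperHalfPlane ModularForm Filter Topology
open scoped MatrixGroups ModularForm Manifold

namespace FLTA.Dim

local notation "Δf" => ModularForm.discriminant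

lemma E4_ne_zero_or_E6_ne_zero (z : ℍ) : E₄ z ≠ 0 ∨ E₆ z ≠ 0 := by
  by_contra h
  push Not at h
  have := discriminant_eq_E₄_cube_sub_E₆_sq z
  rw [h.1, h.2] at this
  exact discriminant_ne_zero z (by simpa using this)

lemma discriminant_eq_fun : Δf = (1728 : ℂ)⁻¹ • (⇑E₄ ^ 3 - ⇑E₆ ^ 2) := by
  ext z
  simp [discriminant_eq_E₄_cube_sub_E₆_sq z, div_eq_inv_mul]

lemma MF_top_odd {n : ℤ} (hn : Odd n) {A : ℍ → ℂ} (hA : A ∈ MF (⊤ : Subgroup SL(2, ℤ)) n) :
    A = 0 :=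
  congrArg DFunLike.coe (ModularForm.levelOne_odd_weight_eq_zero hn (MF.toLevelOne hA))

lemma MF_top_two {A : ℍ → ℂ} (hA : A ∈ MF (⊤ : Subgroup SL(2, ℤ)) 2) : A = 0 :=
  congrArg DFunLike.coe
    (rank_zero_iff_forall_zero.mp ModularForm.levelOne_weight_two_rank_zero (MF.toLevelOne hA))

lemma MF_top_zero {A : ℍ → ℂ} (hA : A ∈ MF (⊤ : Subgroup SL(2, ℤ)) 0) :
    ∃ c : ℂ, A = c • 1 := by
  obtain ⟨c, hc⟩ := exists_eq_const_of_mem_MF_zero hA
  exact ⟨c, by ext z; simp [hc]⟩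

/-- The monomial `E₄ ^ a * E₆ ^ b`. -/
def mono (a b : ℕ) : ℍ → ℂ := ⇑E₄ ^ a * ⇑E₆ ^ b

lemma mono_mem (a b : ℕ) : mono a b ∈ MF (⊤ : Subgroup SL(2, ℤ)) (4 * a + 6 * b) := by
  have := mul_mem_MF (pow_mem_MF E4_mem a) (pow_mem_MF E6_mem b)
  convert this using 2
  · ring
  · rfl

lemma tendsto_mono (a b : ℕ) : Tendsto (mono a b) atImInfty (𝓝 1) := by
  simpa [mono, Pi.mul_def, Pi.pow_def] using (tendsto_E4.pow a).mul (tendsto_E6.pow b)

lemma exists_weight_eq {n : ℤ} (hn : Even n) (h4 : 4 ≤ n) :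
    ∃ a b : ℕ, (4 * a + 6 * b : ℤ) = n := by
  obtain ⟨m, rfl⟩ := hn
  rcases Int.even_or_odd m with ⟨r, hr⟩ | ⟨r, hr⟩
  · exact ⟨r.toNat, 0, by omega⟩
  · exact ⟨(r - 1).toNat, 1, by omega⟩

/-- Level one forms of nonzero weight lie in the ideal `(E₄, E₆)`. -/
lemma exists_decomp {n : ℤ} {A : ℍ → ℂ} (hA : A ∈ MF (⊤ : Subgroup SL(2, ℤ)) n) :
    ∃ c : ℂ, ∃ U ∈ MF (⊤ : Subgroup SL(2, ℤ)) (n - 4), ∃ V ∈ MF (⊤ : Subgroup SL(2, ℤ)) (n - 6),
      (n ≠ 0 → c = 0) ∧ A = c • 1 + ⇑E₄ * U + ⇑E₆ * V := by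
  rcases eq_or_ne n 0 with rfl | hn
  · obtain ⟨c, hc⟩ := MF_top_zero hA
    exact ⟨c, 0, zero_mem _, 0, zero_mem _, fun h ↦ absurd rfl h, by simp [hc]⟩
  have hzero : A = 0 → ∃ c : ℂ, ∃ U ∈ MF (⊤ : Subgroup SL(2, ℤ)) (n - 4),
      ∃ V ∈ MF (⊤ : Subgroup SL(2, ℤ)) (n - 6),
      (n ≠ 0 → c = 0) ∧ A = c • 1 + ⇑E₄ * U + ⇑E₆ * V := fun h ↦
    ⟨0, 0, zero_mem _, 0, zero_mem _, fun _ ↦ rfl, by simp [h]⟩
  rcases lt_or_ge n 0 with hneg | hpos
  · exact hzero (by simpa [MF_eq_bot_of_neg hneg] using hA)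
  rcases Int.even_or_odd n with he | ho
  swap
  · exact hzero (MF_top_odd ho hA)
  rcases lt_or_ge n 4 with h4 | h4
  · obtain ⟨m, rfl⟩ := he
    obtain rfl : m = 1 := by omega
    exact hzero (MF_top_two hA)
  obtain ⟨a, b, hab⟩ := exists_weight_eq he h4
  set d := valueAtInfty A
  have hB : A - d • mono a b ∈ MF (⊤ : Subgroup SL(2, ℤ)) n :=
    sub_mem hA (Submodule.smul_mem _ _ (hab ▸ mono_mem a b))
  have hB0 : IsZeroAtImInfty (A - d • mono a b) := by
    simpa [IsZeroAtImInfty, ZeroAtFilter, Pi.sub_def, Pi.smul_def, d] using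
      (MF_top_tendsto hA).sub ((tendsto_mono a b).const_mul d)
  let G := CuspForm.discriminantEquiv (SF.toLevelOne (isZeroAtImInfty_slash_top hB hB0))
  have hG : A - d • mono a b = Δf * ⇑G :=
    (ModularForm.discriminant_mul_discriminantEquiv
      (SF.toLevelOne (isZeroAtImInfty_slash_top hB hB0))).symm
  have hGm : (⇑G) ∈ MF (⊤ : Subgroup SL(2, ℤ)) (n - 12) := coe_mem_MF_top G
  obtain ⟨U₁, hU₁, V₁, hV₁, h₁⟩ : ∃ U ∈ MF (⊤ : Subgroup SL(2, ℤ)) (n - 4),
      ∃ V ∈ MF (⊤ : Subgroup SL(2, ℤ)) (n - 6), mono a b = ⇑E₄ * U + ⇑E₆ * V := by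
    rcases a with _ | a
    · rcases b with _ | b
      · omega
      refine ⟨0, zero_mem _, mono 0 b, ?_, by simp [mono, pow_succ']⟩
      convert mono_mem 0 b using 2
      push_cast at hab ⊢; omega
    · refine ⟨mono a b, ?_, 0, zero_mem _, ?_⟩
      · convert mono_mem a b using 2
        push_cast at hab ⊢; omega
      · simp [mono, pow_succ', mul_assoc]
  refine ⟨0, d • U₁ + (1728 : ℂ)⁻¹ • (⇑E₄ ^ 2 * ⇑G), ?_,
    d • V₁ - (1728 : ℂ)⁻¹ • (⇑E₆ * ⇑G), ?_, fun _ ↦ rfl, ?_⟩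
  · refine add_mem (Submodule.smul_mem _ _ hU₁) (Submodule.smul_mem _ _ ?_)
    convert mul_mem_MF (pow_mem_MF E4_mem 2) hGm using 2
    push_cast; ring
  · refine sub_mem (Submodule.smul_mem _ _ hV₁) (Submodule.smul_mem _ _ ?_)
    convert mul_mem_MF E6_mem hGm using 2
    ring
  · rw [sub_eq_iff_eq_add.mp hG, h₁, discriminant_eq_fun]
    ext z
    simp only [Pi.add_apply, Pi.smul_apply, Pi.mul_apply, Pi.sub_apply, Pi.pow_apply,
      Pi.one_apply, smul_eq_mul]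
    ring

variable {Γ : Subgroup SL(2, ℤ)}

lemma top_mul_mem {n k : ℤ} {A f : ℍ → ℂ} {r : ℤ} (h : n + k = r)
    (hA : A ∈ MF (⊤ : Subgroup SL(2, ℤ)) n) (hf : f ∈ MF Γ k) : A * f ∈ MF Γ r :=
  h ▸ mul_mem_MF (MF_mono le_top hA) hf

/-- `E₄, E₆` is a regular sequence on modular forms. -/
lemma regular_sequence {k : ℤ} {U V : ℍ → ℂ} (hU : U ∈ MF Γ k) (hV : V ∈ MF Γ (k - 2))
    (h : ⇑E₄ * U + ⇑E₆ * V = 0) :
    ∃ r ∈ MF Γ (k - 6), U = ⇑E₆ * r ∧ V = -(⇑E₄ * r) := by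
  have h0 : ∀ z, E₆ z = 0 → U z = 0 := by
    intro z hz
    have h1 := congrFun h z
    simp only [Pi.add_apply, Pi.mul_apply, Pi.zero_apply, hz, zero_mul, add_zero] at h1
    exact (mul_eq_zero.mp h1).resolve_left
      ((E4_ne_zero_or_E6_ne_zero z).resolve_right (not_not.mpr hz))
  obtain ⟨r, hr, rfl⟩ := exists_eq_mul E6_mem (fun z hz ↦ deriv_E6_ne_zero hz) one_ne_zero
    tendsto_E6 hU h0
  refine ⟨r, hr, rfl, ?_⟩
  refine mul_left_cancel_of_mdiff E6_mem.1 (ne_zero_of_tendsto one_ne_zero tendsto_E6) hV.1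
    (E4_mem.1.mul hr.1).neg ?_
  rw [mul_neg]
  refine eq_neg_of_add_eq_zero_right ?_
  rw [← h]
  ring

variable (Γ)

/-- The part of `MF Γ k` generated by lower weights. -/
def lower (k : ℤ) : Submodule ℂ (MF Γ k) :=
  ((MF Γ (k - 4)).map (LinearMap.mulLeft ℂ (⇑E₄ : ℍ → ℂ)) ⊔
    (MF Γ (k - 6)).map (LinearMap.mulLeft ℂ (⇑E₆ : ℍ → ℂ))).comap (MF Γ k).subtype

/-- The index set of the graded basis. -/
abbrev GenIdx : Type :=
  Σ k : ℤ, Module.Basis.ofVectorSpaceIndex ℂ (MF Γ k ⧸ lower Γ k)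

variable {Γ}

/-- The weight of a generator. -/
abbrev GenIdx.wt (i : GenIdx Γ) : ℤ := i.1

/-- A generator, as an element of its space of forms. -/
def GenIdx.lift (i : GenIdx Γ) : MF Γ i.1 :=
  Quotient.out (Module.Basis.ofVectorSpace ℂ (MF Γ i.1 ⧸ lower Γ i.1) i.2)

/-- A generator. -/
def GenIdx.form (i : GenIdx Γ) : ℍ → ℂ := i.lift

lemma GenIdx.form_mem (i : GenIdx Γ) : i.form ∈ MF Γ i.wt := i.lift.2

lemma GenIdx.mk_lift (i : GenIdx Γ) :
    (Submodule.Quotient.mk i.lift : MF Γ i.1 ⧸ lower Γ i.1) =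
      Module.Basis.ofVectorSpace ℂ (MF Γ i.1 ⧸ lower Γ i.1) i.2 :=
  Quotient.out_eq _

lemma GenIdx.wt_nonneg [Γ.FiniteIndex] (i : GenIdx Γ) : 0 ≤ i.wt := by
  by_contra h
  push Not at h
  have h0 : i.lift = 0 := Subtype.ext ((Submodule.eq_bot_iff _).mp (MF_eq_bot_of_neg h) _ i.lift.2)
  have h1 := i.mk_lift
  rw [h0] at h1
  exact (Module.Basis.ofVectorSpace ℂ (MF Γ i.1 ⧸ lower Γ i.1)).ne_zero i.2 h1.symm

variable (Γ)

/-- The span of the generators over the level one forms. -/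
def genSpan (k : ℤ) : Submodule ℂ (ℍ → ℂ) :=
  ⨆ i : GenIdx Γ, (MF (⊤ : Subgroup SL(2, ℤ)) (k - i.wt)).map (LinearMap.mulRight ℂ i.form)

variable {Γ}

lemma mul_mem_genSpan {n k : ℤ} {A F : ℍ → ℂ} (hA : A ∈ MF (⊤ : Subgroup SL(2, ℤ)) n)
    (hF : F ∈ genSpan Γ k) : A * F ∈ genSpan Γ (n + k) := by
  induction hF using Submodule.iSup_induction' with
  | mem i x hx =>
    obtain ⟨B, hB, rfl⟩ := hx
    refine Submodule.mem_iSup_of_mem i ⟨A * B, ?_, mul_assoc A B i.form⟩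
    rw [SetLike.mem_coe, add_sub_assoc]
    exact mul_mem_MF hA hB
  | zero => simp
  | add x y _ _ hx hy => rw [mul_add]; exact add_mem hx hy

/-- The generators span. -/
theorem MF_le_genSpan [Γ.FiniteIndex] (k : ℤ) : MF Γ k ≤ genSpan Γ k := by
  suffices ∀ n : ℕ, ∀ k : ℤ, k < n → MF Γ k ≤ genSpan Γ k from
    this (k.toNat + 1) k (by omega)
  intro n
  induction n with
  | zero =>
    intro k hk
    rw [MF_eq_bot_of_neg (by simpa using hk)]
    exact bot_le
  | succ n ih =>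
    intro k hk F hF
    let b := Module.Basis.ofVectorSpace ℂ (MF Γ k ⧸ lower Γ k)
    let F' : MF Γ k := ⟨F, hF⟩
    let c := b.repr (Submodule.Quotient.mk F')
    let G : MF Γ k := c.sum fun j a ↦ a • GenIdx.lift (⟨k, j⟩ : GenIdx Γ)
    have hFG : F' - G ∈ lower Γ k := by
      rw [← Submodule.Quotient.eq]
      conv_lhs => rw [← b.linearCombination_repr (Submodule.Quotient.mk F')]
      rw [Finsupp.linearCombination_apply]
      show _ = (lower Γ k).mkQ G
      rw [map_finsuppSum]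
      refine Finsupp.sum_congr fun j _ ↦ ?_
      rw [map_smul]
      congr 1
      exact (GenIdx.mk_lift (⟨k, j⟩ : GenIdx Γ)).symm
    obtain ⟨_, ⟨U, hU, rfl⟩, _, ⟨V, hV, rfl⟩, hUV⟩ := Submodule.mem_sup.mp hFG
    have hG : (G : ℍ → ℂ) ∈ genSpan Γ k := by
      simp only [G, Finsupp.sum, AddSubmonoidClass.coe_finsetSum]
      refine Submodule.sum_mem _ fun j _ ↦ Submodule.mem_iSup_of_mem (⟨k, j⟩ : GenIdx Γ) ?_
      refine ⟨c j • 1, ?_, ?_⟩
      · rw [show k - GenIdx.wt (⟨k, j⟩ : GenIdx Γ) = 0 from sub_self k]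
        exact Submodule.smul_mem _ _ one_mem_MF
      · simp [GenIdx.form]
    have hF' : F = (⇑E₄ * U + ⇑E₆ * V) + (G : ℍ → ℂ) := by
      have : (F' : ℍ → ℂ) - G = ⇑E₄ * U + ⇑E₆ * V := hUV.symm
      rw [← this]
      simp [F']
    rw [hF']
    refine add_mem (add_mem ?_ ?_) hG
    · have := mul_mem_genSpan E4_mem (ih (k - 4) (by omega) hU)
      rwa [show 4 + (k - 4) = k by ring] at this
    · have := mul_mem_genSpan E6_mem (ih (k - 6) (by omega) hV)
      rwa [show 6 + (k - 6) = k by ring] at this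

/-- Elements of the span are combinations of the generators. -/
lemma exists_sum_of_mem_genSpan {k : ℤ} {F : ℍ → ℂ} (hF : F ∈ genSpan Γ k) :
    ∃ (s : Finset (GenIdx Γ)) (A : GenIdx Γ → ℍ → ℂ),
      (∀ i, A i ∈ MF (⊤ : Subgroup SL(2, ℤ)) (k - i.wt)) ∧ (∀ i, i ∉ s → A i = 0) ∧
        ∑ i ∈ s, A i * i.form = F := by
  classical
  obtain ⟨φ, hφ, rfl⟩ := (Submodule.mem_iSup_iff_exists_finsupp _ F).mp hF
  choose A hA hAφ using hφ
  refine ⟨φ.support, fun i ↦ if i ∈ φ.support then A i else 0, fun i ↦ ?_, fun i hi ↦ by simp [hi],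
    Finset.sum_congr rfl fun i hi ↦ ?_⟩
  · dsimp only
    split
    · exact hA i
    · exact zero_mem _
  · simp only [if_pos hi]
    exact hAφ i

/-- The generators are independent over the level one forms. -/
theorem gen_indep [Γ.FiniteIndex] {k : ℤ} (s : Finset (GenIdx Γ)) (A : GenIdx Γ → ℍ → ℂ)
    (hA : ∀ i ∈ s, A i ∈ MF (⊤ : Subgroup SL(2, ℤ)) (k - i.wt))
    (hsum : ∑ i ∈ s, A i * i.form = 0) : ∀ i ∈ s, A i = 0 := by
  classical
  suffices ∀ n : ℕ, ∀ k : ℤ, k < n → ∀ (s : Finset (GenIdx Γ)) (A : GenIdx Γ → ℍ → ℂ),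
      (∀ i ∈ s, A i ∈ MF (⊤ : Subgroup SL(2, ℤ)) (k - i.wt)) →
      ∑ i ∈ s, A i * i.form = 0 → ∀ i ∈ s, A i = 0 from
    this (k.toNat + 1) k (by omega) s A hA hsum
  clear hA hsum
  intro n
  induction n with
  | zero =>
    intro k hk s A hA _ i hi
    have := GenIdx.wt_nonneg i
    simpa [MF_eq_bot_of_neg (show k - i.wt < 0 by simp only [Nat.cast_zero] at hk; omega)]
      using hA i hi
  | succ n ih =>
    intro k hk s A hA hsum i₀ hi₀
    have hdec : ∀ i : GenIdx Γ, ∃ c : ℂ, ∃ U ∈ MF (⊤ : Subgroup SL(2, ℤ)) (k - i.wt - 4),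
        ∃ V ∈ MF (⊤ : Subgroup SL(2, ℤ)) (k - i.wt - 6),
        (k - i.wt ≠ 0 → c = 0) ∧ (i ∈ s → A i = c • 1 + ⇑E₄ * U + ⇑E₆ * V) := by
      intro i
      by_cases hi : i ∈ s
      · obtain ⟨c, U, hU, V, hV, h1, h2⟩ := exists_decomp (hA i hi)
        exact ⟨c, U, hU, V, hV, h1, fun _ ↦ h2⟩
      · exact ⟨0, 0, zero_mem _, 0, zero_mem _, fun _ ↦ rfl, fun h ↦ absurd h hi⟩
    choose c U hU V hV hc hdecA using hdec
    have hUm : ∑ i ∈ s, U i * i.form ∈ MF Γ (k - 4) :=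
      sum_mem fun i _ ↦ top_mul_mem (by ring) (hU i) i.form_mem
    have hVm : ∑ i ∈ s, V i * i.form ∈ MF Γ (k - 6) :=
      sum_mem fun i _ ↦ top_mul_mem (by ring) (hV i) i.form_mem
    have hsplit : ∑ i ∈ s, c i • i.form =
        -(⇑E₄ * ∑ i ∈ s, U i * i.form + ⇑E₆ * ∑ i ∈ s, V i * i.form) := by
      rw [eq_neg_iff_add_eq_zero, Finset.mul_sum, Finset.mul_sum, ← Finset.sum_add_distrib,
        ← Finset.sum_add_distrib]
      refine Eq.trans (Finset.sum_congr rfl fun i hi ↦ ?_) hsum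
      rw [hdecA i hi]
      ext z
      simp only [Pi.add_apply, Pi.smul_apply, Pi.mul_apply, Pi.one_apply, smul_eq_mul]
      ring
    -- the constants vanish, by independence in the quotient
    have hc0 : ∀ i ∈ s, c i = 0 := by
      let b := Module.Basis.ofVectorSpace ℂ (MF Γ k ⧸ lower Γ k)
      let emb : Module.Basis.ofVectorSpaceIndex ℂ (MF Γ k ⧸ lower Γ k) → GenIdx Γ :=
        fun j ↦ ⟨k, j⟩
      have hemb : Function.Injective emb := fun j j' h ↦ by
        simpa [emb, GenIdx] using h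
      let t := s.preimage emb hemb.injOn
      have hs : ∑ i ∈ s, c i • i.form = ∑ j ∈ t, c (emb j) • (emb j).form := by
        rw [Finset.sum_preimage emb s hemb.injOn (fun i ↦ c i • i.form)]
        rintro ⟨l, j⟩ _ hj
        rcases eq_or_ne l k with rfl | hl
        · exact absurd ⟨j, rfl⟩ hj
        · rw [hc _ (sub_ne_zero.mpr (Ne.symm hl)), zero_smul]
      have hq : ∑ j ∈ t, c (emb j) • b j = 0 := by
        have hmem : (∑ j ∈ t, c (emb j) • GenIdx.lift (emb j) : MF Γ k) ∈ lower Γ k := by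
          unfold lower
          rw [Submodule.mem_comap]
          have e : ((MF Γ k).subtype (∑ j ∈ t, c (emb j) • GenIdx.lift (emb j) : MF Γ k)) =
              ∑ j ∈ t, c (emb j) • (emb j).form := by
            simp [GenIdx.form]
          refine Eq.subst (motive := (· ∈ _)) e.symm ?_
          rw [← hs, hsplit]
          exact neg_mem (add_mem (Submodule.mem_sup_left (Submodule.mem_map_of_mem hUm))
            (Submodule.mem_sup_right (Submodule.mem_map_of_mem hVm)))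
        rw [← Submodule.Quotient.mk_eq_zero, ← Submodule.mkQ_apply, map_sum] at hmem
        refine Eq.trans (Finset.sum_congr rfl fun j _ ↦ ?_) hmem
        rw [map_smul]
        congr 1
        exact (GenIdx.mk_lift (emb j)).symm
      have hind := linearIndependent_iff'.mp b.linearIndependent t (fun j ↦ c (emb j)) hq
      rintro ⟨l, j⟩ hi
      rcases eq_or_ne l k with rfl | hl
      · exact hind j (Finset.mem_preimage.mpr hi)
      · exact hc _ (sub_ne_zero.mpr (Ne.symm hl))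
    rw [Finset.sum_congr rfl (fun i hi ↦ by rw [hc0 i hi, zero_smul]) , Finset.sum_const_zero,
      eq_comm, neg_eq_zero] at hsplit
    -- use the regular sequence
    have hVm' : ∑ i ∈ s, V i * i.form ∈ MF Γ (k - 4 - 2) := by
      rwa [show k - 4 - 2 = k - 6 by ring]
    obtain ⟨r, hr, hUr, hVr⟩ := regular_sequence hUm hVm' hsplit
    obtain ⟨s', H, hH, hH0, rfl⟩ := exists_sum_of_mem_genSpan (MF_le_genSpan _ hr)
    have ext_sum : ∀ B : GenIdx Γ → ℍ → ℂ, ∑ i ∈ s, B i * i.form =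
        ∑ i ∈ s ∪ s', (if i ∈ s then B i else 0) * i.form := by
      intro B
      refine Eq.trans (Finset.sum_congr rfl
        (g := fun i ↦ (if i ∈ s then B i else 0) * i.form) fun i hi ↦ by rw [if_pos hi]) ?_
      exact Finset.sum_subset Finset.subset_union_left fun i _ hi ↦ by simp [hi]
    have ext_H : ∑ i ∈ s', H i * i.form = ∑ i ∈ s ∪ s', H i * i.form :=
      Finset.sum_subset Finset.subset_union_right fun i _ hi ↦ by simp [hH0 i hi]
    have hU' : ∀ i ∈ s ∪ s', (if i ∈ s then U i else 0) - ⇑E₆ * H i = 0 := by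
      refine ih (k - 4) (by omega) _ _ (fun i _ ↦ ?_) ?_
      · refine sub_mem ?_ ?_
        · split
          · rw [show k - 4 - i.wt = k - i.wt - 4 by ring]; exact hU i
          · exact zero_mem _
        · convert mul_mem_MF E6_mem (hH i) using 2
          ring
      · rw [ext_sum U, ext_H, Finset.mul_sum] at hUr
        simp only [sub_mul, Finset.sum_sub_distrib, mul_assoc]
        exact sub_eq_zero.mpr hUr
    have hV' : ∀ i ∈ s ∪ s', (if i ∈ s then V i else 0) + ⇑E₄ * H i = 0 := by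
      refine ih (k - 6) (by omega) _ _ (fun i _ ↦ ?_) ?_
      · refine add_mem ?_ ?_
        · split
          · rw [show k - 6 - i.wt = k - i.wt - 6 by ring]; exact hV i
          · exact zero_mem _
        · convert mul_mem_MF E4_mem (hH i) using 2
          ring
      · rw [ext_sum V, ext_H, Finset.mul_sum] at hVr
        simp only [add_mul, Finset.sum_add_distrib, mul_assoc]
        exact add_eq_zero_iff_eq_neg.mpr hVr
    have h1 := hU' i₀ (Finset.mem_union_left _ hi₀)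
    have h2 := hV' i₀ (Finset.mem_union_left _ hi₀)
    rw [if_pos hi₀, sub_eq_zero] at h1
    rw [if_pos hi₀, add_eq_zero_iff_eq_neg] at h2
    rw [hdecA i₀ hi₀, hc0 i₀ hi₀, h1, h2]
    simp [mul_left_comm]

end FLTA.Dim
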