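import Fermat.Agent.Dim.Basis

/-!
# Values of the graded basis at the points of an orbit

At every point the matrix of values of the generators at the translates is invertible; at the
elliptic points the trace of a coset permutation is read off from the weights.
-/

set_option autoImplicit false

noncomputable section

open UpperHalfPlane ModularForm Filter Topology
open scoped MatrixGroups ModularForm Manifold

namespace FLTA.Dim

local notation "Δf" => ModularForm.discriminant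

variable (Γ : Subgroup SL(2, ℤ))

/-- Some fixed weight has forms taking every value on the translates of some point. -/
def Separating : Prop :=
  ∃ (z₀ : ℍ) (k : ℤ), ∀ v : Cosets Γ → ℂ, ∃ f ∈ MF Γ k, ∀ x, cmp k f x z₀ = v x

variable {Γ}

/-- The value vector of a generator at the translates of `z`. -/
def GenIdx.vec (i : GenIdx Γ) (z : ℍ) (x : Cosets Γ) : ℂ := cmp i.wt i.form x z

lemma GenIdx.vec_smul (i : GenIdx Γ) (γ : SL(2, ℤ)) (z : ℍ) (x : Cosets Γ) :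
    i.vec (γ • z) x = denom γ z ^ i.wt * i.vec z (γ⁻¹ • x) :=
  cmp_apply_smul i.form_mem.2.1 γ x z

lemma cmp_combination {k : ℤ} (s : Finset (GenIdx Γ)) (A : GenIdx Γ → ℍ → ℂ)
    (hA : ∀ i ∈ s, A i ∈ MF (⊤ : Subgroup SL(2, ℤ)) (k - i.wt)) (x : Cosets Γ) (z : ℍ) :
    cmp k (∑ i ∈ s, A i * i.form) x z = ∑ i ∈ s, A i z * i.vec z x := by
  rw [cmp_sum, Finset.sum_apply]
  refine Finset.sum_congr rfl fun i hi ↦ ?_
  rw [cmp_top_mul (by ring : k = (k - i.wt) + i.wt) (hA i hi).2.1]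
  rfl

lemma MF_odd (hneg : (-1 : SL(2, ℤ)) ∈ Γ) {k : ℤ} (hk : Odd k) {f : ℍ → ℂ} (hf : f ∈ MF Γ k) :
    f = 0 := by
  ext z
  have h := congrFun (hf.2.1 _ hneg) z
  have hk' : (-1 : ℂ) ^ k = -1 := hk.neg_one_zpow
  rw [SL_slash_apply] at h
  have hd : denom (-1 : SL(2, ℤ)) z = -1 := by simp [denom]
  have hz : (-1 : SL(2, ℤ)) • z = z := by rw [ModularGroup.SL_neg_smul, one_smul]
  rw [hz, hd, zpow_neg, hk', inv_neg, inv_one, mul_neg, mul_one] at h
  show f z = 0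
  linear_combination (-1 / 2 : ℂ) * h

lemma GenIdx.wt_even (hneg : (-1 : SL(2, ℤ)) ∈ Γ) (i : GenIdx Γ) : Even i.wt := by
  rcases Int.even_or_odd i.wt with h | h
  · exact h
  have h0 : i.lift = 0 := Subtype.ext (MF_odd hneg h i.lift.2)
  have h1 := i.mk_lift
  rw [h0] at h1
  exact absurd h1.symm ((Module.Basis.ofVectorSpace ℂ (MF Γ i.1 ⧸ lower Γ i.1)).ne_zero i.2)

variable [Γ.FiniteIndex]

/-- Independence of values, given a level one form vanishing exactly on the orbit of `z₀`. -/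
lemma vec_indep_of_form {z₀ : ℍ} {m : ℤ} {P : ℍ → ℂ}
    (hP : P ∈ MF (⊤ : Subgroup SL(2, ℤ)) m)
    (hsimple : ∀ z : ℍ, P z = 0 → deriv (P ∘ ofComplex) (z : ℂ) ≠ 0)
    {cP : ℂ} (hcP : cP ≠ 0) (hlim : Tendsto P atImInfty (𝓝 cP))
    (hP₀ : P z₀ = 0) (horb : ∀ z, P z = 0 → ∃ g : SL(2, ℤ), g • z₀ = z)
    (s : Finset (GenIdx Γ)) (k : ℤ) (Q : GenIdx Γ → ℍ → ℂ)
    (hQ : ∀ i ∈ s, Q i ∈ MF (⊤ : Subgroup SL(2, ℤ)) (k - i.wt)) (hQ₀ : ∀ i ∈ s, Q i z₀ ≠ 0)
    (c : GenIdx Γ → ℂ) (hc : ∀ x, ∑ i ∈ s, c i * i.vec z₀ x = 0) : ∀ i ∈ s, c i = 0 := by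
  classical
  let A : GenIdx Γ → ℍ → ℂ := fun i ↦ (c i / Q i z₀) • Q i
  have hA : ∀ i ∈ s, A i ∈ MF (⊤ : Subgroup SL(2, ℤ)) (k - i.wt) := fun i hi ↦
    Submodule.smul_mem _ _ (hQ i hi)
  set F := ∑ i ∈ s, A i * i.form with hF
  have hFm : F ∈ MF Γ k := sum_mem fun i hi ↦ top_mul_mem (by ring) (hA i hi) i.form_mem
  have hF₀ : ∀ x : Cosets Γ, cmp k F x z₀ = 0 := by
    intro x
    rw [hF, cmp_combination s A hA]
    refine Eq.trans (Finset.sum_congr rfl fun i hi ↦ ?_) (hc x)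
    simp [A, div_mul_cancel₀ _ (hQ₀ i hi)]
  have hvan : ∀ z, P z = 0 → F z = 0 := by
    intro z hz
    obtain ⟨g, rfl⟩ := horb z hz
    have h := cmp_apply_smul hFm.2.1 g ((1 : SL(2, ℤ)) : Cosets Γ) z₀
    rw [cmp_mk_one hFm.2.1, hF₀, mul_zero] at h
    exact h
  obtain ⟨G, hG, hFG⟩ := exists_eq_mul hP hsimple hcP hlim hFm hvan
  obtain ⟨s', H, hH, hH0, rfl⟩ := exists_sum_of_mem_genSpan (MF_le_genSpan _ hG)
  have hzero : ∀ i ∈ s ∪ s', (if i ∈ s then A i else 0) - P * H i = 0 := by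
    refine gen_indep (k := k) _ _ (fun i _ ↦ ?_) ?_
    · refine sub_mem ?_ ?_
      · split_ifs with hi
        · exact hA i hi
        · exact zero_mem _
      · convert mul_mem_MF hP (hH i) using 2
        ring
    · simp only [sub_mul, Finset.sum_sub_distrib, mul_assoc, ← Finset.mul_sum]
      have e1 : ∑ i ∈ s ∪ s', H i * i.form = ∑ i ∈ s', H i * i.form :=
        (Finset.sum_subset Finset.subset_union_right fun i _ hi ↦ by simp [hH0 i hi]).symm
      have e2 : ∑ i ∈ s ∪ s', (if i ∈ s then A i else 0) * i.form = ∑ i ∈ s, A i * i.form := by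
        refine ((Finset.sum_subset Finset.subset_union_left fun i _ hi ↦ by simp [hi]).symm.trans
          (Finset.sum_congr rfl fun i hi ↦ by rw [if_pos hi]))
      rw [e1, e2, ← hF, hFG, sub_self]
  intro i hi
  have h := congrFun (hzero i (Finset.mem_union_left _ hi)) z₀
  simpa [if_pos hi, A, hP₀, div_mul_cancel₀ _ (hQ₀ i hi)] using h

lemma E4_cube_sub_mem (z₀ : ℍ) :
    (fun w ↦ E₄ w ^ 3 * Δf z₀ - E₄ z₀ ^ 3 * Δf w) ∈ MF (⊤ : Subgroup SL(2, ℤ)) 12 := by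
  have h1 : (⇑E₄ ^ 3 : ℍ → ℂ) ∈ MF (⊤ : Subgroup SL(2, ℤ)) 12 := by
    have := pow_mem_MF E4_mem 3
    norm_num at this
    exact this
  have h2 := sub_mem (Submodule.smul_mem _ (Δf z₀) h1)
    (Submodule.smul_mem _ (E₄ z₀ ^ 3) (SF_le_MF discriminant_mem))
  convert h2 using 1
  ext w
  simp [mul_comm (Δf z₀)]

/-- The value vectors at a non-elliptic point are independent. -/
lemma vec_indep_generic (hneg : (-1 : SL(2, ℤ)) ∈ Γ) {z₀ : ℍ} (h4 : E₄ z₀ ≠ 0)
    (h6 : E₆ z₀ ≠ 0) : LinearIndependent ℂ (fun i : GenIdx Γ ↦ i.vec z₀) := by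
  rw [linearIndependent_iff']
  intro s c hc
  have hk : ∀ i ∈ s, Even ((∑ j ∈ s, j.wt) + 4 - i.wt) ∧ 4 ≤ (∑ j ∈ s, j.wt) + 4 - i.wt := by
    intro i hi
    refine ⟨(Even.add ?_ (by decide : Even (4 : ℤ))).sub (GenIdx.wt_even hneg i), ?_⟩
    · exact Finset.even_sum (fun j : GenIdx Γ ↦ j.wt) fun j _ ↦ GenIdx.wt_even hneg j
    · have := Finset.single_le_sum (fun j _ ↦ GenIdx.wt_nonneg j) hi
      linarith
  have hQex : ∀ i, ∃ Q : ℍ → ℂ, i ∈ s →
      Q ∈ MF (⊤ : Subgroup SL(2, ℤ)) ((∑ j ∈ s, j.wt) + 4 - i.wt) ∧ Q z₀ ≠ 0 := by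
    intro i
    by_cases hi : i ∈ s
    · obtain ⟨a, b, hab⟩ := exists_weight_eq (hk i hi).1 (hk i hi).2
      refine ⟨mono a b, fun _ ↦ ⟨hab ▸ mono_mem a b, ?_⟩⟩
      simp [mono, h4, h6]
    · exact ⟨0, fun h ↦ absurd h hi⟩
  choose Q hQ using hQex
  refine vec_indep_of_form (E4_cube_sub_mem z₀) (fun z hz ↦ ?_) (discriminant_ne_zero z₀) ?_
    (by simp) (fun z hz ↦ ?_) s _ Q (fun i hi ↦ (hQ i hi).1) (fun i hi ↦ (hQ i hi).2) c ?_
  · exact deriv_pencil_ne_zero z₀ z h4 h6 (sub_eq_zero.mp hz)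
  · simpa using ((tendsto_E4.pow 3).mul_const (Δf z₀)).sub
      (tendsto_discriminant.const_mul (E₄ z₀ ^ 3))
  · exact exists_smul_eq_of_j_eq z₀ z (sub_eq_zero.mp hz).symm
  · intro x
    have := congrFun hc x
    simpa using this

lemma exists_nonelliptic : ∃ z : ℍ, E₄ z ≠ 0 ∧ E₆ z ≠ 0 :=
  ((tendsto_E4.eventually_ne one_ne_zero).and (tendsto_E6.eventually_ne one_ne_zero)).exists

lemma finite_genIdx (hneg : (-1 : SL(2, ℤ)) ∈ Γ) : Finite (GenIdx Γ) := by
  obtain ⟨z, h4, h6⟩ := exists_nonelliptic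
  exact (vec_indep_generic hneg h4 h6).finite

/-- There are as many generators as cosets. -/
lemma card_genIdx (hneg : (-1 : SL(2, ℤ)) ∈ Γ) (hsep : Separating Γ) :
    Nat.card (GenIdx Γ) = Nat.card (Cosets Γ) := by
  have := finite_genIdx hneg
  have : Fintype (GenIdx Γ) := Fintype.ofFinite _
  have : Fintype (Cosets Γ) := Fintype.ofFinite _
  rw [Nat.card_eq_fintype_card, Nat.card_eq_fintype_card]
  refine le_antisymm ?_ ?_
  · obtain ⟨z, h4, h6⟩ := exists_nonelliptic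
    simpa using (vec_indep_generic hneg h4 h6).fintype_card_le_finrank
  · obtain ⟨z₀, k, hz⟩ := hsep
    have hspan : (⊤ : Submodule ℂ (Cosets Γ → ℂ)) ≤
        Submodule.span ℂ (Set.range fun i : GenIdx Γ ↦ i.vec z₀) := by
      intro v _
      obtain ⟨f, hf, hfv⟩ := hz v
      obtain ⟨s, A, hA, -, rfl⟩ := exists_sum_of_mem_genSpan (MF_le_genSpan _ hf)
      have hv : v = ∑ i ∈ s, A i z₀ • i.vec z₀ := by
        ext x
        rw [← hfv x, cmp_combination s A (fun i _ ↦ hA i), Finset.sum_apply]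
        simp
      rw [hv]
      exact Submodule.sum_mem _ fun i _ ↦
        Submodule.smul_mem _ _ (Submodule.subset_span ⟨i, rfl⟩)
    have h1 := finrank_range_le_card (R := ℂ) (fun i : GenIdx Γ ↦ i.vec z₀)
    rw [Set.finrank, top_le_iff.mp hspan, finrank_top, Module.finrank_fintype_fun_eq_card] at h1
    exact h1

/-- A finiteness datum, so that sums over the generators make sense. -/
@[reducible] def fintypeGenIdx (hneg : (-1 : SL(2, ℤ)) ∈ Γ) : Fintype (GenIdx Γ) :=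
  have := finite_genIdx hneg
  Fintype.ofFinite _

lemma sum_vec_iterate {z₀ : ℍ} {γ : SL(2, ℤ)} (hfix : γ • z₀ = z₀) (s : Finset (GenIdx Γ))
    (c : GenIdx Γ → ℂ) (hc : ∀ x, ∑ i ∈ s, c i * i.vec z₀ x = 0) (n : ℕ) :
    ∀ x, ∑ i ∈ s, c i * ((denom γ z₀ ^ i.wt)⁻¹) ^ n * i.vec z₀ x = 0 := by
  induction n with
  | zero => simpa using hc
  | succ n ih =>
    intro x
    refine Eq.trans (Finset.sum_congr rfl fun i _ ↦ ?_) (ih (γ⁻¹ • x))
    have h := i.vec_smul γ z₀ x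
    rw [hfix] at h
    rw [h]
    have hne : denom γ z₀ ^ i.wt ≠ 0 := zpow_ne_zero _ (denom_ne_zero _ _)
    rw [pow_succ]
    field_simp

/-- Reduction of independence at a fixed point to one eigenvalue. -/
lemma vec_indep_of_classes {z₀ : ℍ} {γ : SL(2, ℤ)} (hfix : γ • z₀ = z₀) (L : ℕ) (hL : L ≠ 0)
    (hroot : ∀ i : GenIdx Γ, ((denom γ z₀ ^ i.wt)⁻¹) ^ L = 1)
    (hclass : ∀ (i₀ : GenIdx Γ) (s : Finset (GenIdx Γ)),
      (∀ i ∈ s, denom γ z₀ ^ i.wt = denom γ z₀ ^ i₀.wt) → ∀ c : GenIdx Γ → ℂ,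
        (∀ x, ∑ i ∈ s, c i * i.vec z₀ x = 0) → ∀ i ∈ s, c i = 0) :
    LinearIndependent ℂ (fun i : GenIdx Γ ↦ i.vec z₀) := by
  classical
  rw [linearIndependent_iff']
  intro s c hc i₀ hi₀
  have hc' : ∀ x, ∑ i ∈ s, c i * i.vec z₀ x = 0 := fun x ↦ by simpa using congrFun hc x
  refine hclass i₀ (s.filter fun i ↦ denom γ z₀ ^ i.wt = denom γ z₀ ^ i₀.wt)
    (fun i hi ↦ (Finset.mem_filter.mp hi).2) c (fun x ↦ ?_) i₀ (Finset.mem_filter.mpr ⟨hi₀, rfl⟩)
  set e : GenIdx Γ → ℂ := fun i ↦ (denom γ z₀ ^ i.wt)⁻¹ with he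
  have key : ∑ n ∈ Finset.range L, (e i₀)⁻¹ ^ n * (∑ i ∈ s, c i * e i ^ n * i.vec z₀ x) = 0 :=
    Finset.sum_eq_zero fun n _ ↦ by rw [sum_vec_iterate hfix s c hc' n x, mul_zero]
  simp only [Finset.mul_sum] at key
  rw [Finset.sum_comm] at key
  have hsum : ∀ i, ∑ n ∈ Finset.range L, (e i₀)⁻¹ ^ n * (c i * e i ^ n * i.vec z₀ x) =
      c i * i.vec z₀ x * if denom γ z₀ ^ i.wt = denom γ z₀ ^ i₀.wt then (L : ℂ) else 0 := by
    intro i
    rw [Finset.sum_congr rfl fun n _ ↦ show (e i₀)⁻¹ ^ n * (c i * e i ^ n * i.vec z₀ x) =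
      c i * i.vec z₀ x * (e i / e i₀) ^ n by rw [div_pow, div_eq_mul_inv, inv_pow]; ring,
      ← Finset.mul_sum]
    congr 1
    have hne : e i₀ ≠ 0 := inv_ne_zero (zpow_ne_zero _ (denom_ne_zero _ _))
    split_ifs with h
    · have : e i / e i₀ = 1 := by
        rw [show e i = e i₀ by simp only [he, h]]
        exact div_self hne
      simp [this]
    · have h1 : e i / e i₀ ≠ 1 := by
        intro h1
        exact h (inv_injective (div_eq_one_iff_eq hne |>.mp h1))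
      rw [geom_sum_eq h1, div_pow]
      simp only [he, hroot]
      simp
  rw [Finset.sum_congr rfl fun i _ ↦ hsum i] at key
  simp only [mul_ite, mul_zero] at key
  rw [← Finset.sum_filter, ← Finset.sum_mul] at key
  exact (mul_eq_zero.mp key).resolve_right (Nat.cast_ne_zero.mpr hL)

lemma denom_S_I : denom ModularGroup.S UpperHalfPlane.I = Complex.I := by
  rw [ModularGroup.denom_S]
  rfl

lemma denom_ST_rho :
    denom (ModularGroup.S * ModularGroup.T : SL(2, ℤ)) UpperHalfPlane.ρ =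
      (UpperHalfPlane.ρ : ℂ) + 1 := by
  simp [denom, ModularGroup.coe_S, ModularGroup.coe_T, Matrix.mul_apply]

lemma rho_add_one_sq : ((UpperHalfPlane.ρ : ℂ) + 1) ^ 2 = (UpperHalfPlane.ρ : ℂ) := by
  linear_combination UpperHalfPlane.ρ_sq

lemma rho_cube : (UpperHalfPlane.ρ : ℂ) ^ 3 = 1 := by
  linear_combination ((UpperHalfPlane.ρ : ℂ) - 1) * UpperHalfPlane.ρ_sq

lemma rho_add_one_zpow_six : ((UpperHalfPlane.ρ : ℂ) + 1) ^ (6 : ℤ) = 1 := by
  rw [show (6 : ℤ) = ((2 * 3 : ℕ) : ℤ) by norm_num, zpow_natCast, pow_mul, rho_add_one_sq,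
    rho_cube]

lemma vec_indep_I (hneg : (-1 : SL(2, ℤ)) ∈ Γ) :
    LinearIndependent ℂ (fun i : GenIdx Γ ↦ i.vec UpperHalfPlane.I) := by
  have hfix : ModularGroup.S • UpperHalfPlane.I = UpperHalfPlane.I :=
    ModularGroup.stabilizer_I.mpr (by simp)
  refine vec_indep_of_classes hfix 2 two_ne_zero (fun i ↦ ?_) (fun i₀ s hs c hc ↦ ?_)
  · obtain ⟨a, ha⟩ := GenIdx.wt_even hneg i
    rw [denom_S_I, inv_pow, ← zpow_natCast (Complex.I ^ i.wt), ← zpow_mul, ha,
      show (a + a) * ((2 : ℕ) : ℤ) = 4 * a by push_cast; ring, zpow_mul,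
      show Complex.I ^ (4 : ℤ) = 1 by exact_mod_cast Complex.I_pow_four, one_zpow, inv_one]
  · have hdiv : ∀ i ∈ s, (4 : ℤ) ∣ i₀.wt - i.wt := by
      intro i hi
      have h := hs i hi
      rw [denom_S_I] at h
      obtain ⟨a, ha⟩ := GenIdx.wt_even hneg i
      obtain ⟨b, hb⟩ := GenIdx.wt_even hneg i₀
      have hI : ∀ t : ℤ, Complex.I ^ (t + t) = (-1 : ℂ) ^ t := fun t ↦ by
        rw [← two_mul, zpow_mul, show Complex.I ^ (2 : ℤ) = -1 by exact_mod_cast Complex.I_sq]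
      rw [ha, hb, hI, hI] at h
      rcases Int.even_or_odd a with he | he <;> rcases Int.even_or_odd b with he' | he' <;>
        rw [he.neg_one_zpow, he'.neg_one_zpow] at h
      · obtain ⟨r, rfl⟩ := he; obtain ⟨r', rfl⟩ := he'; omega
      · norm_num at h
      · norm_num at h
      · obtain ⟨r, rfl⟩ := he; obtain ⟨r', rfl⟩ := he'; omega
    have hge : ∀ i ∈ s, 0 ≤ i₀.wt + 4 * (∑ j ∈ s, j.wt) - i.wt := by
      intro i hi
      have := Finset.single_le_sum (fun j _ ↦ GenIdx.wt_nonneg j) hi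
      linarith [GenIdx.wt_nonneg i₀, GenIdx.wt_nonneg i]
    refine vec_indep_of_form E6_mem (fun z hz ↦ deriv_E6_ne_zero hz) one_ne_zero tendsto_E6
      E6_I (fun z hz ↦ (E6_eq_zero_iff z).mp hz) s (i₀.wt + 4 * ∑ j ∈ s, j.wt)
      (fun i ↦ mono ((i₀.wt + 4 * (∑ j ∈ s, j.wt) - i.wt) / 4).toNat 0) (fun i hi ↦ ?_)
      (fun i _ ↦ ?_) c hc
    · convert mono_mem _ 0 using 2
      have := hdiv i hi
      have := hge i hi
      omega
    · simp [mono, (E4_ne_zero_or_E6_ne_zero UpperHalfPlane.I).resolve_right (by simp [E6_I])]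

lemma vec_indep_rho (hneg : (-1 : SL(2, ℤ)) ∈ Γ) :
    LinearIndependent ℂ (fun i : GenIdx Γ ↦ i.vec UpperHalfPlane.ρ) := by
  have hfix : (ModularGroup.S * ModularGroup.T) • UpperHalfPlane.ρ = UpperHalfPlane.ρ :=
    ModularGroup.stabilizer_ρ.mpr (by simp)
  refine vec_indep_of_classes hfix 3 three_ne_zero (fun i ↦ ?_) (fun i₀ s hs c hc ↦ ?_)
  · obtain ⟨a, ha⟩ := GenIdx.wt_even hneg i
    rw [denom_ST_rho, inv_pow, ← zpow_natCast (((UpperHalfPlane.ρ : ℂ) + 1) ^ i.wt), ← zpow_mul,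
      ha, show (a + a) * ((3 : ℕ) : ℤ) = 6 * a by push_cast; ring, zpow_mul,
      rho_add_one_zpow_six, one_zpow, inv_one]
  · have hdiv : ∀ i ∈ s, (6 : ℤ) ∣ i₀.wt - i.wt := by
      intro i hi
      have h := hs i hi
      rw [denom_ST_rho] at h
      have hne : (UpperHalfPlane.ρ : ℂ) + 1 ≠ 0 := by
        intro h0
        have h' := rho_add_one_zpow_six
        rw [h0, zero_zpow _ (by norm_num)] at h'
        exact zero_ne_one h'
      have hd : ((UpperHalfPlane.ρ : ℂ) + 1) ^ (i₀.wt - i.wt) = 1 := by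
        rw [zpow_sub₀ hne, h, div_self (zpow_ne_zero _ hne)]
      obtain ⟨a, ha⟩ := GenIdx.wt_even hneg i
      obtain ⟨b, hb⟩ := GenIdx.wt_even hneg i₀
      rw [ha, hb, show b + b - (a + a) = 2 * (b - a) by ring, zpow_mul,
        show ((UpperHalfPlane.ρ : ℂ) + 1) ^ (2 : ℤ) = (UpperHalfPlane.ρ : ℂ) by
          exact_mod_cast rho_add_one_sq] at hd
      have h3 : (3 : ℤ) ∣ b - a := by
        by_contra hnd
        rw [← Int.emod_add_mul_ediv (b - a) 3, zpow_add₀ (UpperHalfPlane.ne_zero _), zpow_mul,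
          show (UpperHalfPlane.ρ : ℂ) ^ (3 : ℤ) = 1 by exact_mod_cast rho_cube, one_zpow,
          mul_one] at hd
        have h12 : (b - a) % 3 = 1 ∨ (b - a) % 3 = 2 := by omega
        have him := UpperHalfPlane.im_ne_zero UpperHalfPlane.ρ
        rcases h12 with h12 | h12 <;> rw [h12] at hd
        · rw [zpow_one] at hd
          exact him (by simpa using congrArg Complex.im hd)
        · rw [show (2 : ℤ) = ((2 : ℕ) : ℤ) by rfl, zpow_natCast, UpperHalfPlane.ρ_sq] at hd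
          exact him (by simpa using congrArg Complex.im hd)
      omega
    have hge : ∀ i ∈ s, 0 ≤ i₀.wt + 6 * (∑ j ∈ s, j.wt) - i.wt := by
      intro i hi
      have := Finset.single_le_sum (fun j _ ↦ GenIdx.wt_nonneg j) hi
      linarith [GenIdx.wt_nonneg i₀, GenIdx.wt_nonneg i]
    refine vec_indep_of_form E4_mem (fun z hz ↦ deriv_E4_ne_zero hz) one_ne_zero tendsto_E4
      E4_rho (fun z hz ↦ (E4_eq_zero_iff z).mp hz) s (i₀.wt + 6 * ∑ j ∈ s, j.wt)
      (fun i ↦ mono 0 ((i₀.wt + 6 * (∑ j ∈ s, j.wt) - i.wt) / 6).toNat) (fun i hi ↦ ?_)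
      (fun i _ ↦ ?_) c hc
    · convert mono_mem 0 _ using 2
      have := hdiv i hi
      have := hge i hi
      omega
    · simp [mono, (E4_ne_zero_or_E6_ne_zero UpperHalfPlane.ρ).resolve_left (by simp [E4_rho])]

lemma vec_indep_smul {z₀ : ℍ} (g : SL(2, ℤ))
    (h : LinearIndependent ℂ (fun i : GenIdx Γ ↦ i.vec z₀)) :
    LinearIndependent ℂ (fun i : GenIdx Γ ↦ i.vec (g • z₀)) := by
  rw [linearIndependent_iff'] at h ⊢
  intro s c hc i hi
  have h0 := h s (fun j ↦ c j * denom g z₀ ^ j.wt) ?_ i hi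
  · exact (mul_eq_zero.mp h0).resolve_right (zpow_ne_zero _ (denom_ne_zero _ _))
  · ext x
    have hx := congrFun hc (g • x)
    simp only [Finset.sum_apply, Pi.smul_apply, smul_eq_mul, Pi.zero_apply] at hx ⊢
    refine Eq.trans (Finset.sum_congr rfl fun j _ ↦ ?_) hx
    rw [GenIdx.vec_smul, inv_smul_smul, mul_assoc]

/-- The value vectors are independent at every point. -/
theorem vec_indep (hneg : (-1 : SL(2, ℤ)) ∈ Γ) (z : ℍ) :
    LinearIndependent ℂ (fun i : GenIdx Γ ↦ i.vec z) := by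
  rcases eq_or_ne (E₄ z) 0 with h4 | h4
  · obtain ⟨g, rfl⟩ := (E4_eq_zero_iff z).mp h4
    exact vec_indep_smul g (vec_indep_rho hneg)
  rcases eq_or_ne (E₆ z) 0 with h6 | h6
  · obtain ⟨g, rfl⟩ := (E6_eq_zero_iff z).mp h6
    exact vec_indep_smul g (vec_indep_I hneg)
  exact vec_indep_generic hneg h4 h6

/-- The value map at a point, as an equivalence. -/
def evalEquiv [Fintype (GenIdx Γ)] (hneg : (-1 : SL(2, ℤ)) ∈ Γ) (hsep : Separating Γ) (z : ℍ) :
    (GenIdx Γ → ℂ) ≃ₗ[ℂ] (Cosets Γ → ℂ) :=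
  LinearEquiv.ofBijective (Fintype.linearCombination ℂ fun i : GenIdx Γ ↦ i.vec z) (by
    have : Fintype (Cosets Γ) := Fintype.ofFinite _
    have hinj := linearIndependent_iff_injective_fintypeLinearCombination.mp (vec_indep hneg z)
    refine ⟨hinj, (LinearMap.injective_iff_surjective_of_finrank_eq_finrank ?_).mp hinj⟩
    rw [Module.finrank_fintype_fun_eq_card, Module.finrank_fintype_fun_eq_card,
      ← Nat.card_eq_fintype_card, ← Nat.card_eq_fintype_card, card_genIdx hneg hsep])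

/-- The number of fixed cosets of a stabiliser element is read off from the weights. -/
theorem sum_zpow_eq_card_fixed [Fintype (GenIdx Γ)] (hneg : (-1 : SL(2, ℤ)) ∈ Γ)
    (hsep : Separating Γ) {z₀ : ℍ} {γ : SL(2, ℤ)} (hfix : γ • z₀ = z₀) :
    ∑ i : GenIdx Γ, (denom γ z₀ ^ i.wt)⁻¹ = (Nat.card {x : Cosets Γ // γ • x = x} : ℂ) := by
  classical
  have : Fintype (Cosets Γ) := Fintype.ofFinite _
  let e := evalEquiv hneg hsep z₀
  let σ : (Cosets Γ → ℂ) →ₗ[ℂ] (Cosets Γ → ℂ) := LinearMap.funLeft ℂ ℂ (fun x ↦ γ⁻¹ • x)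
  let d : (GenIdx Γ → ℂ) →ₗ[ℂ] (GenIdx Γ → ℂ) :=
    Matrix.toLin' (Matrix.diagonal fun i : GenIdx Γ ↦ (denom γ z₀ ^ i.wt)⁻¹)
  have hconj : σ = e.conj d := by
    refine LinearMap.ext fun v ↦ ?_
    obtain ⟨c, rfl⟩ := e.surjective v
    rw [LinearEquiv.conj_apply_apply, LinearEquiv.symm_apply_apply]
    ext x
    simp only [σ, d, e, evalEquiv, LinearMap.funLeft_apply, LinearEquiv.ofBijective_apply,
      Fintype.linearCombination_apply, Finset.sum_apply, Pi.smul_apply, smul_eq_mul,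
      Matrix.toLin'_apply, Matrix.mulVec_diagonal]
    refine Finset.sum_congr rfl fun i _ ↦ ?_
    have h := i.vec_smul γ z₀ x
    rw [hfix] at h
    have hne : denom γ z₀ ^ i.wt ≠ 0 := zpow_ne_zero _ (denom_ne_zero _ _)
    rw [h]
    field_simp
  have h1 : LinearMap.trace ℂ _ σ = LinearMap.trace ℂ _ d := by
    rw [hconj, LinearMap.trace_conj']
  have h2 : LinearMap.trace ℂ _ d = ∑ i : GenIdx Γ, (denom γ z₀ ^ i.wt)⁻¹ := by
    simp [d, Matrix.trace_toLin'_eq, Matrix.trace_diagonal]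
  have h3 : LinearMap.trace ℂ _ σ = (Nat.card {x : Cosets Γ // γ • x = x} : ℂ) := by
    rw [LinearMap.trace_eq_matrix_trace ℂ (Pi.basisFun ℂ (Cosets Γ)), Matrix.trace]
    simp [σ, LinearMap.toMatrix_apply, Pi.single_apply, Finset.sum_boole,
      Nat.card_eq_fintype_card, Fintype.card_subtype]
    congr 2
    ext x
    rw [inv_smul_eq_iff, eq_comm]
  rw [← h2, ← h1, h3]

end FLTA.Dim
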