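import Fermat.Agent.Dim.LevelOneWronskian
import Mathlib.Analysis.Calculus.InverseFunctionTheorem.Deriv
import Mathlib.Analysis.Complex.OpenMapping
import Mathlib.Analysis.Normed.Module.Connected
import Mathlib.NumberTheory.ModularForms.ProperlyDiscontinuous
import Mathlib.LinearAlgebra.Complex.FiniteDimensional

/-!
`j = E₄³/Δ` is a bijection from `SL(2, ℤ)\ℍ` to `ℂ`.
-/

set_option autoImplicit false

noncomputable section

open UpperHalfPlane hiding I
open Complex Filter Topology ModularForm EisensteinSeries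
open scoped MatrixGroups ModularForm Manifold Modular

namespace FLTA.Dim

local notation "Δ" => ModularForm.discriminant

/-- Two points are equivalent under `SL(2, ℤ)`. -/
def SLEquiv (z w : ℍ) : Prop := ∃ γ : SL(2, ℤ), γ • z = w

theorem SLEquiv.refl (z : ℍ) : SLEquiv z z := ⟨1, one_smul _ z⟩

theorem SLEquiv.symm {z w : ℍ} : SLEquiv z w → SLEquiv w z := fun ⟨γ, h⟩ ↦
  ⟨γ⁻¹, by rw [← h, inv_smul_smul]⟩

theorem SLEquiv.trans {z w x : ℍ} : SLEquiv z w → SLEquiv w x → SLEquiv z x :=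
  fun ⟨γ, h⟩ ⟨δ, h'⟩ ↦ ⟨δ * γ, by rw [mul_smul, h, h']⟩

theorem jH_smul (γ : SL(2, ℤ)) (z : ℍ) : jH (γ • z) = jH z := by
  have hγ : (γ : GL (Fin 2) ℝ) ∈ 𝒮ℒ := ⟨γ, rfl⟩
  have h4 : E₄ (γ • z) = denom γ z ^ (4 : ℤ) * E₄ z :=
    SlashInvariantForm.slash_action_eqn'' E₄ hγ z
  have hd : Δ (γ • z) = denom γ z ^ (12 : ℤ) * Δ z :=
    SlashInvariantForm.slash_action_eqn'' CuspForm.discriminant hγ z
  have hne : denom γ z ≠ 0 := denom_ne_zero γ z
  simp only [jH]
  rw [h4, hd]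
  simp only [zpow_ofNat, mul_pow, ← pow_mul]
  norm_num
  field_simp [discriminant_ne_zero z, hne]

theorem jH_eq_of_slEquiv {z w : ℍ} : SLEquiv z w → jH z = jH w := fun ⟨γ, h⟩ ↦ by
  rw [← h, jH_smul]

theorem jH_continuous : Continuous jH := by
  have : jH = fun z : ℍ ↦ jC z := funext fun z ↦ (jC_coe z).symm
  rw [this]
  exact jC_differentiableOn.continuousOn.comp_continuous continuous_coe fun z ↦ z.im_pos

theorem jH_tendsto_cobounded : Tendsto (fun z ↦ ‖jH z‖) atImInfty atTop := by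
  have h1 : Tendsto (fun z ↦ ‖E₄ z ^ 3‖) atImInfty (𝓝 1) := by
    simpa using (E4_tendsto_one.pow 3).norm
  have h2 : Tendsto (fun z ↦ ‖Δ z‖) atImInfty (𝓝[>] 0) := by
    refine tendsto_nhdsWithin_iff.mpr ⟨?_, .of_forall fun z ↦ norm_pos_iff.mpr (discriminant_ne_zero z)⟩
    simpa using (CuspFormClass.zero_at_infty CuspForm.discriminant).norm
  simpa [jH, div_eq_mul_inv, Pi.inv_apply] using h1.pos_mul_atTop one_pos h2.inv_tendsto_nhdsGT_zero

theorem exists_im_le_of_norm_jH_le (M : ℝ) : ∃ B : ℝ, ∀ z : ℍ, ‖jH z‖ ≤ M → z.im ≤ B := by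
  have h := jH_tendsto_cobounded.eventually (eventually_gt_atTop M)
  rw [Filter.eventually_iff, atImInfty_mem] at h
  obtain ⟨B, hB⟩ := h
  exact ⟨B, fun z hz ↦ le_of_not_gt fun hlt ↦ not_lt.mpr hz (hB z hlt.le)⟩

theorem exists_rep_in_truncated (M : ℝ) : ∃ B : ℝ, ∀ z : ℍ, ‖jH z‖ ≤ M →
    ∃ z' ∈ ModularGroup.truncatedFundamentalDomain B, SLEquiv z z' := by
  obtain ⟨B, hB⟩ := exists_im_le_of_norm_jH_le M
  refine ⟨B, fun z hz ↦ ?_⟩
  obtain ⟨g, hg⟩ := ModularGroup.exists_smul_mem_fd z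
  exact ⟨g • z, ⟨hg, hB _ (by rwa [jH_smul])⟩, g, rfl⟩

/-- Near `i∞`, `j` is injective modulo translations. -/
theorem exists_jH_inj_near_infty :
    ∃ B : ℝ, ∀ z w : ℍ, B ≤ z.im → B ≤ w.im → jH z = jH w → SLEquiv z w := by
  set g4 := cuspFunction 1 (E₄ : ℍ → ℂ) with hg4
  set gD := cuspFunction 1 (CuspForm.discriminant : ℍ → ℂ) with hgD
  have h4 : AnalyticAt ℂ g4 0 :=
    ModularFormClass.analyticAt_cuspFunction_zero E₄ one_pos one_mem_strictPeriods_SL
  have hD : AnalyticAt ℂ gD 0 :=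
    ModularFormClass.analyticAt_cuspFunction_zero CuspForm.discriminant one_pos
      one_mem_strictPeriods_SL
  have h40 : g4 0 = 1 := by
    simpa [qExpansion_coeff] using E_qExpansion_coeff_zero (k := 4) (by norm_num) ⟨2, rfl⟩
  have hD0 : gD 0 = 0 := by
    simpa [qExpansion_coeff, hgD] using
      CuspFormClass.qExpansion_coeff_zero CuspForm.discriminant one_pos one_mem_strictPeriods_SL
  have hD1 : deriv gD 0 = 1 := by
    simpa [qExpansion_coeff, hgD] using discriminant_qExpansion_coeff_one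
  set φ : ℂ → ℂ := gD / g4 ^ 3 with hφ
  have hφa : AnalyticAt ℂ φ 0 := hD.div (h4.pow 3) (by simp [h40])
  have hφ1 : deriv φ 0 ≠ 0 := by
    have := (hD.differentiableAt.hasDerivAt.div (h4.differentiableAt.hasDerivAt.pow 3)
      (by simp [h40])).deriv
    rw [hφ, this]
    simp [h40, hD0, hD1]
  have hinj := hφa.hasStrictDerivAt.eventually_left_inverse hφ1
  have hev : ∀ᶠ z : ℍ in atImInfty,
      hφa.hasStrictDerivAt.localInverse φ _ 0 hφ1 (φ (Function.Periodic.qParam 1 z)) =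
        Function.Periodic.qParam 1 z :=
    (qParam_tendsto_atImInfty one_pos).eventually hinj
  rw [Filter.eventually_iff, atImInfty_mem] at hev
  obtain ⟨B, hB⟩ := hev
  refine ⟨B, fun z w hz hw hzw ↦ ?_⟩
  have hkey : ∀ x : ℍ, φ (Function.Periodic.qParam 1 x) = (jH x)⁻¹ := fun x ↦ by
    simp only [hφ, hg4, hgD, Pi.div_apply, Pi.pow_apply, jH, inv_div]
    rw [SlashInvariantFormClass.eq_cuspFunction E₄ x one_mem_strictPeriods_SL one_ne_zero,
      SlashInvariantFormClass.eq_cuspFunction CuspForm.discriminant x one_mem_strictPeriods_SL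
        one_ne_zero, CuspForm.coe_discriminant]
  have hq : Function.Periodic.qParam 1 (z : ℂ) = Function.Periodic.qParam 1 (w : ℂ) := by
    rw [← hB z hz, ← hB w hw, hkey, hkey, hzw]
  simp only [Function.Periodic.qParam, Complex.ofReal_one, div_one] at hq
  obtain ⟨n, hn⟩ := Complex.exp_eq_exp_iff_exists_int.mp hq
  have hzw' : (z : ℂ) = w + n := by
    have h2 : (2 * Real.pi * Complex.I : ℂ) ≠ 0 := by simp [Real.pi_ne_zero]
    exact mul_left_cancel₀ h2 (by linear_combination hn)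
  refine SLEquiv.symm ⟨ModularGroup.T ^ n, ?_⟩
  rw [modular_T_zpow_smul]
  ext
  simp [hzw', add_comm]

theorem eventually_not_slEquiv {z w : ℍ} (h : ¬ SLEquiv z w) :
    ∀ᶠ p : ℍ × ℍ in 𝓝 (z, w), ¬ SLEquiv p.1 p.2 := by
  obtain ⟨K, hK, hzK⟩ := exists_compact_mem_nhds z
  obtain ⟨L, hL, hwL⟩ := exists_compact_mem_nhds w
  have hfin := ProperlyDiscontinuousSMul.finite_disjoint_inter_image (Γ := 𝒮ℒ) hK hL
  have h1 : ∀ g ∈ hfin.toFinset, ∀ᶠ p : ℍ × ℍ in 𝓝 (z, w), g • p.1 ≠ p.2 := by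
    rintro ⟨g, γ, rfl⟩ -
    have hc : Continuous fun p : ℍ × ℍ ↦ (⟨_, γ, rfl⟩ : 𝒮ℒ) • p.1 :=
      (continuous_const_smul _).comp continuous_fst
    exact (isOpen_ne_fun hc continuous_snd).eventually_mem (fun h' ↦ h ⟨γ, h'⟩)
  filter_upwards [(Finset.eventually_all hfin.toFinset).mpr h1,
    prod_mem_nhds hzK hwL] with p hp hpKL
  rintro ⟨γ, hγ⟩
  have hsm : (⟨_, γ, rfl⟩ : 𝒮ℒ) • p.1 = p.2 := hγ
  refine hp _ ?_ hsm
  rw [Set.Finite.mem_toFinset, Set.mem_ofPred_eq]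
  exact ⟨p.2, ⟨p.1, hpKL.1, hsm⟩, hpKL.2⟩

theorem jH_nhds_le_map (z : ℍ) : 𝓝 (jH z) ≤ map jH (𝓝 z) := by
  rcases (jC_differentiableOn.analyticOnNhd isOpen_upperHalfPlaneSet).is_constant_or_isOpen
    (convex_halfSpace_im_gt 0).isPreconnected with ⟨c, hc⟩ | hopen
  · obtain ⟨B, hB⟩ := exists_im_le_of_norm_jH_le ‖c‖
    have := hB ⟨Complex.I * (|B| + 1 : ℝ), by simp; positivity⟩ (le_of_eq (by
      rw [← jC_coe, hc _ (UpperHalfPlane.im_pos _)]))
    simp [UpperHalfPlane.im] at this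
    linarith [le_abs_self B]
  · have : IsOpenMap jH := fun V hV ↦ by
      rw [show jH '' V = jC '' ((↑) '' V) by simp [Set.image_image, jC_coe]]
      exact hopen _ (by rintro _ ⟨x, -, rfl⟩; exact x.im_pos) (isOpenEmbedding_coe.isOpenMap _ hV)
    exact this.nhds_le z

/-- The values with more than one orbit in the fibre. -/
def badValues : Set ℂ := {c | ∃ z w, jH z = c ∧ jH w = c ∧ ¬ SLEquiv z w}

theorem isOpen_badValues : IsOpen badValues := by
  refine isOpen_iff_mem_nhds.mpr fun c ⟨z, w, hz, hw, h⟩ ↦ ?_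
  obtain ⟨V, hV, W, hW, hVW⟩ := mem_nhds_prod_iff.mp (eventually_not_slEquiv h)
  have h1 : jH '' V ∈ 𝓝 c := hz ▸ jH_nhds_le_map z (image_mem_map hV)
  have h2 : jH '' W ∈ 𝓝 c := hw ▸ jH_nhds_le_map w (image_mem_map hW)
  filter_upwards [h1, h2] with d hd1 hd2
  obtain ⟨x, hx, rfl⟩ := hd1
  obtain ⟨y, hy, hxy⟩ := hd2
  exact ⟨x, y, rfl, hxy, hVW (Set.mk_mem_prod hx hy)⟩

theorem jH_eq_1728_iff (z : ℍ) :
    jH z = 1728 ↔ E₆ z = 0 := by
  rw [jH, div_eq_iff (discriminant_ne_zero z), discriminant_eq_E₄_cube_sub_E₆_sq]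
  constructor
  · intro h
    exact (pow_eq_zero_iff two_ne_zero).mp (by linear_combination h)
  · intro h
    rw [h]; ring

theorem jH_eq_zero_iff (z : ℍ) : jH z = 0 ↔ E₄ z = 0 := by
  simp [jH, discriminant_ne_zero z]

theorem closure_badValues_subset :
    closure badValues ∩ {0, 1728}ᶜ ⊆ badValues := by
  rintro c ⟨hc, hc01⟩
  obtain ⟨u, hu, hlim⟩ := mem_closure_iff_seq_limit.mp hc
  choose z w hz hw hne using hu
  obtain ⟨M, hM⟩ := (Metric.isBounded_range_of_tendsto u hlim).exists_norm_le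
  obtain ⟨B, hB⟩ := exists_rep_in_truncated M
  choose z' hz'K hzz' using fun n ↦ hB (z n) (hz n ▸ hM _ ⟨n, rfl⟩)
  choose w' hw'K hww' using fun n ↦ hB (w n) (hw n ▸ hM _ ⟨n, rfl⟩)
  have hK := ModularGroup.isCompact_truncatedFundamentalDomain B
  obtain ⟨⟨a, b⟩, -, φ, hφ, hlimφ⟩ :=
    (hK.prod hK).tendsto_subseq (x := fun n ↦ (z' n, w' n)) (fun n ↦ ⟨hz'K n, hw'K n⟩)
  have ha : Tendsto (fun n ↦ z' (φ n)) atTop (𝓝 a) := (continuous_fst.tendsto _).comp hlimφ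
  have hb : Tendsto (fun n ↦ w' (φ n)) atTop (𝓝 b) := (continuous_snd.tendsto _).comp hlimφ
  have hja : jH a = c := tendsto_nhds_unique ((jH_continuous.tendsto a).comp ha)
    ((hlim.comp hφ.tendsto_atTop).congr fun n ↦ by
      simp [← jH_eq_of_slEquiv (hzz' (φ n)), hz])
  have hjb : jH b = c := tendsto_nhds_unique ((jH_continuous.tendsto b).comp hb)
    ((hlim.comp hφ.tendsto_atTop).congr fun n ↦ by
      simp [← jH_eq_of_slEquiv (hww' (φ n)), hw])
  refine ⟨a, b, hja, hjb, fun hab ↦ ?_⟩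
  obtain ⟨γ, hγ⟩ := hab
  simp only [Set.mem_compl_iff, Set.mem_insert_iff, Set.mem_singleton_iff, not_or] at hc01
  have h4 : E₄ a ≠ 0 := fun h ↦ hc01.1 (hja ▸ (jH_eq_zero_iff a).mpr h)
  have h6 : E₆ a ≠ 0 := fun h ↦ hc01.2 (hja ▸ (jH_eq_1728_iff a).mpr h)
  have hsd := (jC_differentiableOn.analyticOnNhd isOpen_upperHalfPlaneSet a a.im_pos).hasStrictDerivAt
  have hinj := (continuous_coe.tendsto a).eventually
    (hsd.eventually_left_inverse (deriv_jC_ne_zero a h4 h6))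
  have hb' : Tendsto (fun n ↦ γ⁻¹ • w' (φ n)) atTop (𝓝 a) := by
    have hcs : Continuous fun x : ℍ ↦ (⟨_, γ⁻¹, rfl⟩ : 𝒮ℒ) • x := continuous_const_smul _
    have := (hcs.tendsto b).comp hb
    rwa [show (⟨_, γ⁻¹, rfl⟩ : 𝒮ℒ) • b = a from (by rw [← hγ]; exact inv_smul_smul γ a)] at this
  obtain ⟨n, hn1, hn2⟩ := ((ha.eventually hinj).and (hb'.eventually hinj)).exists
  refine hne (φ n) ((hzz' (φ n)).trans ?_)
  have hj : jC (z' (φ n) : ℂ) = jC ((γ⁻¹ • w' (φ n) : ℍ) : ℂ) := by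
    rw [jC_coe, jC_coe, jH_smul, ← jH_eq_of_slEquiv (hzz' (φ n)),
      ← jH_eq_of_slEquiv (hww' (φ n)), hz, hw]
  rw [hj, hn2] at hn1
  exact (SLEquiv.symm ⟨γ⁻¹, UpperHalfPlane.ext hn1⟩).trans (hww' (φ n)).symm

theorem exists_good_value : ∃ c : ℂ, c ∈ ({0, 1728} : Set ℂ)ᶜ ∧ c ∉ badValues := by
  obtain ⟨B, hB⟩ := exists_jH_inj_near_infty
  obtain ⟨C, hC⟩ := (ModularGroup.isCompact_truncatedFundamentalDomain B).exists_bound_of_continuousOn
    jH_continuous.continuousOn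
  refine ⟨((|C| + 1729 : ℝ) : ℂ), ?_, ?_⟩
  · simp only [Set.mem_compl_iff, Set.mem_insert_iff, Set.mem_singleton_iff, not_or]
    constructor <;> · norm_cast; intro h; linarith [abs_nonneg C]
  · rintro ⟨z, w, hz, hw, hne⟩
    have key : ∀ x : ℍ, jH x = ((|C| + 1729 : ℝ) : ℂ) → ∃ x', SLEquiv x x' ∧ B ≤ x'.im := by
      intro x hx
      obtain ⟨g, hg⟩ := ModularGroup.exists_smul_mem_fd x
      refine ⟨g • x, ⟨g, rfl⟩, le_of_not_gt fun hlt ↦ ?_⟩
      have := hC (g • x) ⟨hg, hlt.le⟩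
      rw [jH_smul, hx, Complex.norm_real, Real.norm_eq_abs, abs_of_pos (by positivity)] at this
      linarith [le_abs_self C]
    obtain ⟨z', hzz, hz'⟩ := key z hz
    obtain ⟨w', hww, hw'⟩ := key w hw
    refine hne (hzz.trans ((hB z' w' hz' hw' ?_).trans hww.symm))
    rw [← jH_eq_of_slEquiv hzz, ← jH_eq_of_slEquiv hww, hz, hw]

theorem badValues_eq_empty : badValues = ∅ := by
  have hconn : IsPreconnected ({0, 1728} : Set ℂ)ᶜ :=
    ((Set.toFinite _).countable.isConnected_compl_of_one_lt_rank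
      (by rw [Complex.rank_real_complex]; norm_num)).isPreconnected
  have hsub : badValues ⊆ ({0, 1728} : Set ℂ) := by
    intro c hc
    by_contra hc01
    have h1 := hconn.subset_of_closure_inter_subset isOpen_badValues
      ⟨c, hc01, hc⟩ closure_badValues_subset
    obtain ⟨d, hd, hd'⟩ := exists_good_value
    exact hd' (h1 hd)
  by_contra h
  obtain ⟨c, hc⟩ := Set.nonempty_iff_ne_empty.mpr h
  exact infinite_of_mem_nhds c (isOpen_badValues.mem_nhds hc) ((Set.toFinite _).subset hsub)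

/-- `j` separates `SL(2, ℤ)`-orbits. -/
theorem jH_eq_iff {z w : ℍ} : jH z = jH w ↔ SLEquiv z w := by
  refine ⟨fun h ↦ ?_, jH_eq_of_slEquiv⟩
  by_contra hne
  have : jH z ∈ badValues := ⟨z, w, rfl, h.symm, hne⟩
  simp [badValues_eq_empty] at this

theorem jH_surjective : Function.Surjective jH := by
  have hopen : IsOpen (Set.range jH) :=
    (IsOpenMap.of_nhds_le jH_nhds_le_map).isOpen_range
  have hclosed : IsClosed (Set.range jH) := by
    refine isClosed_of_closure_subset fun c hc ↦ ?_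
    obtain ⟨u, hu, hlim⟩ := mem_closure_iff_seq_limit.mp hc
    choose z hz using hu
    obtain ⟨M, hM⟩ := (Metric.isBounded_range_of_tendsto u hlim).exists_norm_le
    obtain ⟨B, hB⟩ := exists_rep_in_truncated M
    choose z' hz'K hzz' using fun n ↦ hB (z n) (hz n ▸ hM _ ⟨n, rfl⟩)
    obtain ⟨a, -, φ, hφ, ha⟩ :=
      (ModularGroup.isCompact_truncatedFundamentalDomain B).tendsto_subseq hz'K
    exact ⟨a, tendsto_nhds_unique ((jH_continuous.tendsto a).comp ha)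
      ((hlim.comp hφ.tendsto_atTop).congr fun n ↦ by
        simp [← jH_eq_of_slEquiv (hzz' (φ n)), hz])⟩
  exact Set.range_eq_univ.mp
    (IsClopen.eq_univ ⟨hclosed, hopen⟩ ⟨jH (⟨Complex.I, by simp⟩), Set.mem_range_self _⟩)

end FLTA.Dim
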