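import Mathlib.NumberTheory.ModularForms.LevelOne.GradedRing
import Mathlib.NumberTheory.ModularForms.Derivative
import Mathlib.Analysis.Complex.Liouville

/-!
The Wronskian of `E₄` and `E₆`, and the derivative of `j = E₄³/Δ`.
-/

set_option autoImplicit false

noncomputable section

open UpperHalfPlane hiding I
open Complex Filter Topology ModularForm EisensteinSeries
open scoped MatrixGroups ModularForm Manifold

namespace FLTA.Dim

local notation "Δ" => ModularForm.discriminant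

/-- The derivative of a holomorphic function that is bounded at `i∞` tends to zero there. -/
theorem deriv_comp_ofComplex_tendsto_zero {F : ℍ → ℂ} (hF : MDiff F)
    (hb : IsBoundedAtImInfty F) :
    Tendsto (fun z : ℍ ↦ deriv (F ∘ ofComplex) z) atImInfty (𝓝 0) := by
  obtain ⟨M, A, hMA⟩ := isBoundedAtImInfty_iff.mp hb
  rw [Metric.tendsto_nhds]
  intro ε hε
  rw [Filter.eventually_iff, atImInfty_mem]
  refine ⟨max (2 * A) (2 * |M| / ε + 1), fun z hz ↦ ?_⟩
  simp only [Set.mem_ofPred_eq, dist_zero_right]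
  have hzim := z.im_pos
  have hdiff : DiffContOnCl ℂ (F ∘ ofComplex) (Metric.ball (z : ℂ) (z.im / 2)) := by
    refine DifferentiableOn.diffContOnCl_ball (U := upperHalfPlaneSet)
      (UpperHalfPlane.mdifferentiable_iff.mp hF) ?_
    intro w hw
    have h1 := abs_le.mp ((Complex.abs_im_le_norm (w - z)).trans (by simpa [dist_eq_norm] using hw))
    show 0 < w.im
    simp [Complex.sub_im, UpperHalfPlane.coe_im] at h1
    linarith [h1.1]
  have hbound : ∀ w ∈ Metric.sphere (z : ℂ) (z.im / 2), ‖(F ∘ ofComplex) w‖ ≤ |M| := by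
    intro w hw
    have h1 := abs_le.mp ((Complex.abs_im_le_norm (w - z)).trans (by simpa [dist_eq_norm] using hw.le))
    simp [Complex.sub_im, UpperHalfPlane.coe_im] at h1
    have hw0 : 0 < w.im := by linarith [h1.1]
    refine (hMA (ofComplex w) ?_).trans (le_abs_self M)
    rw [ofComplex_apply_of_im_pos hw0]
    show A ≤ w.im
    linarith [h1.1, le_max_left (2 * A) (2 * |M| / ε + 1)]
  refine (norm_deriv_le_of_forall_mem_sphere_norm_le (by positivity) hdiff hbound).trans_lt ?_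
  have h2 : 2 * |M| / ε + 1 ≤ z.im := (le_max_right _ _).trans hz
  rw [div_lt_iff₀ (by positivity : 0 < z.im / 2)]
  have h3 : 2 * |M| / ε < z.im := by linarith
  rw [div_lt_iff₀ hε] at h3
  linarith

/-- `4 E₄ E₆' - 6 E₆ E₄'`, normalised by `2πi`. -/
def wronskian46 : ℍ → ℂ :=
  (4 : ℂ) • ((E₄ : ℍ → ℂ) * Derivative.serreDerivative 6 (E₆ : ℍ → ℂ)) -
    (6 : ℂ) • ((E₆ : ℍ → ℂ) * Derivative.serreDerivative 4 (E₄ : ℍ → ℂ))

theorem wronskian46_eq (z : ℍ) :
    wronskian46 z = (2 * Real.pi * Complex.I)⁻¹ *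
      (4 * E₄ z * deriv ((E₆ : ℍ → ℂ) ∘ ofComplex) z -
        6 * E₆ z * deriv ((E₄ : ℍ → ℂ) ∘ ofComplex) z) := by
  simp [wronskian46, Derivative.normalizedDerivOfComplex]
  ring

theorem wronskian46_slash (γ : SL(2, ℤ)) : wronskian46 ∣[(12 : ℤ)] γ = wronskian46 := by
  have h4 : (E₄ : ℍ → ℂ) ∣[(4 : ℤ)] γ = E₄ := E₄.slash_action_eq' _ ⟨γ, rfl⟩
  have h6 : (E₆ : ℍ → ℂ) ∣[(6 : ℤ)] γ = E₆ := E₆.slash_action_eq' _ ⟨γ, rfl⟩
  have d4 := Derivative.serreDerivative_slash_invariant (k := 4) E₄.holo' h4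
  have d6 := Derivative.serreDerivative_slash_invariant (k := 6) E₆.holo' h6
  have p1 := ModularForm.mul_slash_SL2 4 (6 + 2) γ (E₄ : ℍ → ℂ)
    (Derivative.serreDerivative 6 (E₆ : ℍ → ℂ))
  have p2 := ModularForm.mul_slash_SL2 6 (4 + 2) γ (E₆ : ℍ → ℂ)
    (Derivative.serreDerivative 4 (E₄ : ℍ → ℂ))
  norm_num [-Derivative.serreDerivative_eq, -Derivative.serreDerivative_apply] at d4 d6 p1 p2
  simp only [h4, d6] at p1
  simp only [h6, d4] at p2
  simp only [wronskian46, sub_eq_add_neg, SlashAction.add_slash, SlashAction.neg_slash,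
    SL_smul_slash, p1, p2]

theorem wronskian46_mdiff : MDiff wronskian46 :=
  ((E₄.holo'.mul (Derivative.serreDerivative_mdifferentiable 6 E₆.holo')).const_smul (4 : ℂ)).sub
    ((E₆.holo'.mul (Derivative.serreDerivative_mdifferentiable 4 E₄.holo')).const_smul (6 : ℂ))

theorem levelOne_tendsto_atImInfty {k : ℤ} (f : ModularForm 𝒮ℒ k) :
    Tendsto f atImInfty (𝓝 ((qExpansion 1 f).coeff 0)) := by
  have hper := SlashInvariantFormClass.periodic_comp_ofComplex f one_mem_strictPeriods_SL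
  have han := ModularFormClass.analyticAt_cuspFunction_zero f one_pos one_mem_strictPeriods_SL
  rw [qExpansion_coeff_zero one_pos han hper, ← cuspFunction_apply_zero one_pos han hper]
  exact (han.continuousAt.tendsto.comp (qParam_tendsto_atImInfty one_pos)).congr
    (fun τ ↦ SlashInvariantFormClass.eq_cuspFunction f τ one_mem_strictPeriods_SL one_ne_zero)

theorem E4_tendsto_one : Tendsto (E₄ : ℍ → ℂ) atImInfty (𝓝 1) :=
  E_qExpansion_coeff_zero (k := 4) _ ⟨2, rfl⟩ ▸ levelOne_tendsto_atImInfty E₄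

theorem E6_tendsto_one : Tendsto (E₆ : ℍ → ℂ) atImInfty (𝓝 1) :=
  E_qExpansion_coeff_zero (k := 6) _ ⟨3, rfl⟩ ▸ levelOne_tendsto_atImInfty E₆

theorem wronskian46_isZeroAtImInfty : IsZeroAtImInfty wronskian46 := by
  have hb4 : IsBoundedAtImInfty (E₄ : ℍ → ℂ) := E4_tendsto_one.isBigO_one ℝ
  have hb6 : IsBoundedAtImInfty (E₆ : ℍ → ℂ) := E6_tendsto_one.isBigO_one ℝ
  have h := (((E4_tendsto_one.const_mul 4).mul
      (deriv_comp_ofComplex_tendsto_zero E₆.holo' hb6)).sub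
    ((E6_tendsto_one.const_mul 6).mul
      (deriv_comp_ofComplex_tendsto_zero E₄.holo' hb4))).const_mul
        (2 * Real.pi * Complex.I)⁻¹
  simp only [mul_zero, sub_zero] at h
  exact h.congr fun z ↦ (wronskian46_eq z).symm

/-- The Wronskian as a cusp form of weight 12. -/
def wronskianCusp : CuspForm 𝒮ℒ 12 where
  toFun := wronskian46
  slash_action_eq' := fun _ ⟨γ, hγ⟩ ↦ hγ ▸ wronskian46_slash γ
  holo' := wronskian46_mdiff
  zero_at_cusps' {c} hc := by
    rw [Subgroup.IsArithmetic.isCusp_iff_isCusp_SL2Z] at hc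
    rw [OnePoint.isZeroAt_iff_forall_SL2Z hc]
    intro γ _
    rw [wronskian46_slash γ]
    exact wronskian46_isZeroAtImInfty

/-- `j = E₄³/Δ` as a function of a complex variable. -/
def jC : ℂ → ℂ :=
  fun w ↦ E₄ (ofComplex w) ^ 3 / Δ (ofComplex w)

/-- `j = E₄³/Δ`. -/
def jH (z : ℍ) : ℂ := E₄ z ^ 3 / Δ z

theorem jC_coe (z : ℍ) : jC z = jH z := by
  simp [jC, jH]

theorem jC_hasDerivAt (z : ℍ) :
    HasDerivAt jC (E₄ z ^ 2 * E₆ z * (2 * Real.pi * Complex.I * wronskian46 z) /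
      (3456 * Δ z ^ 2)) z := by
  have h4 : HasDerivAt ((E₄ : ℍ → ℂ) ∘ ofComplex) (deriv ((E₄ : ℍ → ℂ) ∘ ofComplex) z) z :=
    (UpperHalfPlane.mdifferentiableAt_iff.mp (E₄.holo' z)).hasDerivAt
  have h6 : HasDerivAt ((E₆ : ℍ → ℂ) ∘ ofComplex) (deriv ((E₆ : ℍ → ℂ) ∘ ofComplex) z) z :=
    (UpperHalfPlane.mdifferentiableAt_iff.mp (E₆.holo' z)).hasDerivAt
  have hd := (((h4.pow 3).sub (h6.pow 2)).div_const 1728)
  have hne : (E₄ z ^ 3 - E₆ z ^ 2) / 1728 ≠ 0 := by
    rw [← discriminant_eq_E₄_cube_sub_E₆_sq]; exact discriminant_ne_zero z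
  have h := (h4.pow 3).div hd (by simpa using hne)
  have hfun : jC = (((E₄ : ℍ → ℂ) ∘ ofComplex) ^ 3) /
      (fun w ↦ (((((E₄ : ℍ → ℂ) ∘ ofComplex) ^ 3) - ((E₆ : ℍ → ℂ) ∘ ofComplex) ^ 2) w) / 1728) := by
    ext w
    simp [jC, discriminant_eq_E₄_cube_sub_E₆_sq]
  rw [hfun]
  refine h.congr_deriv ?_
  simp only [Function.comp_apply, Pi.pow_apply, Pi.sub_apply, ofComplex_apply, wronskian46_eq,
    discriminant_eq_E₄_cube_sub_E₆_sq]
  field_simp
  ring

theorem jC_differentiableOn : DifferentiableOn ℂ jC upperHalfPlaneSet := fun w hw ↦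
  (jC_hasDerivAt ⟨w, hw⟩).differentiableAt.differentiableWithinAt

theorem wronskian46_not_identically_zero : ∃ z, wronskian46 z ≠ 0 := by
  by_contra! h
  obtain ⟨a, ha⟩ := IsOpen.exists_is_const_of_deriv_eq_zero isOpen_upperHalfPlaneSet
    (convex_halfSpace_im_gt 0).isPreconnected jC_differentiableOn
    (fun w hw ↦ by simpa [h] using (jC_hasDerivAt ⟨w, hw⟩).deriv)
  have hE : ∀ z : ℍ, E₄ z ^ 3 = a * Δ z := fun z ↦ by
    have := ha z z.im_pos
    rw [jC_coe, jH, div_eq_iff (discriminant_ne_zero z)] at this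
    exact this
  have h0 : Tendsto (fun z : ℍ ↦ a * Δ z) atImInfty (𝓝 (a * 0)) :=
    (CuspFormClass.zero_at_infty CuspForm.discriminant).const_mul a
  have h1 : Tendsto (fun z : ℍ ↦ E₄ z ^ 3) atImInfty (𝓝 ((1 : ℂ) ^ 3)) := E4_tendsto_one.pow 3
  have := tendsto_nhds_unique h1 (h0.congr fun z ↦ (hE z).symm)
  simp at this

/-- The Wronskian is a nonzero multiple of `Δ`. -/
theorem exists_wronskian46_eq_mul_discriminant :
    ∃ a : ℂ, a ≠ 0 ∧ ∀ z, wronskian46 z = a * Δ z := by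
  obtain ⟨a, ha⟩ := CuspForm.exists_smul_discriminant_of_weight_eq_twelve wronskianCusp
  have h : ∀ z, wronskian46 z = a * Δ z := fun z ↦ (DFunLike.congr_fun ha z).symm
  refine ⟨a, fun ha0 ↦ ?_, h⟩
  obtain ⟨z, hz⟩ := wronskian46_not_identically_zero
  exact hz (by simp [h z, ha0])

theorem wronskian46_ne_zero (z : ℍ) : wronskian46 z ≠ 0 := by
  obtain ⟨a, ha, h⟩ := exists_wronskian46_eq_mul_discriminant
  rw [h]
  exact mul_ne_zero ha (discriminant_ne_zero z)

theorem E4_E6_not_both_zero (z : ℍ) (h4 : E₄ z = 0) : E₆ z ≠ 0 := fun h6 ↦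
  discriminant_ne_zero z (by rw [discriminant_eq_E₄_cube_sub_E₆_sq, h4, h6]; simp)

/-- The zeros of `E₄` are simple. -/
theorem deriv_E4_ne_zero {z : ℍ} (h : E₄ z = 0) : deriv ((E₄ : ℍ → ℂ) ∘ ofComplex) z ≠ 0 := by
  intro h'
  exact wronskian46_ne_zero z (by rw [wronskian46_eq, h, h']; ring)

/-- The zeros of `E₆` are simple. -/
theorem deriv_E6_ne_zero {z : ℍ} (h : E₆ z = 0) : deriv ((E₆ : ℍ → ℂ) ∘ ofComplex) z ≠ 0 := by
  intro h'
  exact wronskian46_ne_zero z (by rw [wronskian46_eq, h, h']; ring)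

theorem deriv_jC_ne_zero (z : ℍ) (h4 : E₄ z ≠ 0) (h6 : E₆ z ≠ 0) : deriv jC z ≠ 0 := by
  rw [(jC_hasDerivAt z).deriv]
  have := wronskian46_ne_zero z
  have := discriminant_ne_zero z
  simp [h4, h6, Real.pi_ne_zero, Complex.I_ne_zero, *]

end FLTA.Dim
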