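import Fermat.Agent.Dim.Division

/-!
# Periodic holomorphic functions near infinity

Limits at infinity, exponential decay, and the values at infinity of the standard level one forms.
-/

set_option autoImplicit false

noncomputable section

open UpperHalfPlane ModularForm Filter Topology Function
open scoped MatrixGroups ModularForm Manifold Real

namespace FLTA.Dim

variable {f : ℍ → ℂ} {h : ℝ} {k : ℤ} {Γ : Subgroup SL(2, ℤ)}

lemma periodic_comp_ofComplex (hper : ∀ z : ℍ, f (h +ᵥ z) = f z) :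
    Periodic (f ∘ ofComplex) (h : ℂ) := by
  intro w
  rcases lt_or_ge 0 w.im with hw | hw
  · have : 0 < (w + h).im := by simp [hw]
    simp only [comp_apply, ofComplex_apply_of_im_pos this, ofComplex_apply_of_im_pos hw]
    convert hper ⟨w, hw⟩ using 2
    ext
    simp [add_comm]
  · have : (w + h).im ≤ 0 := by simpa using hw
    simp [ofComplex_apply_of_im_nonpos this, ofComplex_apply_of_im_nonpos hw]

/-- A periodic, holomorphic, bounded function has a limit at infinity. -/
lemma tendsto_valueAtInfty (hh : 0 < h) (hper : ∀ z : ℍ, f (h +ᵥ z) = f z) (hf : MDiff f)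
    (hb : IsBoundedAtImInfty f) : Tendsto f atImInfty (𝓝 (valueAtInfty f)) := by
  have hp := periodic_comp_ofComplex hper
  have han := analyticAt_cuspFunction_zero hh hp hf hb
  rw [← cuspFunction_apply_zero hh han hp]
  refine (han.continuousAt.tendsto.comp (qParam_tendsto_atImInfty hh)).congr fun τ ↦ ?_
  exact eq_cuspFunction τ hh.ne' hp

lemma slash_T_apply (k : ℤ) (f : ℍ → ℂ) (z : ℍ) :
    (f ∣[k] ModularGroup.T) z = f ((1 : ℝ) +ᵥ z) := by
  rw [SL_slash_apply, modular_T_smul]
  simp [denom, ModularGroup.T]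

lemma periodic_of_mem_MF (hf : f ∈ MF Γ k) (hT : ModularGroup.T ∈ Γ) (z : ℍ) :
    f ((1 : ℝ) +ᵥ z) = f z := by
  rw [← slash_T_apply k f z, hf.2.1 _ hT]

lemma MF_top_tendsto (hf : f ∈ MF (⊤ : Subgroup SL(2, ℤ)) k) :
    Tendsto f atImInfty (𝓝 (valueAtInfty f)) :=
  tendsto_valueAtInfty one_pos (periodic_of_mem_MF hf trivial) hf.1 (MF.bounded_one hf)

lemma isZeroAtImInfty_slash_top (hf : f ∈ MF (⊤ : Subgroup SL(2, ℤ)) k)
    (h0 : IsZeroAtImInfty f) : f ∈ SF (⊤ : Subgroup SL(2, ℤ)) k :=
  ⟨hf.1, hf.2.1, fun γ ↦ by rw [hf.2.1 γ trivial]; exact h0⟩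

lemma tendsto_E4 : Tendsto (⇑E₄) atImInfty (𝓝 1) := by
  convert MF_top_tendsto E4_mem using 2
  rw [← qExpansion_coeff_zero one_pos
      (ModularFormClass.analyticAt_cuspFunction_zero E₄ one_pos one_mem_strictPeriods_SL)
      (SlashInvariantFormClass.periodic_comp_ofComplex E₄ one_mem_strictPeriods_SL),
    EisensteinSeries.E_qExpansion_coeff_zero _ ⟨2, rfl⟩]

lemma tendsto_E6 : Tendsto (⇑E₆) atImInfty (𝓝 1) := by
  convert MF_top_tendsto E6_mem using 2
  rw [← qExpansion_coeff_zero one_pos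
      (ModularFormClass.analyticAt_cuspFunction_zero E₆ one_pos one_mem_strictPeriods_SL)
      (SlashInvariantFormClass.periodic_comp_ofComplex E₆ one_mem_strictPeriods_SL),
    EisensteinSeries.E_qExpansion_coeff_zero _ ⟨3, rfl⟩]

lemma tendsto_discriminant : Tendsto ModularForm.discriminant atImInfty (𝓝 0) :=
  ModularForm.discriminant_isZeroAtImInfty

end FLTA.Dim
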